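/-
S56 / leaf SO-RAM (helper2): the mod-`p` cyclotomic character is RAMIFIED at `p` (`p` odd), in the
`ValuationSubring` language of the frozen local conditions.

For every valuation subring `P` of `ℚ̄` over an odd prime `p` there is `σ` in the inertia subgroup
of `P` moving some `p`-th root of unity.  Consequences: for a residual representation with
cyclotomic determinant, `det ρ̄` is non-trivial on inertia at `p` — the hypothesis `hram` of
`StrictOrdNormalForm.line_unique` (uniqueness of the strict-ordinary line).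

Proof (local): inertia of `Gal(ℚ̄_p/ℚ_p)` is the group fixing all unramified extensions
(`UnramInstNorm.normInertia_eq_iInf`); if it fixed `ζ_p`, then `ζ_p` would lie in an unramified
extension `E` (`exists_le_En_of_le_fixedField`), whose value group is `p^ℤ`
(`isUnramifiedIn_iff_forall_norm_eq_zpow`); but `‖ζ_p - 1‖ < 1` and `‖p‖ ≤ ‖ζ_p - 1‖ ^ (p - 1)`
(from `∏_{0<k<p} (1 - ζ^k) = p`), which is impossible for `p - 1 ≥ 2`.

* `norm_sub_one_lt_one`, `norm_prime_le_pow` : the two norm estimates in `PadicAlgCl p`;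
* `not_mem_of_isUnramifiedIn` : `ζ_p` lies in no unramified extension of `ℚ_p` (`p` odd);
* `exists_mem_normInertia_ne` : some local inertia element moves `ζ_p`;
* `exists_mem_inertia_padicPlace_ne`, **`exists_mem_inertia_ne`** : the global statement at
  `padicPlace p`, resp. at every `P` over `p`;
* `exists_mem_inertia_natCast_ne_one` : in terms of the exponent `a` of the frozen cyclotomic
  clauses (`(a : k) ≠ 1` in every field `k` with `(p : k) = 0`);
* **`exists_mem_inertia_det_ne_one`** : `∃ σ ∈ I_P, det (ρbar.ρ σ) ≠ 1` when `det ρbar` is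
  cyclotomic;
* `exists_mem_inertia_cycloChar_ne_one`, `exists_mem_localInertia_cycloChar_ne_one` : in terms of
  the character `ExtCitation.cycloChar p`, globally and on `Places.Dict.localInertia`.
-/
import Mathlib
import Fermat.Agent.S56.PT.UnramInstNorm
import Fermat.Agent.S56.Places.Dict
import Fermat.Agent.N4.FrobDensity.CycloAdic
import Fermat.Agent.S55.DualTwist
import Fermat.Prelude.Def_GaloisRep_LocalConditions

set_option autoImplicit false
set_option linter.unusedSectionVars false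

namespace Fermat.Agent.S56.Loc.CycloRamified

open IntermediateField IsLocalRing Fermat.Agent.S55.LocalInt Fermat.Agent.S55.LocalDict
  Fermat.Agent.S55.Local.Unram Fermat.Agent.S56.PT.UnramInstNorm

local notation "Qbar" => AlgebraicClosure ℚ
local notation "Γ" => (AlgebraicClosure ℚ ≃ₐ[ℚ] AlgebraicClosure ℚ)

variable (p : ℕ) [Fact p.Prime]

/-! ### Norm estimates for `ζ_p - 1` in `PadicAlgCl p` -/

theorem isIntegral_of_pow_eq_one {ζ : PadicAlgCl p} (hζ : ζ ^ p = 1) : IsIntegral ℤ_[p] ζ :=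
  IsIntegral.of_pow (Fact.out : p.Prime).pos (hζ ▸ isIntegral_one)

theorem norm_prime_lt_one : ‖((p : ℕ) : PadicAlgCl p)‖ < 1 := by
  rw [norm_natCast_self]
  have hq : (1 : ℝ) < p := by exact_mod_cast (Fact.out : p.Prime).one_lt
  exact inv_lt_one_of_one_lt₀ hq

/-- `‖ζ - 1‖ < 1` for a `p`-th root of unity `ζ` of `PadicAlgCl p`. -/
theorem norm_sub_one_lt_one {ζ : PadicAlgCl p} (hζ : ζ ^ p = 1) : ‖ζ - 1‖ < 1 := by
  have hint : IsIntegral ℤ_[p] ζ := isIntegral_of_pow_eq_one p hζ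
  let x : integralClosure ℤ_[p] (PadicAlgCl p) := ⟨ζ, hint⟩ - 1
  obtain ⟨r, hr⟩ := exists_add_pow_prime_eq (Fact.out : p.Prime) x 1
  have hx : (x : PadicAlgCl p) = ζ - 1 := by
    show ((⟨ζ, hint⟩ - 1 : integralClosure ℤ_[p] (PadicAlgCl p)) : PadicAlgCl p) = ζ - 1
    push_cast
    rfl
  have h1 : ((x : PadicAlgCl p) + 1) ^ p =
      (x : PadicAlgCl p) ^ p + 1 ^ p + (p : PadicAlgCl p) * (x : PadicAlgCl p) * 1 *
        (r : PadicAlgCl p) := by
    have := congrArg (Subtype.val : integralClosure ℤ_[p] (PadicAlgCl p) → PadicAlgCl p) hr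
    push_cast at this
    exact this
  rw [hx, sub_add_cancel, hζ, one_pow, mul_one] at h1
  have h2 : (ζ - 1) ^ p = -((p : PadicAlgCl p) * ((ζ - 1) * (r : PadicAlgCl p))) := by
    linear_combination -h1
  have hr1 : ‖(r : PadicAlgCl p)‖ ≤ 1 := (isIntegral_padicInt_iff_norm_le_one p _).1 r.2
  have hx1 : ‖ζ - 1‖ ≤ 1 := by
    rw [← hx]
    exact (isIntegral_padicInt_iff_norm_le_one p _).1 x.2
  have h3 : ‖ζ - 1‖ ^ p ≤ ‖((p : ℕ) : PadicAlgCl p)‖ := by
    rw [← norm_pow, h2, norm_neg, norm_mul, norm_mul]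
    refine mul_le_of_le_one_right (norm_nonneg _) ?_
    exact mul_le_one₀ hx1 (norm_nonneg _) hr1
  by_contra hge
  rw [not_lt] at hge
  have h4 : (1 : ℝ) ≤ ‖ζ - 1‖ ^ p := one_le_pow₀ hge
  exact absurd (h4.trans h3) (not_le.mpr (norm_prime_lt_one p))

/-- `‖1 - ζ ^ j‖ ≤ ‖ζ - 1‖` for an integral `ζ`. -/
theorem norm_one_sub_pow_le {ζ : PadicAlgCl p} (hint : IsIntegral ℤ_[p] ζ) (j : ℕ) :
    ‖1 - ζ ^ j‖ ≤ ‖ζ - 1‖ := by
  have h1 : 1 - ζ ^ j = -((∑ i ∈ Finset.range j, ζ ^ i) * (ζ - 1)) := by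
    rw [geom_sum_mul]; ring
  have h2 : ‖∑ i ∈ Finset.range j, ζ ^ i‖ ≤ 1 :=
    (isIntegral_padicInt_iff_norm_le_one p _).1 (IsIntegral.sum _ fun i _ => hint.pow i)
  rw [h1, norm_neg, norm_mul]
  exact mul_le_of_le_one_left (norm_nonneg _) h2

/-- `‖p‖ ≤ ‖ζ - 1‖ ^ (p - 1)` for a primitive `p`-th root of unity `ζ` of `PadicAlgCl p`. -/
theorem norm_prime_le_pow {ζ : PadicAlgCl p} (hζ : IsPrimitiveRoot ζ p) :
    ‖((p : ℕ) : PadicAlgCl p)‖ ≤ ‖ζ - 1‖ ^ (p - 1) := by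
  have hp1 : p - 1 + 1 = p := Nat.sub_add_cancel (Fact.out : p.Prime).pos
  have hζ' : IsPrimitiveRoot ζ (p - 1 + 1) := by rw [hp1]; exact hζ
  have hprod := hζ'.prod_one_sub_pow_eq_order
  have hcast : ((p : ℕ) : PadicAlgCl p) = ((p - 1 : ℕ) : PadicAlgCl p) + 1 := by
    rw [← Nat.cast_succ, Nat.succ_eq_add_one, hp1]
  have hint : IsIntegral ℤ_[p] ζ := isIntegral_of_pow_eq_one p hζ.pow_eq_one
  rw [hcast, ← hprod, norm_prod]
  calc ∏ k ∈ Finset.range (p - 1), ‖1 - ζ ^ (k + 1)‖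
      ≤ ∏ _k ∈ Finset.range (p - 1), ‖ζ - 1‖ :=
        Finset.prod_le_prod (fun k _ => norm_nonneg _)
          (fun k _ => norm_one_sub_pow_le p hint (k + 1))
    _ = ‖ζ - 1‖ ^ (p - 1) := by rw [Finset.prod_const, Finset.card_range]

/-! ### `ζ_p` lies in no unramified extension -/

/-- A primitive `p`-th root of unity (`p` odd) lies in no unramified extension of `ℚ_p`. -/
theorem not_mem_of_isUnramifiedIn (hp2 : p ≠ 2) {ζ : PadicAlgCl p} (hζ : IsPrimitiveRoot ζ p)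
    {E : IntermediateField ℚ_[p] (PadicAlgCl p)} (hE : IsUnramifiedIn ℤ_[p] E) : ζ ∉ E := by
  intro hmem
  have hfd := hE.1
  have hp : p.Prime := Fact.out
  have hq1 : (1 : ℝ) < p := by exact_mod_cast hp.one_lt
  have hq0 : (0 : ℝ) < p := by linarith
  have hne : ζ ≠ 1 := hζ.ne_one hp.one_lt
  have hx0 : (⟨ζ, hmem⟩ - 1 : E) ≠ 0 := by
    intro h
    apply hne
    have := congrArg (Subtype.val : E → PadicAlgCl p) h
    push_cast at this
    exact sub_eq_zero.mp this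
  obtain ⟨n, hn⟩ := (isUnramifiedIn_iff_forall_norm_eq_zpow E).1 hE _ hx0
  have hcoe : (((⟨ζ, hmem⟩ - 1 : E)) : PadicAlgCl p) = ζ - 1 := by
    push_cast
    rfl
  rw [hcoe] at hn
  have hlt := norm_sub_one_lt_one p hζ.pow_eq_one
  have hn0 : n < 0 := by
    by_contra h
    rw [not_lt] at h
    have : (1 : ℝ) ≤ (p : ℝ) ^ n := one_le_zpow₀ hq1.le h
    rw [← hn] at this
    exact absurd hlt (not_lt.mpr this)
  have hle : ‖ζ - 1‖ ≤ (p : ℝ)⁻¹ := by
    rw [hn, ← zpow_neg_one]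
    exact zpow_le_zpow_right₀ hq1.le (by omega)
  have h2 : 2 ≤ p - 1 := by
    have := hp.two_le
    omega
  have hle1 : ‖ζ - 1‖ ≤ 1 := hlt.le
  have h3 : ‖ζ - 1‖ ^ (p - 1) ≤ ‖ζ - 1‖ ^ 2 :=
    pow_le_pow_of_le_one (norm_nonneg _) hle1 h2
  have h4 : ‖ζ - 1‖ ^ 2 ≤ ((p : ℝ)⁻¹) ^ 2 :=
    pow_le_pow_left₀ (norm_nonneg _) hle 2
  have h5 := norm_prime_le_pow p hζ
  rw [norm_natCast_self] at h5
  have h6 : (p : ℝ)⁻¹ ≤ ((p : ℝ)⁻¹) ^ 2 := h5.trans (h3.trans h4)
  have hinv0 : (0 : ℝ) < (p : ℝ)⁻¹ := inv_pos.mpr hq0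
  have hinv1 : (p : ℝ)⁻¹ < 1 := inv_lt_one_of_one_lt₀ hq1
  nlinarith

/-! ### A local inertia element moving `ζ_p` -/

/-- Some element of the inertia subgroup of `Gal(PadicAlgCl p / ℚ_p)` moves `ζ_p` (`p` odd). -/
theorem exists_mem_normInertia_ne (hp2 : p ≠ 2) {ζ : PadicAlgCl p} (hζ : IsPrimitiveRoot ζ p) :
    ∃ τ ∈ normInertia p, τ ζ ≠ ζ := by
  by_contra hcon0
  have hcon : ∀ τ ∈ normInertia p, τ ζ = ζ := fun τ hτ =>
    by_contra fun h => hcon0 ⟨τ, hτ, h⟩
  have hint : IsIntegral ℚ_[p] ζ := Algebra.IsIntegral.isIntegral ζ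
  have hfd : FiniteDimensional ℚ_[p] ℚ_[p]⟮ζ⟯ := adjoin.finiteDimensional hint
  have hle : ℚ_[p]⟮ζ⟯ ≤ IntermediateField.fixedField (normInertia p) := by
    rw [adjoin_simple_le_iff, IntermediateField.mem_fixedField_iff]
    intro τ hτ
    exact hcon τ hτ
  obtain ⟨k, hk⟩ := exists_le_En_of_le_fixedField p hle
  exact not_mem_of_isUnramifiedIn p hp2 hζ (isUnramifiedIn_En_succ p k)
    (hk (mem_adjoin_simple_self ℚ_[p] ζ))

/-! ### The global statement -/

/-- Some element of the inertia subgroup of the distinguished place `padicPlace p` moves a `p`-th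
root of unity (`p` odd). -/
theorem exists_mem_inertia_padicPlace_ne (hp2 : p ≠ 2) :
    ∃ σ ∈ (padicPlace p).inertiaSubgroupIn ℚ, ∃ ζ : Qbar, ζ ^ p = 1 ∧ σ ζ ≠ ζ := by
  have : NeZero (p : ℚ) := ⟨by exact_mod_cast (Fact.out : p.Prime).ne_zero⟩
  obtain ⟨ζ₀, hζ₀⟩ := HasEnoughRootsOfUnity.exists_primitiveRoot Qbar p
  have hζ : IsPrimitiveRoot (padicEmbedding p ζ₀) p :=
    hζ₀.map_of_injective (padicEmbedding p).toRingHom.injective
  obtain ⟨τ, hτ, hne⟩ := exists_mem_normInertia_ne p hp2 hζ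
  rw [← comap_inertiaSubgroupIn_eq, Subgroup.mem_comap] at hτ
  refine ⟨localGaloisToGlobal p τ, hτ, ζ₀, hζ₀.pow_eq_one, fun h => hne ?_⟩
  rw [← padicEmbedding_localGaloisToGlobal, h]

/-- **The cyclotomic character mod `p` is ramified at `p`** (`p` odd): for every valuation subring
`P` of `ℚ̄` over `p`, some element of the inertia subgroup of `P` moves a `p`-th root of unity. -/
theorem exists_mem_inertia_ne (hp2 : p ≠ 2) (P : ValuationSubring Qbar)
    (hP : P.LiesOverPrime p) :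
    ∃ σ ∈ P.inertiaSubgroupIn ℚ, ∃ ζ : Qbar, ζ ^ p = 1 ∧ σ ζ ≠ ζ := by
  obtain ⟨σ, hσ, ζ, hζ, hne⟩ := exists_mem_inertia_padicPlace_ne p hp2
  obtain ⟨g, hg⟩ := Fermat.Agent.S56.Places.Dict.exists_smul_padicPlace_eq p hP
  refine ⟨g * σ * g⁻¹, ?_, g ζ, ?_, ?_⟩
  · have h := Fermat.Agent.S55.InertiaConj.conj_mem_inertiaSubgroupIn (padicPlace p) g σ hσ
    rwa [← hg] at h
  · rw [← map_pow, hζ, map_one]
  · intro h
    apply hne
    have h1 : (g * σ * g⁻¹) (g ζ) = g (σ ζ) := by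
      rw [AlgEquiv.mul_apply, AlgEquiv.mul_apply, ← AlgEquiv.mul_apply g⁻¹ g, inv_mul_cancel,
        AlgEquiv.one_apply]
    rw [h1] at h
    exact g.injective h

/-- In terms of the exponent of the frozen cyclotomic clauses: for every `P` over `p` there is
`σ ∈ I_P` such that every `a` with `σ μ = μ ^ a` on `μ_p` is `≠ 1` in every ring `k` of
characteristic `p`. -/
theorem exists_mem_inertia_natCast_ne_one (hp2 : p ≠ 2) (P : ValuationSubring Qbar)
    (hP : P.LiesOverPrime p) :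
    ∃ σ ∈ P.inertiaSubgroupIn ℚ, ∀ (k : Type) [Field k], (p : k) = 0 → ∀ a : ℕ,
      (∀ μ : Qbar, μ ^ p ^ 1 = 1 → σ μ = μ ^ a) → (a : k) ≠ 1 := by
  obtain ⟨σ, hσ, ζ, hζ, hne⟩ := exists_mem_inertia_ne p hp2 P hP
  refine ⟨σ, hσ, fun k _ hpk a ha h1 => hne ?_⟩
  have : CharP k p := by
    have := CharP.exists k
    obtain ⟨c, hc⟩ := this
    have hdvd : c ∣ p := (CharP.cast_eq_zero_iff k c p).1 hpk
    rcases (Nat.dvd_prime (Fact.out : p.Prime)).1 hdvd with h | h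
    · subst h
      exact absurd (CharP.char_is_prime_or_zero k 1) (by simp [Nat.not_prime_one])
    · subst h; exact hc
  have hmod : a ≡ 1 [MOD p] := by
    rw [← CharP.natCast_eq_natCast k p]
    simpa using h1
  have hζ' : ζ ^ p ^ 1 = 1 := by rw [pow_one]; exact hζ
  rw [ha ζ hζ']
  have e : a = a % p + p * (a / p) := (Nat.mod_add_div a p).symm
  have hmod' : a % p = 1 := by
    have := hmod
    unfold Nat.ModEq at this
    rw [this, Nat.mod_eq_of_lt (Fact.out : p.Prime).one_lt]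
  rw [e, pow_add, pow_mul, hζ, one_pow, mul_one, hmod', pow_one]

/-- **`det ρ̄` is ramified at `p`**: if `det ρbar` is the mod-`p` cyclotomic character (`p` odd),
then for every `P` over `p` some `σ ∈ I_P` has `det (ρbar.ρ σ) ≠ 1`.  This is the hypothesis
`hram` of `StrictOrdNormalForm.line_unique`. -/
theorem exists_mem_inertia_det_ne_one (hp2 : p ≠ 2) {k : Type} [Field k]
    (ρbar : ResidualGaloisRep k)
    (hdet : (GaloisRepAdic.ofResidualGaloisRep ρbar).DetIsCyclotomic p)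
    (P : ValuationSubring Qbar) (hP : P.LiesOverPrime p) :
    ∃ σ ∈ P.inertiaSubgroupIn ℚ, LinearMap.det (ρbar.ρ σ) ≠ 1 := by
  obtain ⟨σ, hσ, h⟩ := exists_mem_inertia_natCast_ne_one p hp2 P hP
  have hpk : (p : k) = 0 := by
    have := hdet.1
    rwa [IsLocalRing.maximalIdeal_eq_bot, Ideal.mem_bot] at this
  refine ⟨σ, hσ, ?_⟩
  have ha : ∀ μ : Qbar, μ ^ p ^ 1 = 1 → σ μ = μ ^ _ :=
    fun _ hμ => Fermat.Agent.N4.FrobDensity.cycloCharAdic_spec p σ hμ
  have h1 := hdet.2 1 σ _ ha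
  have h0 : (((p ^ 1 : ℕ)) : k) = 0 := by rw [pow_one]; exact hpk
  rw [h0, Ideal.span_singleton_eq_bot.mpr rfl, Ideal.mem_bot, sub_eq_zero] at h1
  have h2 : LinearMap.det (ρbar.ρ σ) = _ := h1
  rw [h2]
  exact h k hpk _ ha

/-- The mod-`p` cyclotomic character `cycloChar p` is non-trivial on every inertia group over `p`
(`p` odd). -/
theorem exists_mem_inertia_cycloChar_ne_one (hp2 : p ≠ 2) (P : ValuationSubring Qbar)
    (hP : P.LiesOverPrime p) :
    ∃ σ ∈ P.inertiaSubgroupIn ℚ, ExtCitation.cycloChar p σ ≠ 1 := by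
  obtain ⟨σ, hσ, ζ, hζ, hne⟩ := exists_mem_inertia_ne p hp2 P hP
  refine ⟨σ, hσ, fun h => hne ?_⟩
  have : Fact (1 < p) := ⟨(Fact.out : p.Prime).one_lt⟩
  rw [Fermat.Agent.S55.DualTwist.cycloChar_spec p σ hζ, h, Units.val_one, ZMod.val_one, pow_one]

/-- The local form: `cycloChar` is non-trivial on the inertia subgroup `Places.Dict.localInertia`
of the local Galois group at an odd prime `q`. -/
theorem exists_mem_localInertia_cycloChar_ne_one (q : Nat.Primes) (hq2 : (q : ℕ) ≠ 2) :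
    haveI : Fact (q : ℕ).Prime := ⟨q.2⟩
    ∃ τ ∈ Fermat.Agent.S56.Places.Dict.localInertia q,
      ExtCitation.cycloChar (q : ℕ) (ExtCitation.primeLocalToGlobal q τ) ≠ 1 := by
  have : Fact (q : ℕ).Prime := ⟨q.2⟩
  obtain ⟨σ, hσ, hne⟩ := exists_mem_inertia_cycloChar_ne_one (q : ℕ) hq2
    (ExtCitation.primeLocalPlace q) (Fermat.Agent.S56.Places.Dict.liesOverPrime_primeLocalPlace q)
  rw [← Fermat.Agent.S56.Places.Dict.map_localInertia, Subgroup.mem_map] at hσ
  obtain ⟨τ, hτ, rfl⟩ := hσ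
  exact ⟨τ, hτ, hne⟩

end Fermat.Agent.S56.Loc.CycloRamified
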