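/-
S56 / block E (local terms), the formal part of E-ECp (helper25): SUPER-ADDITIVITY of
`e(Y) = h¹(Y) − h⁰(Y) − h²(Y)` on short exact sequences, from the long exact sequence truncated at
`H²` (no right exactness of `H²`, no `H³`):

  `e(X₂) = e(X₁) + e(X₃) + dim coker (H²(X₂) → H²(X₃)) ≥ e(X₁) + e(X₃)`.

Generic setting: `(G, 𝒰)` a group with a level structure (e.g. a local Galois group), coefficients
in a field `k`.

* `finrank_nine_le` : the rank inequality for an exact sequence `0 → V₁ → ⋯ → V₈ → V₉`;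
* **`superAdditive`** : the `ℕ`-inequality
  `h¹(X₁) + h¹(X₃) + h⁰(X₂) + h²(X₂) ≤ h¹(X₂) + h⁰(X₁) + h²(X₁) + h⁰(X₃) + h²(X₃)`;
* `superAdditive_of_monoDuality` : the same with the finiteness of `H²` supplied by local duality
  in mono form (`LocalDuality.MonoDuality`) and of `H¹` by `LocalDuality.FiniteH1`;
* `eulerE`, `eulerE_superAdditive` : the `ℤ`-valued form.
-/
import Mathlib
import Fermat.Agent.S55.LevelDuality
import Fermat.Agent.S56.PT.LocalDuality

set_option autoImplicit false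
set_option linter.unusedSectionVars false

namespace Fermat.Agent.S56.Loc.SuperAdd

open CategoryTheory groupCohomology Rep Module Fermat.Agent.S55.Level
  Fermat.Agent.S55.DualTwist Fermat.Agent.S55.LevelDuality Fermat.Agent.S56.PT.LocalDuality

universe u

/-! ### Rank inequality in a nine term exact sequence -/

section Nine

variable {k : Type*} [Field k] {V₁ V₂ V₃ V₄ V₅ V₆ V₇ V₈ V₉ : Type*}
  [AddCommGroup V₁] [Module k V₁] [AddCommGroup V₂] [Module k V₂] [AddCommGroup V₃] [Module k V₃]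
  [AddCommGroup V₄] [Module k V₄] [AddCommGroup V₅] [Module k V₅] [AddCommGroup V₆] [Module k V₆]
  [AddCommGroup V₇] [Module k V₇] [AddCommGroup V₈] [Module k V₈] [AddCommGroup V₉] [Module k V₉]
  [FiniteDimensional k V₁] [FiniteDimensional k V₂] [FiniteDimensional k V₃]
  [FiniteDimensional k V₄] [FiniteDimensional k V₅] [FiniteDimensional k V₆]
  [FiniteDimensional k V₇] [FiniteDimensional k V₈] [FiniteDimensional k V₉]

/-- The rank inequality for an exact sequence `0 → V₁ → ⋯ → V₈ → V₉` (no surjectivity at the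
end). -/
theorem finrank_nine_le (a₁ : V₁ →ₗ[k] V₂) (a₂ : V₂ →ₗ[k] V₃) (a₃ : V₃ →ₗ[k] V₄)
    (a₄ : V₄ →ₗ[k] V₅) (a₅ : V₅ →ₗ[k] V₆) (a₆ : V₆ →ₗ[k] V₇) (a₇ : V₇ →ₗ[k] V₈) (a₈ : V₈ →ₗ[k] V₉)
    (h₁ : Function.Injective a₁) (e₁ : LinearMap.range a₁ = LinearMap.ker a₂)
    (e₂ : LinearMap.range a₂ = LinearMap.ker a₃) (e₃ : LinearMap.range a₃ = LinearMap.ker a₄)
    (e₄ : LinearMap.range a₄ = LinearMap.ker a₅) (e₅ : LinearMap.range a₅ = LinearMap.ker a₆)
    (e₆ : LinearMap.range a₆ = LinearMap.ker a₇) (e₇ : LinearMap.range a₇ = LinearMap.ker a₈) :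
    finrank k V₂ + finrank k V₄ + finrank k V₆ + finrank k V₈ ≤
      finrank k V₁ + finrank k V₃ + finrank k V₅ + finrank k V₇ + finrank k V₉ := by
  have r₁ := LinearMap.finrank_range_add_finrank_ker a₁
  have r₂ := LinearMap.finrank_range_add_finrank_ker a₂
  have r₃ := LinearMap.finrank_range_add_finrank_ker a₃
  have r₄ := LinearMap.finrank_range_add_finrank_ker a₄
  have r₅ := LinearMap.finrank_range_add_finrank_ker a₅
  have r₆ := LinearMap.finrank_range_add_finrank_ker a₆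
  have r₇ := LinearMap.finrank_range_add_finrank_ker a₇
  have r₈ := LinearMap.finrank_range_add_finrank_ker a₈
  have k₁ : finrank k (LinearMap.ker a₁) = 0 := by
    rw [LinearMap.ker_eq_bot.2 h₁]
    exact finrank_bot k V₁
  have k₉ : finrank k (LinearMap.range a₈) ≤ finrank k V₉ := Submodule.finrank_le _
  rw [e₁] at r₁
  rw [e₂] at r₂
  rw [e₃] at r₃
  rw [e₄] at r₄
  rw [e₅] at r₅
  rw [e₆] at r₆
  rw [e₇] at r₇
  omega

end Nine

variable {k G : Type u} [Field k] [Group G] (𝒰 : LevelStructure G)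

/-! ### Super-additivity -/

section Super

open ShortComplex

variable {X : ShortComplex (Rep.{u} k G)} [IsDiscrete 𝒰 X.X₁] [IsDiscrete 𝒰 X.X₂]
  [IsDiscrete 𝒰 X.X₃] [FiniteDimensional k X.X₁] [FiniteDimensional k X.X₂]
  [FiniteDimensional k X.X₃]

/-- **Super-additivity of `h¹ − h⁰ − h²`** on a short exact sequence of finite dimensional discrete
representations whose `H¹` and `H²` are finite dimensional. -/
theorem superAdditive (hX : X.ShortExact)
    [FiniteDimensional k (levelCohomology 𝒰 X.X₁ 1)] [FiniteDimensional k (levelCohomology 𝒰 X.X₂ 1)]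
    [FiniteDimensional k (levelCohomology 𝒰 X.X₃ 1)] [FiniteDimensional k (levelCohomology 𝒰 X.X₁ 2)]
    [FiniteDimensional k (levelCohomology 𝒰 X.X₂ 2)]
    [FiniteDimensional k (levelCohomology 𝒰 X.X₃ 2)] :
    finrank k (levelCohomology 𝒰 X.X₁ 1) + finrank k (levelCohomology 𝒰 X.X₃ 1) +
        finrank k (levelCohomology 𝒰 X.X₂ 0) + finrank k (levelCohomology 𝒰 X.X₂ 2) ≤
      finrank k (levelCohomology 𝒰 X.X₂ 1) + finrank k (levelCohomology 𝒰 X.X₁ 0) +
        finrank k (levelCohomology 𝒰 X.X₁ 2) + finrank k (levelCohomology 𝒰 X.X₃ 0) +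
        finrank k (levelCohomology 𝒰 X.X₃ 2) := by
  have h01 := finiteDimensional_levelCohomology_zero 𝒰 X.X₁
  have h02 := finiteDimensional_levelCohomology_zero 𝒰 X.X₂
  have h03 := finiteDimensional_levelCohomology_zero 𝒰 X.X₃
  have hf : Function.Injective X.f.hom := (Rep.mono_iff_injective X.f).1 hX.mono_f
  have key := finrank_nine_le (lmap 𝒰 X.f 0) (lmap 𝒰 X.g 0) (levelδ 𝒰 hX 0 1 rfl).hom
    (lmap 𝒰 X.f 1) (lmap 𝒰 X.g 1) (levelδ 𝒰 hX 1 2 rfl).hom (lmap 𝒰 X.f 2) (lmap 𝒰 X.g 2)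
    (homologyMap_levelMap_zero_injective 𝒰 X.f hf)
    ((ShortComplex.moduleCat_exact_iff_range_eq_ker _).1 (level_exact₂ 𝒰 hX 0))
    ((ShortComplex.moduleCat_exact_iff_range_eq_ker _).1 (level_exact₃ 𝒰 hX 0 1 rfl))
    ((ShortComplex.moduleCat_exact_iff_range_eq_ker _).1 (level_exact₁ 𝒰 hX 0 1 rfl))
    ((ShortComplex.moduleCat_exact_iff_range_eq_ker _).1 (level_exact₂ 𝒰 hX 1))
    ((ShortComplex.moduleCat_exact_iff_range_eq_ker _).1 (level_exact₃ 𝒰 hX 1 2 rfl))
    ((ShortComplex.moduleCat_exact_iff_range_eq_ker _).1 (level_exact₁ 𝒰 hX 1 2 rfl))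
    ((ShortComplex.moduleCat_exact_iff_range_eq_ker _).1 (level_exact₂ 𝒰 hX 2))
  omega

/-- Super-additivity, with the finiteness of `H²` from local duality in mono form and of `H¹` from
`FiniteH1` (the situation of a local Galois group). -/
theorem superAdditive_of_monoDuality (χ : G →* kˣ) [IsDiscrete 𝒰 (ofChar χ)]
    (t : levelCohomology 𝒰 (ofChar χ) 2 →ₗ[k] k) (hΨ : MonoDuality 𝒰 χ t)
    (hfin : FiniteH1 (k := k) 𝒰) (hX : X.ShortExact) :
    finrank k (levelCohomology 𝒰 X.X₁ 1) + finrank k (levelCohomology 𝒰 X.X₃ 1) +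
        finrank k (levelCohomology 𝒰 X.X₂ 0) + finrank k (levelCohomology 𝒰 X.X₂ 2) ≤
      finrank k (levelCohomology 𝒰 X.X₂ 1) + finrank k (levelCohomology 𝒰 X.X₁ 0) +
        finrank k (levelCohomology 𝒰 X.X₁ 2) + finrank k (levelCohomology 𝒰 X.X₃ 0) +
        finrank k (levelCohomology 𝒰 X.X₃ 2) := by
  have h11 := hfin X.X₁
  have h12 := hfin X.X₂
  have h13 := hfin X.X₃
  have h21 := finiteDimensional_two hΨ X.X₁
  have h22 := finiteDimensional_two hΨ X.X₂
  have h23 := finiteDimensional_two hΨ X.X₃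
  exact superAdditive 𝒰 hX

end Super

/-! ### The `ℤ`-valued form -/

section EulerE

/-- `e(Y) = h¹(Y) − h⁰(Y) − h²(Y)` (the negative of the Euler characteristic). -/
noncomputable def eulerE (Y : Rep.{u} k G) [IsDiscrete 𝒰 Y] : ℤ :=
  (finrank k (levelCohomology 𝒰 Y 1) : ℤ) - finrank k (levelCohomology 𝒰 Y 0) -
    finrank k (levelCohomology 𝒰 Y 2)

open ShortComplex in
/-- `e(X₁) + e(X₃) ≤ e(X₂)`. -/
theorem eulerE_superAdditive {X : ShortComplex (Rep.{u} k G)} [IsDiscrete 𝒰 X.X₁]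
    [IsDiscrete 𝒰 X.X₂] [IsDiscrete 𝒰 X.X₃] [FiniteDimensional k X.X₁]
    [FiniteDimensional k X.X₂] [FiniteDimensional k X.X₃] (hX : X.ShortExact)
    [FiniteDimensional k (levelCohomology 𝒰 X.X₁ 1)] [FiniteDimensional k (levelCohomology 𝒰 X.X₂ 1)]
    [FiniteDimensional k (levelCohomology 𝒰 X.X₃ 1)] [FiniteDimensional k (levelCohomology 𝒰 X.X₁ 2)]
    [FiniteDimensional k (levelCohomology 𝒰 X.X₂ 2)]
    [FiniteDimensional k (levelCohomology 𝒰 X.X₃ 2)] :
    eulerE 𝒰 X.X₁ + eulerE 𝒰 X.X₃ ≤ eulerE 𝒰 X.X₂ := by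
  have h := superAdditive 𝒰 hX
  unfold eulerE
  omega

/-- `e` is isomorphism invariant. -/
theorem eulerE_iso {Y Z : Rep.{u} k G} [IsDiscrete 𝒰 Y] [IsDiscrete 𝒰 Z] (e : Y ≅ Z) :
    eulerE 𝒰 Y = eulerE 𝒰 Z := by
  have h (n : ℕ) : finrank k (levelCohomology 𝒰 Y n) = finrank k (levelCohomology 𝒰 Z n) :=
    LinearEquiv.finrank_eq (LinearEquiv.ofBijective _ (lmap_bijective_of_iso 𝒰 e n))
  unfold eulerE
  rw [h 0, h 1, h 2]

end EulerE

end Fermat.Agent.S56.Loc.SuperAdd
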