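/-
S56 / LOC, leaf E-SO (helper19): **the strict-ordinary local condition at `p` and its dimension.**

For `ρ̄|G` upper triangular (`S56/Loc/BorelCore`: line `L̄ = k·b₀`, `W₀ = Hom(V̄/L̄, L̄) ≅ k(χ₁/χ₂)`),

  `𝓛_so := im (H¹(G, k(χ₁/χ₂)) → H¹(G, ad⁰ρ̄))`   (`Lso`).

* (SO3, formal) `finrank_range_lmap_one` : for ANY short exact sequence `X` of finite dimensional
  discrete representations, `rank(H¹(X₁) → H¹(X₂)) + h⁰(X₃) + h⁰(X₁) = h¹(X₁) + h⁰(X₂)`;
* `finrank_Lso_add_le` : `dim 𝓛_so + d + h⁰(W) ≤ h¹(W) + h⁰(ad⁰ρ̄)`, `W = k(χ₁/χ₂)`, `d = [k : 𝔽_p]`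
  (uses `k = W₁/W₀ ⊂ (ad⁰ρ̄/W₀)^G`);
* **`finrank_Lso_le`** : `dim 𝓛_so ≤ d + h⁰(G, ad⁰ρ̄)` from the local Euler characteristic formula
  for `W` (`h¹(W) = d + h⁰(W) + h²(W)`, route LEC) and `h²(W) ≤ d` (local duality:
  `h²(W) = h⁰(W') ≤ dim W'`; `finrank_two_le_of_monoDuality`).  NO hypothesis on the characters.
* (SO2) `levelH1π_mem_Lso` : the class of a level cocycle of `ad⁰ρ̄|G` with values in `W₀` lies in
  `𝓛_so`.
-/
import Mathlib
import Fermat.Agent.S56.Loc.BorelCore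
import Fermat.Agent.S56.Loc.SuperAdd
import Fermat.Agent.S56.PT.Unram

set_option autoImplicit false
set_option linter.unusedSectionVars false

namespace Fermat.Agent.S56.Loc.StrictOrd

open Module CategoryTheory groupCohomology Fermat.Agent.S56.Ad Fermat.Agent.S56.Loc.BorelCore
  Fermat.Agent.S55.Level Fermat.Agent.S55.LevelDuality Fermat.Agent.S56.PT.LocalDuality

universe u

/-! ### the rank of `H¹(X₁) → H¹(X₂)` -/

section Five

variable {k : Type*} [Field k] {V₁ V₂ V₃ V₄ V₅ : Type*}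
  [AddCommGroup V₁] [Module k V₁] [AddCommGroup V₂] [Module k V₂] [AddCommGroup V₃] [Module k V₃]
  [AddCommGroup V₄] [Module k V₄] [AddCommGroup V₅] [Module k V₅]
  [FiniteDimensional k V₁] [FiniteDimensional k V₂] [FiniteDimensional k V₃]
  [FiniteDimensional k V₄]

/-- the rank of the last map of an exact sequence `0 → V₁ → V₂ → V₃ → V₄ → V₅` -/
theorem finrank_range_five (a₁ : V₁ →ₗ[k] V₂) (a₂ : V₂ →ₗ[k] V₃) (a₃ : V₃ →ₗ[k] V₄)
    (a₄ : V₄ →ₗ[k] V₅) (h₁ : Function.Injective a₁) (e₁ : LinearMap.range a₁ = LinearMap.ker a₂)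
    (e₂ : LinearMap.range a₂ = LinearMap.ker a₃) (e₃ : LinearMap.range a₃ = LinearMap.ker a₄) :
    finrank k (LinearMap.range a₄) + finrank k V₃ + finrank k V₁ = finrank k V₄ + finrank k V₂ := by
  have r₁ := LinearMap.finrank_range_add_finrank_ker a₁
  have r₂ := LinearMap.finrank_range_add_finrank_ker a₂
  have r₃ := LinearMap.finrank_range_add_finrank_ker a₃
  have r₄ := LinearMap.finrank_range_add_finrank_ker a₄
  have k₁ : finrank k (LinearMap.ker a₁) = 0 := by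
    rw [LinearMap.ker_eq_bot.2 h₁]
    exact finrank_bot k V₁
  rw [e₁] at r₁
  rw [e₂] at r₂
  rw [e₃] at r₃
  omega

end Five

section Rank

variable {k G : Type u} [Field k] [Group G] (𝒰 : LevelStructure G)

open ShortComplex in
/-- **`rank(H¹(X₁) → H¹(X₂)) + h⁰(X₃) + h⁰(X₁) = h¹(X₁) + h⁰(X₂)`** for a short exact sequence of
finite dimensional discrete representations with `H¹(X₁)` finite dimensional. -/
theorem finrank_range_lmap_one {X : ShortComplex (Rep.{u} k G)} [IsDiscrete 𝒰 X.X₁]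
    [IsDiscrete 𝒰 X.X₂] [IsDiscrete 𝒰 X.X₃] [FiniteDimensional k X.X₁] [FiniteDimensional k X.X₂]
    [FiniteDimensional k X.X₃] (hX : X.ShortExact)
    [FiniteDimensional k (levelCohomology 𝒰 X.X₁ 1)] :
    finrank k (LinearMap.range (lmap 𝒰 X.f 1)) + finrank k (levelCohomology 𝒰 X.X₃ 0)
        + finrank k (levelCohomology 𝒰 X.X₁ 0)
      = finrank k (levelCohomology 𝒰 X.X₁ 1) + finrank k (levelCohomology 𝒰 X.X₂ 0) := by
  have h01 := finiteDimensional_levelCohomology_zero 𝒰 X.X₁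
  have h02 := finiteDimensional_levelCohomology_zero 𝒰 X.X₂
  have h03 := finiteDimensional_levelCohomology_zero 𝒰 X.X₃
  have hf : Function.Injective X.f.hom := (Rep.mono_iff_injective X.f).1 hX.mono_f
  exact finrank_range_five (lmap 𝒰 X.f 0) (lmap 𝒰 X.g 0) (levelδ 𝒰 hX 0 1 rfl).hom
    (lmap 𝒰 X.f 1)
    (homologyMap_levelMap_zero_injective 𝒰 X.f hf)
    ((ShortComplex.moduleCat_exact_iff_range_eq_ker _).1 (level_exact₂ 𝒰 hX 0))
    ((ShortComplex.moduleCat_exact_iff_range_eq_ker _).1 (level_exact₃ 𝒰 hX 0 1 rfl))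
    ((ShortComplex.moduleCat_exact_iff_range_eq_ker _).1 (level_exact₁ 𝒰 hX 0 1 rfl))

/-- `h⁰` is monotone along injective morphisms -/
theorem finrank_zero_le_of_injective {A B : Rep.{u} k G} [IsDiscrete 𝒰 A] [IsDiscrete 𝒰 B]
    [FiniteDimensional k B] (f : A ⟶ B) (hf : Function.Injective f.hom) :
    finrank k (levelCohomology 𝒰 A 0) ≤ finrank k (levelCohomology 𝒰 B 0) := by
  have h0B := finiteDimensional_levelCohomology_zero 𝒰 B
  exact LinearMap.finrank_le_finrank_of_injective (f := lmap 𝒰 f 0)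
    (homologyMap_levelMap_zero_injective 𝒰 f hf)

/-- `h⁰(A) ≤ dim A` -/
theorem finrank_zero_le {A : Rep.{u} k G} [IsDiscrete 𝒰 A] [FiniteDimensional k A] :
    finrank k (levelCohomology 𝒰 A 0) ≤ finrank k A := by
  rw [Fermat.Agent.S56.PT.Unram.finrank_levelCohomology_zero]
  exact Submodule.finrank_le _

/-- `h⁰(A) = dim A` for a trivial action -/
theorem finrank_zero_of_trivial {A : Rep.{u} k G} [IsDiscrete 𝒰 A] [FiniteDimensional k A]
    (h : ∀ g (a : A), A.ρ g a = a) :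
    finrank k (levelCohomology 𝒰 A 0) = finrank k A := by
  rw [Fermat.Agent.S56.PT.Unram.finrank_levelCohomology_zero]
  have : A.ρ.invariants = ⊤ := by
    rw [eq_top_iff]
    intro a _
    exact fun g => h g a
  rw [this, finrank_top]

/-- `h²(X) ≤ dim X` from local duality in mono form -/
theorem finrank_two_le_of_monoDuality (χ : G →* kˣ) [IsDiscrete 𝒰 (ofChar χ)]
    (t : levelCohomology 𝒰 (ofChar χ) 2 →ₗ[k] k) (hΨ : MonoDuality 𝒰 χ t)
    (X : Rep.{u} k G) [IsDiscrete 𝒰 X] [FiniteDimensional k X] :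
    finrank k (levelCohomology 𝒰 X 2) ≤ finrank k X := by
  have hd : IsDiscrete 𝒰 (X.dualTwist χ) := isDiscrete_dualTwist 𝒰 χ X
  have hfd' : FiniteDimensional k (X.dualTwist χ) :=
    inferInstanceAs (FiniteDimensional k (Module.Dual k X))
  rw [finrank_two_eq_zero hΨ X]
  refine (finrank_zero_le 𝒰).trans ?_
  show finrank k (Module.Dual k X) ≤ finrank k X
  rw [Subspace.dual_finrank_eq]

end Rank

/-! ### the strict-ordinary subspace `𝓛_so ⊂ H¹(G, ad⁰ρ̄)` -/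

section SO

local notation "Γ" => (AlgebraicClosure ℚ ≃ₐ[ℚ] AlgebraicClosure ℚ)

variable {k : Type} [Field k] (ρbar : ResidualGaloisRep k) (p : ℕ) [Fact p.Prime]
  [Algebra (ZMod p) k] (b : Basis (Fin 2) k ρbar.V)
  {G : Type} [Group G] (r : G →* Γ) (hT : ∀ g : G, IsUT b (ρbar.ρ (r g)))
  (𝒰 : LevelStructure G) [IsDiscrete 𝒰 (Mres ρbar p r)]

/-- the coefficient module `W = k(χ₁/χ₂) ≅ W₀ = Hom(V̄/L̄, L̄)` of the strict-ordinary condition -/
noncomputable abbrev Wso : Rep (ZMod p) G := kChar p (chi1 ρbar b r hT * (chi2 ρbar b r hT)⁻¹)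

instance instIsDiscreteWso : IsDiscrete 𝒰 (Wso ρbar p b r hT) :=
  isDiscrete_kChar_chi1_div_chi2 ρbar p b r hT 𝒰

/-- **`𝓛_so = im (H¹(G, W) → H¹(G, ad⁰ρ̄))`** -/
noncomputable def Lso : Submodule (ZMod p) (levelCohomology 𝒰 (Mres ρbar p r) 1) :=
  LinearMap.range (lmap 𝒰 (incl01M ρbar p b r hT) 1)

theorem mem_Lso {x : levelCohomology 𝒰 (Mres ρbar p r) 1} :
    x ∈ Lso ρbar p b r hT 𝒰 ↔
      ∃ y : levelCohomology 𝒰 (Wso ρbar p b r hT) 1, lmap 𝒰 (incl01M ρbar p b r hT) 1 y = x :=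
  Iff.rfl

/-- the level cocycle of `W = k(χ₁/χ₂)` attached to a level cocycle of `ad⁰ρ̄|G` with values in
`W₀` -/
noncomputable def cocycleW (z : levelCocycles₁ 𝒰 (Mres ρbar p r))
    (hz : ∀ g, z.1 g ∈ W0 ρbar p b) : levelCocycles₁ 𝒰 (Wso ρbar p b r hT) :=
  ⟨fun g => coef ρbar p b 0 1 (z.1 g), by
    rw [Fermat.Agent.S55.Level.mem_levelCocycles₁_iff]
    refine ⟨?_, ?_⟩
    · rw [mem_cocycles₁_iff]
      intro g h
      show coef ρbar p b 0 1 (z.1 (g * h))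
        = (((chi1 ρbar b r hT * (chi2 ρbar b r hT)⁻¹) g : kˣ) : k) * coef ρbar p b 0 1 (z.1 h)
          + coef ρbar p b 0 1 (z.1 g)
      rw [(mem_cocycles₁_iff z.1).1 z.2.1 g h]
      show coef ρbar p b 0 1 ((ad0 ρbar p).ρ (r g) (z.1 h) + z.1 g) = _
      rw [map_add, coef01_ρ ρbar p b r hT g (hz h)]
      rfl
    · exact ((mem_levelCochains₁_iff 𝒰 (Mres ρbar p r) z.1).1 z.2.2).comp (coef ρbar p b 0 1)⟩

theorem cocycleW_apply (z : levelCocycles₁ 𝒰 (Mres ρbar p r))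
    (hz : ∀ g, z.1 g ∈ W0 ρbar p b) (g : G) :
    (cocycleW ρbar p b r hT 𝒰 z hz).1 g = coef ρbar p b 0 1 (z.1 g) := rfl

/-- **(SO2)** the class of a level cocycle of `ad⁰ρ̄|G` with values in `W₀ = Hom(V̄/L̄, L̄)` lies in
`𝓛_so`. -/
theorem levelH1π_mem_Lso (z : levelCocycles₁ 𝒰 (Mres ρbar p r))
    (hz : ∀ g, z.1 g ∈ W0 ρbar p b) :
    levelH1π 𝒰 (Mres ρbar p r) z ∈ Lso ρbar p b r hT 𝒰 := by
  refine ⟨levelH1π 𝒰 (Wso ρbar p b r hT) (cocycleW ρbar p b r hT 𝒰 z hz), ?_⟩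
  rw [Fermat.Agent.S56.PT.Unram.lmap_levelH1π]
  congr 1
  apply Subtype.ext
  funext g
  rw [Fermat.Agent.S56.PT.Unram.coe_mapCocycle, cocycleW_apply]
  exact incl01M_coef01 ρbar p b r hT (hz g)

variable [Module.Finite (ZMod p) k]

/-- `d ≤ h⁰(G, ad⁰ρ̄/W₀)`: `k = W₁/W₀` is fixed by `G` -/
theorem finrank_le_zero_Q0Rep :
    haveI := isDiscrete_Q0Rep ρbar p b r hT 𝒰
    finrank (ZMod p) k ≤ finrank (ZMod p) (levelCohomology 𝒰 (Q0Rep ρbar p b r hT) 0) := by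
  have := isDiscrete_Q0Rep ρbar p b r hT 𝒰
  have := isDiscrete_kChar_one (k := k) (G := G) p 𝒰
  have h1 : finrank (ZMod p) (levelCohomology 𝒰 (kChar p (1 : G →* kˣ)) 0)
      = finrank (ZMod p) k :=
    finrank_zero_of_trivial 𝒰 (A := kChar p (1 : G →* kˣ)) fun g a => by
      show (((1 : G →* kˣ) g : kˣ) : k) * a = a
      rw [MonoidHom.one_apply, Units.val_one, one_mul]
  rw [← h1]
  exact finrank_zero_le_of_injective 𝒰 (incl00Q ρbar p b r hT) (incl00Q_injective ρbar p b r hT)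

/-- **`dim 𝓛_so + d + h⁰(W) ≤ h¹(W) + h⁰(ad⁰ρ̄)`** -/
theorem finrank_Lso_add_le
    [FiniteDimensional (ZMod p) (levelCohomology 𝒰 (Wso ρbar p b r hT) 1)] :
    finrank (ZMod p) ↥(Lso ρbar p b r hT 𝒰) + finrank (ZMod p) k
        + finrank (ZMod p) (levelCohomology 𝒰 (Wso ρbar p b r hT) 0)
      ≤ finrank (ZMod p) (levelCohomology 𝒰 (Wso ρbar p b r hT) 1)
        + finrank (ZMod p) (levelCohomology 𝒰 (Mres ρbar p r) 0) := by
  have d3 := isDiscrete_Q0Rep ρbar p b r hT 𝒰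
  have hC := seqC_shortExact ρbar p b r hT
  have i1 : IsDiscrete 𝒰 (seqC ρbar p b r hT).X₁ := instIsDiscreteWso ρbar p b r hT 𝒰
  have i2 : IsDiscrete 𝒰 (seqC ρbar p b r hT).X₂ :=
    inferInstanceAs (IsDiscrete 𝒰 (Mres ρbar p r))
  have i3 : IsDiscrete 𝒰 (seqC ρbar p b r hT).X₃ := d3
  have f1 : FiniteDimensional (ZMod p) (seqC ρbar p b r hT).X₁ :=
    inferInstanceAs (Module.Finite (ZMod p) k)
  have f2 : FiniteDimensional (ZMod p) (seqC ρbar p b r hT).X₂ :=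
    inferInstanceAs (Module.Finite (ZMod p) (Mres ρbar p r))
  have f3 : FiniteDimensional (ZMod p) (seqC ρbar p b r hT).X₃ :=
    inferInstanceAs (Module.Finite (ZMod p) (Q0Rep ρbar p b r hT))
  have g1 : FiniteDimensional (ZMod p) (levelCohomology 𝒰 (seqC ρbar p b r hT).X₁ 1) :=
    inferInstanceAs (FiniteDimensional (ZMod p) (levelCohomology 𝒰 (Wso ρbar p b r hT) 1))
  have key := finrank_range_lmap_one 𝒰 hC
  have key' : finrank (ZMod p) ↥(Lso ρbar p b r hT 𝒰)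
      + finrank (ZMod p) (levelCohomology 𝒰 (Q0Rep ρbar p b r hT) 0)
      + finrank (ZMod p) (levelCohomology 𝒰 (Wso ρbar p b r hT) 0)
      = finrank (ZMod p) (levelCohomology 𝒰 (Wso ρbar p b r hT) 1)
        + finrank (ZMod p) (levelCohomology 𝒰 (Mres ρbar p r) 0) := key
  have h0 := finrank_le_zero_Q0Rep ρbar p b r hT 𝒰
  omega

/-- **(SO3) `dim 𝓛_so ≤ d + h⁰(G, ad⁰ρ̄)`**, from the local Euler characteristic formula for
`W = k(χ₁/χ₂)` (`hLEC`, route LEC) and `h²(W) ≤ d` (`h2`, local duality). -/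
theorem finrank_Lso_le
    [FiniteDimensional (ZMod p) (levelCohomology 𝒰 (Wso ρbar p b r hT) 1)]
    (hLEC : finrank (ZMod p) (levelCohomology 𝒰 (Wso ρbar p b r hT) 1)
      = finrank (ZMod p) k + finrank (ZMod p) (levelCohomology 𝒰 (Wso ρbar p b r hT) 0)
        + finrank (ZMod p) (levelCohomology 𝒰 (Wso ρbar p b r hT) 2))
    (h2 : finrank (ZMod p) (levelCohomology 𝒰 (Wso ρbar p b r hT) 2) ≤ finrank (ZMod p) k) :
    finrank (ZMod p) ↥(Lso ρbar p b r hT 𝒰)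
      ≤ finrank (ZMod p) k + finrank (ZMod p) (levelCohomology 𝒰 (Mres ρbar p r) 0) := by
  have h := finrank_Lso_add_le ρbar p b r hT 𝒰
  omega

/-- (SO3) with `h²(W) ≤ d` supplied by local duality in mono form -/
theorem finrank_Lso_le_of_monoDuality (χ : G →* (ZMod p)ˣ) [IsDiscrete 𝒰 (ofChar χ)]
    (t : levelCohomology 𝒰 (ofChar χ) 2 →ₗ[ZMod p] ZMod p) (hΨ : MonoDuality 𝒰 χ t)
    [FiniteDimensional (ZMod p) (levelCohomology 𝒰 (Wso ρbar p b r hT) 1)]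
    (hLEC : finrank (ZMod p) (levelCohomology 𝒰 (Wso ρbar p b r hT) 1)
      = finrank (ZMod p) k + finrank (ZMod p) (levelCohomology 𝒰 (Wso ρbar p b r hT) 0)
        + finrank (ZMod p) (levelCohomology 𝒰 (Wso ρbar p b r hT) 2)) :
    finrank (ZMod p) ↥(Lso ρbar p b r hT 𝒰)
      ≤ finrank (ZMod p) k + finrank (ZMod p) (levelCohomology 𝒰 (Mres ρbar p r) 0) :=
  finrank_Lso_le ρbar p b r hT 𝒰 hLEC
    (finrank_two_le_of_monoDuality 𝒰 χ t hΨ (Wso ρbar p b r hT))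

end SO

end Fermat.Agent.S56.Loc.StrictOrd
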