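/-
S56 / LOC, leaf E-SO, consumer layer (helper19), on top of `S56/Loc/StrictOrd` (2bdc041):

* `exists_basis_of_ne_zero`, `isUT_of_apply_eq_smul` : from helper2's SO1 output (`v₀ ≠ 0`,
  `ρ̄σ v₀ = x̄ v₀`) to the `BorelCore` hypotheses (`b 0 = v₀`, `IsUT b (ρ̄ σ)`);
* `mem_W0_iff_line`, `W0_eq_of_span_eq` : `W₀` depends only on the line `k·b₀`;
* **`mem_Lso_iff`** : `𝓛_so` = the classes of the level cocycles with values in `W₀`;
  `Lso_eq_of_W0_eq`, `Lso_eq_of_span_eq` : `𝓛_so` depends only on the line (uniqueness of the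
  strict-ordinary line, SO-RAM + `StrictOrdNormalForm.line_unique`, then makes the local condition
  at `p` independent of all choices);
* **`levelH1π_mem_Lso_of_sub`** (SO2 in SO1's shape): if `z g − (g·x − x) ∈ W₀` for all `g`, then the
  class of `z` lies in `𝓛_so`;
* **`finrank_Lso_add_le_h1`** : `dim 𝓛_so + h²(ad⁰ρ̄|G) + 2d ≤ h¹(ad⁰ρ̄|G)` from the local Euler
  characteristic formula (LEC, a named hypothesis) at `Y = W` and `Y = ad⁰ρ̄|G` and local duality in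
  mono form: the `hp` of `Asm/Count.finrank_Sel_le` (with `h² = h⁰(M')`,
  `finrank_Lso_add_le_h1'`).
-/
import Mathlib
import Fermat.Agent.S56.Loc.StrictOrd

set_option autoImplicit false
set_option linter.unusedSectionVars false

namespace Fermat.Agent.S56.Loc.StrictOrdMore

open Module CategoryTheory groupCohomology Fermat.Agent.S56.Ad Fermat.Agent.S56.Loc.BorelCore
  Fermat.Agent.S56.Loc.StrictOrd Fermat.Agent.S55.Level Fermat.Agent.S55.LevelDuality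
  Fermat.Agent.S56.PT.LocalDuality

local notation "Γ" => (AlgebraicClosure ℚ ≃ₐ[ℚ] AlgebraicClosure ℚ)

/-! ### from a nonzero vector to an adapted basis -/

section Basis

variable {k V : Type*} [Field k] [AddCommGroup V] [Module k V]

/-- a nonzero vector of a plane is the first vector of a basis -/
theorem exists_basis_of_ne_zero [Module.Finite k V] (hV : finrank k V = 2) {v₀ : V}
    (hv₀ : v₀ ≠ 0) : ∃ b : Basis (Fin 2) k V, b 0 = v₀ := by
  obtain ⟨w, hw⟩ := exists_linearIndependent_pair_of_one_lt_finrank (R := k) (by omega) hv₀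
  refine ⟨basisOfLinearIndependentOfCardEqFinrank hw (by simp [hV]), ?_⟩
  simp

/-- an endomorphism with eigenvector `b₀` is upper triangular -/
theorem isUT_of_apply_eq_smul (b : Basis (Fin 2) k V) {g : Module.End k V} {x : k}
    (h : g (b 0) = x • b 0) : IsUT b g := by
  rw [isUT_iff_mem_span, h]
  exact Submodule.smul_mem _ _ (Submodule.mem_span_singleton_self _)

end Basis

section SO

variable {k : Type} [Field k] (ρbar : ResidualGaloisRep k) (p : ℕ) [Fact p.Prime]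
  [Algebra (ZMod p) k] (b : Basis (Fin 2) k ρbar.V)

/-- `W₀` in terms of the line `k·b₀` only -/
theorem mem_W0_iff_line {x : Ad0 ρbar p} :
    x ∈ W0 ρbar p b ↔ (∀ v ∈ Submodule.span k {b 0}, Ad0.toEnd ρbar p x v = 0) ∧
      ∀ v, Ad0.toEnd ρbar p x v ∈ Submodule.span k {b 0} := by
  rw [mem_W0_iff]
  constructor
  · rintro ⟨h0, hv⟩
    refine ⟨fun v hv' => ?_, hv⟩
    obtain ⟨a, rfl⟩ := Submodule.mem_span_singleton.mp hv'
    rw [map_smul, h0, smul_zero]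
  · rintro ⟨h0, hv⟩
    exact ⟨h0 _ (Submodule.mem_span_singleton_self _), hv⟩

/-- `W₀` depends only on the line -/
theorem W0_eq_of_span_eq {b b' : Basis (Fin 2) k ρbar.V}
    (h : Submodule.span k {b 0} = Submodule.span k {b' 0}) : W0 ρbar p b = W0 ρbar p b' := by
  ext x
  rw [mem_W0_iff_line, mem_W0_iff_line, h]

variable {G : Type} [Group G] (r : G →* Γ) (hT : ∀ g : G, IsUT b (ρbar.ρ (r g)))
  (𝒰 : LevelStructure G) [IsDiscrete 𝒰 (Mres ρbar p r)]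

/-- **`𝓛_so` is the set of classes of the level cocycles with values in `W₀`** -/
theorem mem_Lso_iff {x : levelCohomology 𝒰 (Mres ρbar p r) 1} :
    x ∈ Lso ρbar p b r hT 𝒰 ↔
      ∃ z : levelCocycles₁ 𝒰 (Mres ρbar p r), (∀ g, z.1 g ∈ W0 ρbar p b) ∧
        levelH1π 𝒰 (Mres ρbar p r) z = x := by
  constructor
  · rintro ⟨y, rfl⟩
    obtain ⟨w, rfl⟩ := levelH1π_surjective 𝒰 (Wso ρbar p b r hT) y
    refine ⟨Fermat.Agent.S56.PT.Unram.mapCocycle (incl01M ρbar p b r hT) w, fun g => ?_,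
      (Fermat.Agent.S56.PT.Unram.lmap_levelH1π (incl01M ρbar p b r hT) w).symm⟩
    rw [Fermat.Agent.S56.PT.Unram.coe_mapCocycle]
    exact ofCoef_mem_W0 ρbar p b _
  · rintro ⟨z, hz, rfl⟩
    exact levelH1π_mem_Lso ρbar p b r hT 𝒰 z hz

/-- `𝓛_so` depends only on `W₀` -/
theorem Lso_eq_of_W0_eq {b' : Basis (Fin 2) k ρbar.V}
    (hT' : ∀ g : G, IsUT b' (ρbar.ρ (r g))) (h : W0 ρbar p b = W0 ρbar p b') :
    Lso ρbar p b r hT 𝒰 = Lso ρbar p b' r hT' 𝒰 := by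
  ext x
  rw [mem_Lso_iff, mem_Lso_iff, h]

/-- **`𝓛_so` depends only on the line `k·b₀`** -/
theorem Lso_eq_of_span_eq {b' : Basis (Fin 2) k ρbar.V}
    (hT' : ∀ g : G, IsUT b' (ρbar.ρ (r g)))
    (h : Submodule.span k {b 0} = Submodule.span k {b' 0}) :
    Lso ρbar p b r hT 𝒰 = Lso ρbar p b' r hT' 𝒰 :=
  Lso_eq_of_W0_eq ρbar p b r hT 𝒰 hT' (W0_eq_of_span_eq ρbar p h)

/-- **(SO2, in the shape of SO1)**: if `z g − (g·x − x) ∈ W₀` for all `g`, the class of `z` lies in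
`𝓛_so`. -/
theorem levelH1π_mem_Lso_of_sub (z : levelCocycles₁ 𝒰 (Mres ρbar p r)) (x : Ad0 ρbar p)
    (hz : ∀ g, z.1 g - ((ad0 ρbar p).ρ (r g) x - x) ∈ W0 ρbar p b) :
    levelH1π 𝒰 (Mres ρbar p r) z ∈ Lso ρbar p b r hT 𝒰 := by
  -- the coboundary of `x` is a level cocycle
  have hcob : (fun g => (Mres ρbar p r).ρ g x - x) ∈ coboundaries₁ (Mres ρbar p r) :=
    ⟨x, by funext g; rfl⟩
  have hlev : IsLevel₁ 𝒰 (fun g => (Mres ρbar p r).ρ g x - x) := by
    obtain ⟨U, hU, hfix⟩ := IsDiscrete.exists_fix (𝒰 := 𝒰) (A := Mres ρbar p r) x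
    refine ⟨U, hU, fun g s hs => ?_⟩
    show (Mres ρbar p r).ρ (g * s) x - x = (Mres ρbar p r).ρ g x - x
    rw [map_mul, Module.End.mul_apply, hfix s hs]
  let w : levelCocycles₁ 𝒰 (Mres ρbar p r) :=
    ⟨fun g => (Mres ρbar p r).ρ g x - x, by
      rw [Fermat.Agent.S55.Level.mem_levelCocycles₁_iff]
      exact ⟨coboundaries₁_le_cocycles₁ _ hcob, hlev⟩⟩
  have hzw : levelH1π 𝒰 (Mres ρbar p r) z = levelH1π 𝒰 (Mres ρbar p r) (z - w) := by
    rw [levelH1π_eq_iff]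
    have : z.1 - (z - w).1 = w.1 := by
      show z.1 - (z.1 - w.1) = w.1
      abel
    rw [this]
    exact hcob
  rw [hzw]
  exact levelH1π_mem_Lso ρbar p b r hT 𝒰 (z - w) hz

variable [Module.Finite (ZMod p) k]

/-- **`dim 𝓛_so + h²(ad⁰ρ̄|G) + 2d ≤ h¹(ad⁰ρ̄|G)`**, from the local Euler characteristic formula (`hLEC`:
`h¹(Y) = dim Y + h⁰(Y) + h²(Y)` for finite discrete `Y`; used at `Y = W` and `Y = ad⁰ρ̄|G`) and local
duality in mono form. -/
theorem finrank_Lso_add_le_h1 (h2 : (2 : k) ≠ 0)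
    (χ : G →* (ZMod p)ˣ) [IsDiscrete 𝒰 (ofChar χ)]
    (t : levelCohomology 𝒰 (ofChar χ) 2 →ₗ[ZMod p] ZMod p) (hΨ : MonoDuality 𝒰 χ t)
    (hfin : FiniteH1 (k := ZMod p) 𝒰)
    (hLEC : ∀ (Y : Rep (ZMod p) G) [IsDiscrete 𝒰 Y] [FiniteDimensional (ZMod p) Y],
      finrank (ZMod p) (levelCohomology 𝒰 Y 1)
        = finrank (ZMod p) Y + finrank (ZMod p) (levelCohomology 𝒰 Y 0)
          + finrank (ZMod p) (levelCohomology 𝒰 Y 2)) :
    finrank (ZMod p) ↥(Lso ρbar p b r hT 𝒰)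
        + finrank (ZMod p) (levelCohomology 𝒰 (Mres ρbar p r) 2) + 2 * finrank (ZMod p) k
      ≤ finrank (ZMod p) (levelCohomology 𝒰 (Mres ρbar p r) 1) := by
  have hW1 := hfin (Wso ρbar p b r hT)
  have hLW := hLEC (Wso ρbar p b r hT)
  have hdW : finrank (ZMod p) (Wso ρbar p b r hT) = finrank (ZMod p) k := rfl
  rw [hdW] at hLW
  have h1 := finrank_Lso_le_of_monoDuality ρbar p b r hT 𝒰 χ t hΨ hLW
  have hLM := hLEC (Mres ρbar p r)
  have hdM : finrank (ZMod p) (Mres ρbar p r) = finrank (ZMod p) k * 3 := finrank_ad0 ρbar p h2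
  rw [hdM] at hLM
  omega

/-- the same with `h²(ad⁰ρ̄|G) = h⁰((ad⁰ρ̄|G)')` -/
theorem finrank_Lso_add_le_h1' (h2 : (2 : k) ≠ 0)
    (χ : G →* (ZMod p)ˣ) [IsDiscrete 𝒰 (ofChar χ)]
    (t : levelCohomology 𝒰 (ofChar χ) 2 →ₗ[ZMod p] ZMod p) (hΨ : MonoDuality 𝒰 χ t)
    (hfin : FiniteH1 (k := ZMod p) 𝒰)
    (hLEC : ∀ (Y : Rep (ZMod p) G) [IsDiscrete 𝒰 Y] [FiniteDimensional (ZMod p) Y],
      finrank (ZMod p) (levelCohomology 𝒰 Y 1)
        = finrank (ZMod p) Y + finrank (ZMod p) (levelCohomology 𝒰 Y 0)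
          + finrank (ZMod p) (levelCohomology 𝒰 Y 2))
    [IsDiscrete 𝒰 ((Mres ρbar p r).dualTwist χ)] :
    finrank (ZMod p) ↥(Lso ρbar p b r hT 𝒰)
        + finrank (ZMod p) (levelCohomology 𝒰 ((Mres ρbar p r).dualTwist χ) 0)
        + 2 * finrank (ZMod p) k
      ≤ finrank (ZMod p) (levelCohomology 𝒰 (Mres ρbar p r) 1) := by
  rw [← finrank_two_eq_zero hΨ (Mres ρbar p r)]
  exact finrank_Lso_add_le_h1 ρbar p b r hT 𝒰 h2 χ t hΨ hfin hLEC

end SO

end Fermat.Agent.S56.Loc.StrictOrdMore
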