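/-
S56 / LOC, leaf SO1 (helper2; blueprint `moonshots` row 50, §3.E-SO): **normal form of a
strict-ordinary lift of `ρ̄` to the dual numbers `k[ε]`**.

Let `ρA` be a lift of `ρ̄` to `k[ε]` (`p = 0`, `2 ≠ 0` in `k`) with cyclotomic determinant, `m` a
matrix model of it (`Tan/Cocycle.Model`), `c = cocMat m.M` its cocycle, and assume the frozen
strict-ordinary clause at a valuation subring `P` of `ℚ̄`: a line `L = A·b₀ ⊂ ρA.V` (`b` a basis) on
which `D_P` acts by scalars `x_σ`, acting on the quotient by scalars `z_σ`, `x_σ ≡ a z_σ` when `σ`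
is the `a`-th power on `μ_{p^n}`, and `I_P` acting trivially on the quotient.  Then

* the scalars are constant: `z_σ = z̄_σ ∈ k`, `z̄_σ² = 1`, `x_σ = a z̄_σ ∈ k` (`scalars_of_clause`);
* the reduction `L̄ = k·ū` of `L` is a line of `ρ̄` stable under `D_P`, with `D_P` acting by `x̄_σ` on
  `L̄` and `z̄_σ` on the quotient, `I_P` trivially on the quotient;
* there is `X ∈ M₂(k)` (`X ū = −u₁` where `u = ū + ε u₁` generates `L`) such that the cohomologous
  cocycle `c'σ = c σ − (ρ̄σ X ρ̄σ⁻¹ − X)` has values in `W = Hom(V̄/L̄, L̄)` on `D_P`: it kills `ū` and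
  maps everything into `k·ū`.

`normalForm_mat` is the statement in the coordinates of `resMat ρ̄`; `normalForm` the same in
`ρ̄.V` / `End_k(ρ̄.V)`; `normalForm_of_isStrictOrdinaryAt` from the frozen `IsStrictOrdinaryAt`.
-/
import Mathlib
import Fermat.Agent.S56.Tan.Cocycle
import Fermat.Prelude.Def_GaloisRep_StrictOrdinary

set_option autoImplicit false
set_option linter.unusedSectionVars false
set_option linter.style.haveILetI false

noncomputable section

namespace Fermat.Agent.S56.Loc.StrictOrdNormalForm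

open IsLocalRing Fermat.Agent.S53 Matrix Fermat.Agent.S56.Tan.Cocycle

local notation "Qbar" => AlgebraicClosure ℚ

/-! ### vectors over the dual numbers -/

section DualVec

variable {k : Type} [Field k]

/-- the constant part of a vector over `k[ε]` -/
def fstV (u : Fin 2 → DualNumber k) : Fin 2 → k := fun i => TrivSqZeroExt.fst (u i)

/-- the `ε`-part of a vector over `k[ε]` -/
def sndV (u : Fin 2 → DualNumber k) : Fin 2 → k := fun i => TrivSqZeroExt.snd (u i)

/-- a constant vector -/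
def inlV (v : Fin 2 → k) : Fin 2 → DualNumber k := fun i => TrivSqZeroExt.inl (v i)

@[simp] theorem fstV_inlV (v : Fin 2 → k) : fstV (inlV v) = v := rfl

@[simp] theorem sndV_inlV (v : Fin 2 → k) : sndV (inlV v) = 0 := by
  ext i; simp [sndV, inlV]

theorem fstV_mulVec (N : M2 (DualNumber k)) (u : Fin 2 → DualNumber k) :
    fstV (N *ᵥ u) = fstM N *ᵥ fstV u := by
  ext i
  simp only [fstV, Matrix.mulVec, dotProduct, TrivSqZeroExt.fst_sum, TrivSqZeroExt.fst_mul,
    fstM_apply]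

theorem sndV_mulVec (N : M2 (DualNumber k)) (u : Fin 2 → DualNumber k) :
    sndV (N *ᵥ u) = fstM N *ᵥ sndV u + sndM N *ᵥ fstV u := by
  ext i
  simp only [sndV, fstV, Matrix.mulVec, dotProduct, TrivSqZeroExt.snd_sum, TrivSqZeroExt.snd_mul,
    fstM_apply, sndM_apply, smul_eq_mul, MulOpposite.smul_eq_mul_unop, MulOpposite.unop_op,
    Pi.add_apply, Finset.sum_add_distrib]

theorem fstV_smul (t : DualNumber k) (u : Fin 2 → DualNumber k) :
    fstV (t • u) = TrivSqZeroExt.fst t • fstV u := by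
  ext i
  simp only [fstV, Pi.smul_apply, smul_eq_mul, TrivSqZeroExt.fst_mul]

theorem sndV_smul (t : DualNumber k) (u : Fin 2 → DualNumber k) :
    sndV (t • u) = TrivSqZeroExt.fst t • sndV u + TrivSqZeroExt.snd t • fstV u := by
  ext i
  simp only [sndV, fstV, Pi.smul_apply, smul_eq_mul, TrivSqZeroExt.snd_mul,
    MulOpposite.smul_eq_mul_unop, MulOpposite.unop_op, Pi.add_apply]

theorem fstV_sub (u v : Fin 2 → DualNumber k) : fstV (u - v) = fstV u - fstV v := by
  ext i; simp [fstV]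

theorem sndV_sub (u v : Fin 2 → DualNumber k) : sndV (u - v) = sndV u - sndV v := by
  ext i; simp [sndV]

/-- a vector with zero constant part is killed by `ε` -/
theorem eps_smul_eq_zero_of_fstV_eq_zero {u : Fin 2 → DualNumber k} (h : fstV u = 0) :
    (DualNumber.eps : DualNumber k) • u = 0 := by
  ext i
  · simp [TrivSqZeroExt.fst_mul]
  · have hi : TrivSqZeroExt.fst (u i) = 0 := congrFun h i
    simp [TrivSqZeroExt.snd_mul, hi]

end DualVec

/-! ### the determinant of an endomorphism which is triangular for a line `A·b₀` -/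

section Triangular

variable {A : Type} [CommRing A] {V : Type} [AddCommGroup V] [Module A V]

theorem det_eq_mul_of_triangular (b : Module.Basis (Fin 2) A V) (f : V →ₗ[A] V) (x z : A)
    (hx : f (b 0) = x • b 0) (hz : f (b 1) - z • b 1 ∈ Submodule.span A {b 0}) :
    LinearMap.det f = x * z := by
  obtain ⟨t, ht⟩ := Submodule.mem_span_singleton.mp hz
  have h1 : f (b 1) = z • b 1 + t • b 0 := by rw [ht]; abel
  rw [← LinearMap.det_toMatrix b, Matrix.det_fin_two]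
  simp only [LinearMap.toMatrix_apply, hx, h1, map_add, map_smul, Module.Basis.repr_self,
    Finsupp.smul_apply, Finsupp.add_apply, Finsupp.single_apply, smul_eq_mul]
  simp

/-- the quotient scalar of an endomorphism acting trivially modulo the line is `1` -/
theorem eq_one_of_triangular [Nontrivial A] (b : Module.Basis (Fin 2) A V) (f : V →ₗ[A] V) (z : A)
    (h1 : f (b 1) - b 1 ∈ Submodule.span A {b 0})
    (hz : f (b 1) - z • b 1 ∈ Submodule.span A {b 0}) : z = 1 := by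
  have h : (1 - z) • b 1 ∈ Submodule.span A {b 0} := by
    have := Submodule.sub_mem _ hz h1
    have e : f (b 1) - z • b 1 - (f (b 1) - b 1) = (1 - z) • b 1 := by
      rw [sub_smul, one_smul]; abel
    rwa [e] at this
  obtain ⟨t, ht⟩ := Submodule.mem_span_singleton.mp h
  have h2 := congrArg (fun v => b.repr v 1) ht
  simp only [map_smul, Module.Basis.repr_self, Finsupp.smul_apply, Finsupp.single_apply,
    smul_eq_mul] at h2
  simp at h2
  exact (sub_eq_zero.mp h2.symm).symm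

end Triangular

/-! ### scalars of the dual numbers -/

section Scalars

variable {k : Type} [Field k]

/-- a square root of `1` in `k[ε]` is constant (`2 ≠ 0`) -/
theorem snd_eq_zero_of_mul_self_eq_one (h2 : (2 : k) ≠ 0) {z : DualNumber k} (hz : z * z = 1) :
    TrivSqZeroExt.snd z = 0 ∧ TrivSqZeroExt.fst z * TrivSqZeroExt.fst z = 1 := by
  have h1 := congrArg TrivSqZeroExt.fst hz
  have h3 := congrArg TrivSqZeroExt.snd hz
  rw [TrivSqZeroExt.fst_mul, TrivSqZeroExt.fst_one] at h1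
  rw [TrivSqZeroExt.snd_mul, TrivSqZeroExt.snd_one, smul_eq_mul, MulOpposite.smul_eq_mul_unop,
    MulOpposite.unop_op] at h3
  refine ⟨?_, h1⟩
  have hz0 : TrivSqZeroExt.fst z ≠ 0 := by
    intro h0; rw [h0, zero_mul] at h1; exact zero_ne_one h1
  have h4 : (2 * TrivSqZeroExt.fst z) * TrivSqZeroExt.snd z = 0 := by rw [← h3]; ring
  exact (mul_eq_zero.mp h4).resolve_left (mul_ne_zero h2 hz0)

theorem natCast_dualNumber (a : ℕ) : ((a : ℕ) : DualNumber k) = TrivSqZeroExt.inl (a : k) := by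
  ext
  · rw [TrivSqZeroExt.fst_natCast, TrivSqZeroExt.fst_inl]
  · rw [TrivSqZeroExt.snd_natCast, TrivSqZeroExt.snd_inl]

theorem span_natCast_pow_one_eq_bot {p : ℕ} (hpk : (p : k) = 0) :
    Ideal.span {(((p ^ 1 : ℕ)) : DualNumber k)} = ⊥ := by
  rw [pow_one, natCast_dualNumber, hpk, TrivSqZeroExt.inl_zero, Ideal.span_singleton_eq_bot]

/-- the exponent by which `σ` acts on `μ_p` is prime to `p` -/
theorem natCast_ne_zero_of_pow_eq {p : ℕ} [Fact p.Prime] (hpk : (p : k) = 0) {σ : GQ} {a : ℕ}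
    (ha : ∀ μ : Qbar, μ ^ p ^ 1 = 1 → σ μ = μ ^ a) : (a : k) ≠ 0 := by
  have hp : p.Prime := Fact.out
  haveI : CharP k p := (CharP.charP_iff_prime_eq_zero hp).mpr hpk
  rw [Ne, CharP.cast_eq_zero_iff k p]
  rintro ⟨b, rfl⟩
  haveI : NeZero ((p : ℕ) : Qbar) := ⟨Nat.cast_ne_zero.mpr hp.ne_zero⟩
  obtain ⟨ζ, hζ⟩ := HasEnoughRootsOfUnity.exists_primitiveRoot Qbar p
  have h1 := ha ζ (by rw [pow_one]; exact hζ.pow_eq_one)
  rw [pow_mul, hζ.pow_eq_one, one_pow] at h1
  have h2 : ζ = 1 := by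
    have := congrArg σ.symm h1
    rwa [AlgEquiv.symm_apply_apply, map_one] at this
  exact hζ.ne_one hp.one_lt h2

end Scalars

/-! ### the strict-ordinary clause over `k[ε]` -/

section Clause

variable {k : Type} [Field k] {ρA : GaloisRepAdic (DualNumber k)}

/-- **The frozen strict-ordinary clause** at one element `σ`, for the line `L`: `σ` acts on `L` by
the scalar `x`, on the quotient by the scalar `z`, and `x ≡ a z` modulo `p ^ n` whenever `σ` is the
`a`-th power on `μ_{p^n}`. -/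
def Clause (p : ℕ) (L : Submodule (DualNumber k) ρA.V) (σ : GQ) (x z : DualNumber k) : Prop :=
  (∀ w ∈ L, ρA.ρ σ w = x • w) ∧ (∀ v : ρA.V, ρA.ρ σ v - z • v ∈ L) ∧
    ∀ n a : ℕ, (∀ μ : Qbar, μ ^ p ^ n = 1 → σ μ = μ ^ a) →
      x - (a : DualNumber k) * z ∈ Ideal.span {((p ^ n : ℕ) : DualNumber k)}

variable {p : ℕ} [Fact p.Prime] (hpk : (p : k) = 0) (h2 : (2 : k) ≠ 0)
  (hdet : ρA.DetIsCyclotomic p)

include hpk h2 hdet in
/-- **the scalars of the clause are constant**: `z = z̄ ∈ k` with `z̄² = 1`, `x = a z̄`. -/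
theorem scalars_of_clause (b : Module.Basis (Fin 2) (DualNumber k) ρA.V)
    {L : Submodule (DualNumber k) ρA.V} (hL : L = Submodule.span (DualNumber k) {b 0}) {σ : GQ}
    {x z : DualNumber k} (h : Clause p L σ x z) :
    ∃ zb : k, z = TrivSqZeroExt.inl zb ∧ zb * zb = 1 ∧
      ∀ a : ℕ, (∀ μ : Qbar, μ ^ p ^ 1 = 1 → σ μ = μ ^ a) → x = TrivSqZeroExt.inl ((a : k) * zb) := by
  obtain ⟨h1, h3, h4⟩ := h
  obtain ⟨a₀, ha₀⟩ := exists_pow_eq p σ
  have hb0 : b 0 ∈ L := hL ▸ Submodule.mem_span_singleton_self _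
  -- `x = a z` for every admissible `a`
  have hxa : ∀ a : ℕ, (∀ μ : Qbar, μ ^ p ^ 1 = 1 → σ μ = μ ^ a) → x = (a : DualNumber k) * z := by
    intro a ha
    have := h4 1 a ha
    rwa [span_natCast_pow_one_eq_bot hpk, Ideal.mem_bot, sub_eq_zero] at this
  -- the determinant
  have hdet1 : LinearMap.det (ρA.ρ σ) = x * z :=
    det_eq_mul_of_triangular b (ρA.ρ σ) x z (h1 _ hb0) (hL ▸ h3 (b 1))
  have hdet2 : LinearMap.det (ρA.ρ σ) = (a₀ : DualNumber k) := by
    have := hdet.2 1 σ a₀ ha₀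
    rwa [span_natCast_pow_one_eq_bot hpk, Ideal.mem_bot, sub_eq_zero] at this
  have ha₀k : (a₀ : k) ≠ 0 := natCast_ne_zero_of_pow_eq hpk ha₀
  have hunit : IsUnit ((a₀ : ℕ) : DualNumber k) := by
    rw [TrivSqZeroExt.isUnit_iff_isUnit_fst, TrivSqZeroExt.fst_natCast]
    exact isUnit_iff_ne_zero.mpr ha₀k
  have hzz : z * z = 1 := by
    have h5 : (a₀ : DualNumber k) * (z * z) = (a₀ : DualNumber k) * 1 := by
      rw [mul_one, ← mul_assoc, ← hxa a₀ ha₀, ← hdet1, hdet2]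
    exact hunit.mul_left_cancel h5
  obtain ⟨hs, hf⟩ := snd_eq_zero_of_mul_self_eq_one h2 hzz
  have hz : z = TrivSqZeroExt.inl (TrivSqZeroExt.fst z) := by
    ext
    · rw [TrivSqZeroExt.fst_inl]
    · rw [TrivSqZeroExt.snd_inl, hs]
  refine ⟨TrivSqZeroExt.fst z, hz, hf, fun a ha => ?_⟩
  rw [hxa a ha, natCast_dualNumber, hz, ← TrivSqZeroExt.inl_mul, TrivSqZeroExt.fst_inl]

end Clause

/-! ### the normal form, in the coordinates of `resMat ρ̄` -/

section Main

variable {k : Type} [Field k]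

/-- a matrix sending a given nonzero vector to a given vector -/
theorem exists_mulVec_eq {ū : Fin 2 → k} (hū : ū ≠ 0) (w : Fin 2 → k) :
    ∃ X : M2 k, X *ᵥ ū = w := by
  obtain ⟨i₀, hi₀⟩ := Function.ne_iff.mp hū
  rw [Pi.zero_apply] at hi₀
  refine ⟨Matrix.of fun r c => if c = i₀ then w r * (ū i₀)⁻¹ else 0, ?_⟩
  ext r
  rw [Matrix.mulVec, dotProduct, Finset.sum_eq_single i₀]
  · rw [Matrix.of_apply, if_pos rfl, mul_assoc, inv_mul_cancel₀ hi₀, mul_one]
  · intro c _ hc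
    rw [Matrix.of_apply, if_neg hc, zero_mul]
  · intro h; exact absurd (Finset.mem_univ _) h

variable {ρbar : ResidualGaloisRep k} {ρA : GaloisRepAdic (DualNumber k)} (m : Model ρbar ρA)
  {p : ℕ} [Fact p.Prime] (hpk : (p : k) = 0) (h2 : (2 : k) ≠ 0) (hdet : ρA.DetIsCyclotomic p)

include hpk h2 hdet in
/-- **SO1, matrix form.**  For a lift `ρA` of `ρ̄` to `k[ε]` with cyclotomic determinant satisfying
the strict-ordinary clause at `P` for the line `L = A·b₀`: the reduction `k·ū` of `L` is a line of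
`ρ̄` with the strict-ordinary properties (constant scalars), and the cocycle of `ρA`, corrected by
the coboundary of a suitable `X`, kills `ū` and has image in `k·ū` on the decomposition group. -/
theorem normalForm_mat (P : ValuationSubring Qbar) (b : Module.Basis (Fin 2) (DualNumber k) ρA.V)
    {L : Submodule (DualNumber k) ρA.V} (hL : L = Submodule.span (DualNumber k) {b 0})
    (hI : ∀ σ ∈ P.inertiaSubgroupIn ℚ, ∀ v : ρA.V, ρA.ρ σ v - v ∈ L)
    (hxz : ∀ σ ∈ P.decompositionSubgroup ℚ, ∃ x z : DualNumber k, Clause p L σ x z) :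
    ∃ (ū : Fin 2 → k) (X : M2 k), ū ≠ 0 ∧
      (∀ σ ∈ P.decompositionSubgroup ℚ, ∃ xb zb : k,
        resMat ρbar σ *ᵥ ū = xb • ū ∧
        (∀ v : Fin 2 → k, ∃ α : k, resMat ρbar σ *ᵥ v - zb • v = α • ū) ∧
        zb * zb = 1 ∧
        ∀ a : ℕ, (∀ μ : Qbar, μ ^ p ^ 1 = 1 → σ μ = μ ^ a) → xb = (a : k) * zb) ∧
      (∀ σ ∈ P.inertiaSubgroupIn ℚ, ∀ v : Fin 2 → k, ∃ α : k,
        resMat ρbar σ *ᵥ v - v = α • ū) ∧
      (∀ σ ∈ P.decompositionSubgroup ℚ,
        (cocMat m.M σ - (resMat ρbar σ * X * resMat ρbar σ⁻¹ - X)) *ᵥ ū = 0 ∧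
        ∀ v : Fin 2 → k, ∃ β : k,
          (cocMat m.M σ - (resMat ρbar σ * X * resMat ρbar σ⁻¹ - X)) *ᵥ v = β • ū) := by
  obtain ⟨e⟩ := m.equiv
  let E : ρA.V ≃ₗ[DualNumber k] (Fin 2 → DualNumber k) := e.toLinearEquiv
  have hE : ∀ (σ : GQ) (y : ρA.V), E (ρA.ρ σ y) = (m.M σ) *ᵥ (E y) := fun σ y => e.map_apply σ y
  set u : Fin 2 → DualNumber k := E (b 0) with hu
  have hb0 : b 0 ∈ L := hL ▸ Submodule.mem_span_singleton_self _
  -- the reduction of the generator is nonzero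
  have hū : fstV u ≠ 0 := by
    intro h0
    have h1 : E ((DualNumber.eps : DualNumber k) • b 0) = 0 := by
      rw [map_smul]; exact eps_smul_eq_zero_of_fstV_eq_zero h0
    have h3 : (DualNumber.eps : DualNumber k) • b 0 = 0 := by
      rwa [map_eq_zero_iff E E.injective] at h1
    have h4 := congrArg (fun v => b.repr v 0) h3
    simp only [map_smul, Module.Basis.repr_self, Finsupp.smul_apply, Finsupp.single_eq_same,
      smul_eq_mul, mul_one, map_zero, Finsupp.zero_apply] at h4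
    have h5 := congrArg TrivSqZeroExt.snd h4
    rw [DualNumber.snd_eps, TrivSqZeroExt.snd_zero] at h5
    exact one_ne_zero h5
  -- transfer of the clause to the matrix model
  have T1 : ∀ (σ : GQ) (x : DualNumber k), (∀ w ∈ L, ρA.ρ σ w = x • w) →
      (m.M σ) *ᵥ u = x • u := by
    intro σ x hx
    rw [hu, ← hE, hx _ hb0, map_smul]
  have T2 : ∀ (σ : GQ) (z : DualNumber k) (v' : Fin 2 → DualNumber k),
      (∀ v : ρA.V, ρA.ρ σ v - z • v ∈ L) → ∃ t : DualNumber k, (m.M σ) *ᵥ v' - z • v' = t • u := by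
    intro σ z v' hz
    have h1 := hz (E.symm v')
    rw [hL] at h1
    obtain ⟨t, ht⟩ := Submodule.mem_span_singleton.mp h1
    refine ⟨t, ?_⟩
    have h3 := congrArg E ht
    rw [map_smul, map_sub, map_smul, hE, LinearEquiv.apply_symm_apply] at h3
    exact h3.symm
  obtain ⟨X, hX⟩ := exists_mulVec_eq hū (-(sndV u))
  refine ⟨fstV u, X, hū, ?_, ?_, ?_⟩
  · -- the line is strict-ordinary for `ρ̄`
    intro σ hσ
    obtain ⟨x, z, hcl⟩ := hxz σ hσ
    obtain ⟨zb, hz, hzz, hxa⟩ := scalars_of_clause hpk h2 hdet b hL hcl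
    obtain ⟨a₀, ha₀⟩ := exists_pow_eq p σ
    have hx : x = TrivSqZeroExt.inl ((a₀ : k) * zb) := hxa a₀ ha₀
    refine ⟨(a₀ : k) * zb, zb, ?_, ?_, hzz, fun a ha => ?_⟩
    · have h1 := congrArg fstV (T1 σ x hcl.1)
      rwa [fstV_mulVec, fstV_smul, m.redM_apply, hx, TrivSqZeroExt.fst_inl] at h1
    · intro v
      obtain ⟨t, ht⟩ := T2 σ z (inlV v) hcl.2.1
      refine ⟨TrivSqZeroExt.fst t, ?_⟩
      have h1 := congrArg fstV ht
      rwa [fstV_sub, fstV_mulVec, fstV_smul, fstV_smul, m.redM_apply, fstV_inlV, hz,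
        TrivSqZeroExt.fst_inl] at h1
    · have h1 := hxa a ha
      rw [hx] at h1
      exact TrivSqZeroExt.inl_injective h1
  · -- inertia acts trivially on the quotient
    intro σ hσ v
    have hz1 : ∀ y : ρA.V, ρA.ρ σ y - (1 : DualNumber k) • y ∈ L := fun y => by
      rw [one_smul]; exact hI σ hσ y
    obtain ⟨t, ht⟩ := T2 σ 1 (inlV v) hz1
    refine ⟨TrivSqZeroExt.fst t, ?_⟩
    have h1 := congrArg fstV ht
    rwa [fstV_sub, fstV_mulVec, fstV_smul, fstV_smul, TrivSqZeroExt.fst_one, one_smul,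
      m.redM_apply, fstV_inlV] at h1
  · -- the corrected cocycle has values in `Hom(V̄/L̄, L̄)`
    intro σ hσ
    obtain ⟨x, z, hcl⟩ := hxz σ hσ
    obtain ⟨zb, hz, hzz, hxa⟩ := scalars_of_clause hpk h2 hdet b hL hcl
    obtain ⟨a₀, ha₀⟩ := exists_pow_eq p σ
    have hx : x = TrivSqZeroExt.inl ((a₀ : k) * zb) := hxa a₀ ha₀
    have ha₀k : (a₀ : k) ≠ 0 := natCast_ne_zero_of_pow_eq hpk ha₀
    have hzb0 : zb ≠ 0 := by
      intro h0; rw [h0, zero_mul] at hzz; exact zero_ne_one hzz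
    set xb : k := (a₀ : k) * zb with hxb
    have hxb0 : xb ≠ 0 := mul_ne_zero ha₀k hzb0
    set Mb : M2 k := resMat ρbar σ with hMb
    set Mbi : M2 k := resMat ρbar σ⁻¹ with hMbi
    set S : M2 k := sndM (m.M σ) with hS
    set C' : M2 k := cocMat m.M σ - (Mb * X * Mbi - X) with hC'
    have hMM : Mb * Mbi = 1 := by
      rw [hMb, hMbi, ← map_mul, mul_inv_cancel, map_one]
    have hMM' : Mbi * Mb = 1 := by
      rw [hMb, hMbi, ← map_mul, inv_mul_cancel, map_one]
    have hfst : fstM (m.M σ) = Mb := m.redM_apply σ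
    -- `C' * M̄ = S − M̄ X + X M̄`
    have hCM : C' * Mb = S - Mb * X + X * Mb := by
      have h1 : cocMat m.M σ * Mb = S := by
        have := sndM_eq m.M σ
        rw [Tan.Cocycle.redM_apply, hfst] at this
        exact this.symm
      rw [hC', sub_mul, h1, sub_mul, mul_assoc (Mb * X), hMM', mul_one]
      abel
    -- the data of `u`
    have hu1 := congrArg fstV (T1 σ x hcl.1)
    rw [fstV_mulVec, fstV_smul, hfst, hx, TrivSqZeroExt.fst_inl] at hu1
    have hu2 := congrArg sndV (T1 σ x hcl.1)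
    rw [sndV_mulVec, sndV_smul, hfst, hx, TrivSqZeroExt.fst_inl, TrivSqZeroExt.snd_inl, zero_smul,
      add_zero] at hu2
    -- the data of a constant vector
    have hv : ∀ v : Fin 2 → k, ∃ α β : k,
        Mb *ᵥ v = zb • v + α • fstV u ∧ S *ᵥ v = α • sndV u + β • fstV u := by
      intro v
      obtain ⟨t, ht⟩ := T2 σ z (inlV v) hcl.2.1
      refine ⟨TrivSqZeroExt.fst t, TrivSqZeroExt.snd t, ?_, ?_⟩
      · have h1 := congrArg fstV ht
        rw [fstV_sub, fstV_mulVec, fstV_smul, fstV_smul, hfst, fstV_inlV, hz,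
          TrivSqZeroExt.fst_inl] at h1
        rw [← h1]; abel
      · have h1 := congrArg sndV ht
        rw [sndV_sub, sndV_mulVec, sndV_smul, sndV_smul, sndV_inlV, fstV_inlV, hz,
          TrivSqZeroExt.fst_inl, TrivSqZeroExt.snd_inl, Matrix.mulVec_zero, smul_zero, zero_smul,
          zero_add, add_zero, sub_zero] at h1
        exact h1
    -- general formula
    have hgen : ∀ v : Fin 2 → k, ∃ β : k, (C' * Mb) *ᵥ v = β • fstV u := by
      intro v
      obtain ⟨α, β, h1, h3⟩ := hv v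
      obtain ⟨α', -, h4, -⟩ := hv (X *ᵥ v)
      refine ⟨β - α', ?_⟩
      rw [hCM, Matrix.add_mulVec, Matrix.sub_mulVec, ← Matrix.mulVec_mulVec, ← Matrix.mulVec_mulVec,
        h3, h4, h1, Matrix.mulVec_add, Matrix.mulVec_smul, Matrix.mulVec_smul, hX, sub_smul]
      simp only [smul_neg]
      abel
    constructor
    · -- `C' ū = 0`
      have h1 : (C' * Mb) *ᵥ fstV u = 0 := by
        rw [hCM, Matrix.add_mulVec, Matrix.sub_mulVec, ← Matrix.mulVec_mulVec,
          ← Matrix.mulVec_mulVec, hX, hu1, Matrix.mulVec_smul, hX, Matrix.mulVec_neg]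
        have h5 : S *ᵥ fstV u = xb • sndV u - Mb *ᵥ sndV u := by rw [← hu2]; abel
        rw [h5, smul_neg]
        abel
      rw [← Matrix.mulVec_mulVec, hu1, Matrix.mulVec_smul] at h1
      exact (smul_eq_zero.mp h1).resolve_left hxb0
    · intro v
      obtain ⟨β, hβ⟩ := hgen (Mbi *ᵥ v)
      refine ⟨β, ?_⟩
      rw [← hβ, ← Matrix.mulVec_mulVec, Matrix.mulVec_mulVec v Mb Mbi, hMM, Matrix.one_mulVec]

end Main

/-! ### the normal form, in `ρ̄.V` and `End_k(ρ̄.V)` -/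

section EndForm

open Fermat.Agent.S56.Ad

variable {k : Type} [Field k] (ρbar : ResidualGaloisRep k)

/-- coordinates of `ρ̄.V` in the basis of `resMat` -/
def crd : ρbar.V ≃ₗ[k] (Fin 2 → k) :=
  (Module.finBasisOfFinrankEq k ρbar.V ρbar.finrank_eq).equivFun

theorem crd_apply_end (f : Module.End k ρbar.V) (v : ρbar.V) :
    crd ρbar (f v) = toM ρbar f *ᵥ crd ρbar v :=
  (LinearMap.toMatrix_mulVec_repr (Module.finBasisOfFinrankEq k ρbar.V ρbar.finrank_eq)
    (Module.finBasisOfFinrankEq k ρbar.V ρbar.finrank_eq) f v).symm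

theorem crd_symm_mulVec (N : M2 k) (w : Fin 2 → k) :
    (crd ρbar).symm (N *ᵥ w) = (toM ρbar).symm N ((crd ρbar).symm w) := by
  apply (crd ρbar).injective
  rw [LinearEquiv.apply_symm_apply, crd_apply_end, AlgEquiv.apply_symm_apply,
    LinearEquiv.apply_symm_apply]

theorem toM_symm_mulVec_mem {N : M2 k} {ū : Fin 2 → k}
    (h : ∀ v : Fin 2 → k, ∃ β : k, N *ᵥ v = β • ū) (v : ρbar.V) :
    (toM ρbar).symm N v ∈ Submodule.span k {(crd ρbar).symm ū} := by
  obtain ⟨β, hβ⟩ := h (crd ρbar v)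
  refine Submodule.mem_span_singleton.mpr ⟨β, ?_⟩
  apply (crd ρbar).injective
  rw [map_smul, LinearEquiv.apply_symm_apply, crd_apply_end, AlgEquiv.apply_symm_apply, hβ]

variable {ρbar} {ρA : GaloisRepAdic (DualNumber k)} (m : Model ρbar ρA)
  {p : ℕ} [Fact p.Prime] (hpk : (p : k) = 0) (h2 : (2 : k) ≠ 0) (hdet : ρA.DetIsCyclotomic p)

include hpk h2 hdet in
/-- **SO1, intrinsic form.**  Same as `normalForm_mat`, in `ρ̄.V` and `End_k(ρ̄.V)`. -/
theorem normalForm (P : ValuationSubring Qbar) (b : Module.Basis (Fin 2) (DualNumber k) ρA.V)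
    {L : Submodule (DualNumber k) ρA.V} (hL : L = Submodule.span (DualNumber k) {b 0})
    (hI : ∀ σ ∈ P.inertiaSubgroupIn ℚ, ∀ v : ρA.V, ρA.ρ σ v - v ∈ L)
    (hxz : ∀ σ ∈ P.decompositionSubgroup ℚ, ∃ x z : DualNumber k, Clause p L σ x z) :
    ∃ (v₀ : ρbar.V) (Xe : Module.End k ρbar.V), v₀ ≠ 0 ∧
      (∀ σ ∈ P.decompositionSubgroup ℚ, ∃ xb zb : k,
        ρbar.ρ σ v₀ = xb • v₀ ∧
        (∀ v : ρbar.V, ρbar.ρ σ v - zb • v ∈ Submodule.span k {v₀}) ∧
        zb * zb = 1 ∧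
        ∀ a : ℕ, (∀ μ : Qbar, μ ^ p ^ 1 = 1 → σ μ = μ ^ a) → xb = (a : k) * zb) ∧
      (∀ σ ∈ P.inertiaSubgroupIn ℚ, ∀ v : ρbar.V, ρbar.ρ σ v - v ∈ Submodule.span k {v₀}) ∧
      (∀ σ ∈ P.decompositionSubgroup ℚ,
        (cocEnd ρbar m.M σ - (ρbar.ρ σ * Xe * ρbar.ρ σ⁻¹ - Xe)) v₀ = 0 ∧
        ∀ v : ρbar.V,
          (cocEnd ρbar m.M σ - (ρbar.ρ σ * Xe * ρbar.ρ σ⁻¹ - Xe)) v ∈ Submodule.span k {v₀}) := by
  obtain ⟨ū, X, hū, hD, hIn, hC⟩ := normalForm_mat m hpk h2 hdet P b hL hI hxz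
  have hv₀ : (crd ρbar).symm ū ≠ 0 := by
    intro h0; exact hū ((crd ρbar).symm.injective (by rw [h0, map_zero]))
  -- the matrix of the corrected cocycle
  have hmat : ∀ σ : GQ, cocEnd ρbar m.M σ - (ρbar.ρ σ * (toM ρbar).symm X * ρbar.ρ σ⁻¹ -
      (toM ρbar).symm X) =
      (toM ρbar).symm (cocMat m.M σ - (resMat ρbar σ * X * resMat ρbar σ⁻¹ - X)) := by
    intro σ
    rw [map_sub, map_sub, map_mul, map_mul, toM_symm_resMat, toM_symm_resMat]
    rfl
  refine ⟨(crd ρbar).symm ū, (toM ρbar).symm X, hv₀, ?_, ?_, ?_⟩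
  · intro σ hσ
    obtain ⟨xb, zb, h1, h3, h4, h5⟩ := hD σ hσ
    refine ⟨xb, zb, ?_, ?_, h4, h5⟩
    · have := congrArg (crd ρbar).symm h1
      rwa [crd_symm_mulVec, toM_symm_resMat, map_smul] at this
    · intro v
      have h6 : ρbar.ρ σ v - zb • v =
          (toM ρbar).symm (resMat ρbar σ - zb • (1 : M2 k)) v := by
        rw [map_sub, map_smul, map_one, toM_symm_resMat]
        rfl
      rw [h6]
      refine toM_symm_mulVec_mem ρbar (fun w => ?_) v
      obtain ⟨α, hα⟩ := h3 w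
      exact ⟨α, by rw [Matrix.sub_mulVec, Matrix.smul_mulVec, Matrix.one_mulVec, hα]⟩
  · intro σ hσ v
    have h6 : ρbar.ρ σ v - v = (toM ρbar).symm (resMat ρbar σ - (1 : M2 k)) v := by
      rw [map_sub, map_one, toM_symm_resMat]
      rfl
    rw [h6]
    refine toM_symm_mulVec_mem ρbar (fun w => ?_) v
    obtain ⟨α, hα⟩ := hIn σ hσ w
    exact ⟨α, by rw [Matrix.sub_mulVec, Matrix.one_mulVec, hα]⟩
  · intro σ hσ
    obtain ⟨h1, h3⟩ := hC σ hσ
    rw [hmat σ]
    refine ⟨?_, fun v => toM_symm_mulVec_mem ρbar h3 v⟩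
    rw [← crd_symm_mulVec, h1, map_zero]

include hpk h2 hdet in
/-- **SO1 for the frozen condition**: a lift with `IsStrictOrdinaryAt p`. -/
theorem normalForm_of_isStrictOrdinaryAt (hso : ρA.IsStrictOrdinaryAt p)
    (P : ValuationSubring Qbar) (hP : P.LiesOverPrime p) :
    ∃ (v₀ : ρbar.V) (Xe : Module.End k ρbar.V), v₀ ≠ 0 ∧
      (∀ σ ∈ P.decompositionSubgroup ℚ, ∃ xb zb : k,
        ρbar.ρ σ v₀ = xb • v₀ ∧
        (∀ v : ρbar.V, ρbar.ρ σ v - zb • v ∈ Submodule.span k {v₀}) ∧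
        zb * zb = 1 ∧
        ∀ a : ℕ, (∀ μ : Qbar, μ ^ p ^ 1 = 1 → σ μ = μ ^ a) → xb = (a : k) * zb) ∧
      (∀ σ ∈ P.inertiaSubgroupIn ℚ, ∀ v : ρbar.V, ρbar.ρ σ v - v ∈ Submodule.span k {v₀}) ∧
      (∀ σ ∈ P.decompositionSubgroup ℚ,
        (cocEnd ρbar m.M σ - (ρbar.ρ σ * Xe * ρbar.ρ σ⁻¹ - Xe)) v₀ = 0 ∧
        ∀ v : ρbar.V,
          (cocEnd ρbar m.M σ - (ρbar.ρ σ * Xe * ρbar.ρ σ⁻¹ - Xe)) v ∈ Submodule.span k {v₀}) := by
  obtain ⟨L, ⟨b, hL⟩, -, hI, hxz⟩ := hso.2 P hP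
  exact normalForm m hpk h2 hdet P b hL hI hxz

variable [Algebra (ZMod p) k]

include h2 in
/-- **SO1 in `ad⁰ρ̄`**: the class of the cocycle of a strict-ordinary lift, restricted to the
decomposition group at `P ∣ p`, is represented by a cocycle with values in
`W = {f ∈ ad⁰ρ̄ : f v₀ = 0, im f ⊆ k v₀}`: there is `x ∈ ad⁰ρ̄` such that
`c σ − (σ • x − x) ∈ W` for all `σ ∈ D_P`, where `k v₀` is a strict-ordinary line of `ρ̄`. -/
theorem normalForm_ad0 (hso : ρA.IsStrictOrdinaryAt p)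
    (P : ValuationSubring Qbar) (hP : P.LiesOverPrime p) :
    ∃ (v₀ : ρbar.V) (x : Ad0 ρbar p), v₀ ≠ 0 ∧
      (∀ σ ∈ P.decompositionSubgroup ℚ, ∃ xb zb : k,
        ρbar.ρ σ v₀ = xb • v₀ ∧
        (∀ v : ρbar.V, ρbar.ρ σ v - zb • v ∈ Submodule.span k {v₀}) ∧
        zb * zb = 1 ∧
        ∀ a : ℕ, (∀ μ : Qbar, μ ^ p ^ 1 = 1 → σ μ = μ ^ a) → xb = (a : k) * zb) ∧
      (∀ σ ∈ P.inertiaSubgroupIn ℚ, ∀ v : ρbar.V, ρbar.ρ σ v - v ∈ Submodule.span k {v₀}) ∧
      (∀ σ ∈ P.decompositionSubgroup ℚ,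
        Ad0.toEnd ρbar p (m.cocycle p hpk hdet σ - ((ad0 ρbar p).ρ σ x - x)) v₀ = 0 ∧
        ∀ v : ρbar.V,
          Ad0.toEnd ρbar p (m.cocycle p hpk hdet σ - ((ad0 ρbar p).ρ σ x - x)) v ∈
            Submodule.span k {v₀}) := by
  obtain ⟨v₀, Xe, hv₀, hD, hIn, hC⟩ := normalForm_of_isStrictOrdinaryAt m hpk h2 hdet hso P hP
  set c : k := LinearMap.trace k ρbar.V Xe / 2 with hc
  have htr : LinearMap.trace k ρbar.V (Xe - c • (1 : Module.End k ρbar.V)) = 0 := by
    rw [map_sub, map_smul, LinearMap.trace_one, ρbar.finrank_eq, smul_eq_mul, hc]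
    push_cast
    field_simp
    ring
  refine ⟨v₀, Ad0.mk ρbar p (Xe - c • 1) htr, hv₀, hD, hIn, fun σ hσ => ?_⟩
  have hconj : ρbar.ρ σ * (Xe - c • (1 : Module.End k ρbar.V)) * ρbar.ρ σ⁻¹ -
      (Xe - c • (1 : Module.End k ρbar.V)) = ρbar.ρ σ * Xe * ρbar.ρ σ⁻¹ - Xe := by
    rw [mul_sub, sub_mul, mul_smul_comm, smul_mul_assoc, mul_one, rho_mul_rho_inv]
    abel
  have hto : Ad0.toEnd ρbar p (m.cocycle p hpk hdet σ -
      ((ad0 ρbar p).ρ σ (Ad0.mk ρbar p (Xe - c • 1) htr) - Ad0.mk ρbar p (Xe - c • 1) htr)) =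
      cocEnd ρbar m.M σ - (ρbar.ρ σ * Xe * ρbar.ρ σ⁻¹ - Xe) := by
    rw [map_sub, map_sub, toEnd_ρ, Ad0.toEnd_mk, hconj]
    rfl
  rw [hto]
  exact hC σ hσ

end EndForm

/-! ### uniqueness of the line with unramified quotient -/

section Unique

variable {k : Type} [Field k] {V : Type} [AddCommGroup V] [Module k V]

/-- two distinct lines meet in `0` -/
theorem inf_span_eq_bot_of_ne {v w : V}
    (hne : Submodule.span k {v} ≠ Submodule.span k {w}) :
    Submodule.span k {v} ⊓ Submodule.span k {w} = ⊥ := by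
  rw [eq_bot_iff]
  intro y hy
  obtain ⟨hy1, hy2⟩ := Submodule.mem_inf.mp hy
  obtain ⟨α, rfl⟩ := Submodule.mem_span_singleton.mp hy1
  obtain ⟨β, hβ⟩ := Submodule.mem_span_singleton.mp hy2
  rw [Submodule.mem_bot]
  by_contra h0
  have hα : α ≠ 0 := fun h => h0 (by rw [h, zero_smul])
  have hβ0 : β ≠ 0 := fun h => h0 (by rw [← hβ, h, zero_smul])
  apply hne
  apply le_antisymm
  · rw [Submodule.span_singleton_le_iff_mem]
    refine Submodule.mem_span_singleton.mpr ⟨α⁻¹ * β, ?_⟩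
    rw [mul_smul, hβ, smul_smul, inv_mul_cancel₀ hα, one_smul]
  · rw [Submodule.span_singleton_le_iff_mem]
    refine Submodule.mem_span_singleton.mpr ⟨β⁻¹ * α, ?_⟩
    rw [mul_smul, ← hβ, smul_smul, inv_mul_cancel₀ hβ0, one_smul]

/-- **Uniqueness of the line with unramified quotient**: if a set `I` of endomorphisms acts trivially
modulo each of two lines, and some element of `I` is not the identity (e.g. has determinant `≠ 1`),
the two lines coincide. -/
theorem span_eq_of_forall_sub_mem {I : Set (Module.End k V)} {v w : V}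
    (h : ∀ f ∈ I, ∀ y : V, f y - y ∈ Submodule.span k {v})
    (h' : ∀ f ∈ I, ∀ y : V, f y - y ∈ Submodule.span k {w})
    (hram : ∃ f ∈ I, f ≠ 1) : Submodule.span k {v} = Submodule.span k {w} := by
  by_contra hne
  obtain ⟨f, hf, hf1⟩ := hram
  apply hf1
  refine LinearMap.ext fun y => ?_
  have h1 : f y - y ∈ Submodule.span k {v} ⊓ Submodule.span k {w} :=
    Submodule.mem_inf.mpr ⟨h f hf y, h' f hf y⟩
  rw [inf_span_eq_bot_of_ne hne, Submodule.mem_bot, sub_eq_zero] at h1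
  rw [h1, Module.End.one_apply]

/-- the same for a residual representation and the inertia group at `P`, with the ramification
hypothesis in the form "some inertia element has determinant `≠ 1`" -/
theorem line_unique (ρbar : ResidualGaloisRep k) (P : ValuationSubring Qbar) {v w : ρbar.V}
    (h : ∀ σ ∈ P.inertiaSubgroupIn ℚ, ∀ y : ρbar.V, ρbar.ρ σ y - y ∈ Submodule.span k {v})
    (h' : ∀ σ ∈ P.inertiaSubgroupIn ℚ, ∀ y : ρbar.V, ρbar.ρ σ y - y ∈ Submodule.span k {w})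
    (hram : ∃ σ ∈ P.inertiaSubgroupIn ℚ, LinearMap.det (ρbar.ρ σ) ≠ 1) :
    Submodule.span k {v} = Submodule.span k {w} := by
  obtain ⟨σ₀, hσ₀, hdet⟩ := hram
  refine span_eq_of_forall_sub_mem (I := {f | ∃ σ ∈ P.inertiaSubgroupIn ℚ, ρbar.ρ σ = f}) ?_ ?_
    ⟨ρbar.ρ σ₀, ⟨σ₀, hσ₀, rfl⟩, fun h1 => hdet (by rw [h1, map_one])⟩
  · rintro f ⟨σ, hσ, rfl⟩ y
    exact h σ hσ y
  · rintro f ⟨σ, hσ, rfl⟩ y
    exact h' σ hσ y

end Unique

end Fermat.Agent.S56.Loc.StrictOrdNormalForm
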