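/-
S56 / LOC, leaf E-SO at the prime `p` (helper19): **the tangent class of a strict-ordinary lift lies
in `𝓛_so`**, in the vocabulary of the local Galois group `primeLocalGaloisGroup q` (`q = p`).

* `IsSOBasis ρbar q b` : `b₀` spans a line of `ρ̄` stable under the decomposition group of
  `primeLocalPlace q` with the inertia group acting trivially on the quotient (a *strict-ordinary
  line* of `ρ̄`); `exists_isSOBasis_of_isStrictOrdinaryAt` : a strict-ordinary lift to `k[ε]` with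
  cyclotomic determinant provides one (helper2's SO1, `StrictOrdNormalForm.normalForm_ad0`);
  `IsSOBasis.span_eq` : it is unique if `det ρ̄` is ramified at `q` (SO-RAM);
* **`levelH1π_mem_Lso_of_isStrictOrdinaryAt`** (SO2 at `p`): for a lift `ρA` of `ρ̄` to `k[ε]` with
  cyclotomic determinant and `ρA.IsStrictOrdinaryAt p`, the class of the restriction to the local
  group of the cocycle `m.cocycle` of any model `m` of `ρA` lies in `𝓛_so = Lso ρbar p b r_q hT 𝒰`.
-/
import Mathlib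
import Fermat.Agent.S56.Loc.StrictOrdMore
import Fermat.Agent.S56.Loc.StrictOrdNormalForm
import Fermat.Agent.S56.Places.Dict

set_option autoImplicit false
set_option linter.unusedSectionVars false

namespace Fermat.Agent.S56.Loc.StrictOrdAt

open Module groupCohomology ExtCitation Fermat.Agent.S53 Fermat.Agent.S56.Ad
  Fermat.Agent.S56.Loc.BorelCore Fermat.Agent.S56.Loc.StrictOrd Fermat.Agent.S56.Loc.StrictOrdMore
  Fermat.Agent.S56.Loc.StrictOrdNormalForm Fermat.Agent.S56.Tan.Cocycle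
  Fermat.Agent.S56.Places.Dict Fermat.Agent.S55.Level

local notation "Qbar" => AlgebraicClosure ℚ
local notation "Γ" => (AlgebraicClosure ℚ ≃ₐ[ℚ] AlgebraicClosure ℚ)

variable {k : Type} [Field k] (ρbar : ResidualGaloisRep k) (q : Nat.Primes)

/-- `b₀` spans a strict-ordinary line of `ρ̄` at `q`: stable under the decomposition group of
`primeLocalPlace q` (equivalently under the local Galois group), inertia trivial on the quotient. -/
def IsSOBasis (b : Basis (Fin 2) k ρbar.V) : Prop :=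
  (∀ τ : primeLocalGaloisGroup q, IsUT b (ρbar.ρ (primeLocalToGlobal q τ))) ∧
    ∀ σ ∈ (primeLocalPlace q).inertiaSubgroupIn ℚ, ∀ v : ρbar.V,
      ρbar.ρ σ v - v ∈ Submodule.span k {b 0}

variable {ρbar q}

theorem IsSOBasis.isUT {b : Basis (Fin 2) k ρbar.V} (hb : IsSOBasis ρbar q b)
    (τ : primeLocalGaloisGroup q) : IsUT b (ρbar.ρ (primeLocalToGlobal q τ)) := hb.1 τ

/-- **uniqueness of the strict-ordinary line** when `det ρ̄` is ramified at `q` -/
theorem IsSOBasis.span_eq {b b' : Basis (Fin 2) k ρbar.V} (hb : IsSOBasis ρbar q b)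
    (hb' : IsSOBasis ρbar q b')
    (hram : ∃ σ ∈ (primeLocalPlace q).inertiaSubgroupIn ℚ, LinearMap.det (ρbar.ρ σ) ≠ 1) :
    Submodule.span k {b 0} = Submodule.span k {b' 0} :=
  line_unique ρbar (primeLocalPlace q) hb.2 hb'.2 hram

/-- the strict-ordinary subspace does not depend on the choice of the basis -/
theorem IsSOBasis.Lso_eq {p : ℕ} [Fact p.Prime] [Algebra (ZMod p) k]
    {b b' : Basis (Fin 2) k ρbar.V} (hb : IsSOBasis ρbar q b) (hb' : IsSOBasis ρbar q b')
    (hram : ∃ σ ∈ (primeLocalPlace q).inertiaSubgroupIn ℚ, LinearMap.det (ρbar.ρ σ) ≠ 1)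
    (𝒰 : LevelStructure (primeLocalGaloisGroup q))
    [IsDiscrete 𝒰 (Mres ρbar p (primeLocalToGlobal q))] :
    Lso ρbar p b (primeLocalToGlobal q) hb.1 𝒰 = Lso ρbar p b' (primeLocalToGlobal q) hb'.1 𝒰 :=
  Lso_eq_of_span_eq ρbar p b (primeLocalToGlobal q) hb.1 𝒰 hb'.1 (hb.span_eq hb' hram)

section Lift

variable {ρA : GaloisRepAdic (DualNumber k)} (m : Model ρbar ρA)
  {p : ℕ} [Fact p.Prime] (hpk : (p : k) = 0) (h2 : (2 : k) ≠ 0) (hdet : ρA.DetIsCyclotomic p)
  [Algebra (ZMod p) k]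

include m hpk h2 hdet in
/-- a strict-ordinary lift of `ρ̄` to `k[ε]` provides a strict-ordinary line of `ρ̄` -/
theorem exists_isSOBasis_of_isStrictOrdinaryAt (hq : (q : ℕ) = p)
    (hso : ρA.IsStrictOrdinaryAt p) : ∃ b : Basis (Fin 2) k ρbar.V, IsSOBasis ρbar q b := by
  have hP : (primeLocalPlace q).LiesOverPrime p := hq ▸ liesOverPrime_primeLocalPlace q
  obtain ⟨v₀, x, hv₀, hD, hIn, -⟩ :=
    normalForm_ad0 m hpk h2 hdet hso (primeLocalPlace q) hP
  obtain ⟨b, hb0⟩ := exists_basis_of_ne_zero ρbar.finrank_eq hv₀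
  refine ⟨b, fun τ => ?_, fun σ hσ v => ?_⟩
  · obtain ⟨xb, zb, h1, -⟩ := hD _ (primeLocalToGlobal_mem_decomposition q τ)
    exact isUT_of_apply_eq_smul b (x := xb) (by rw [hb0]; exact h1)
  · rw [hb0]
    exact hIn σ hσ v

include h2 in
/-- **(SO2 at `p`)** the restriction to the local Galois group of the cocycle of a strict-ordinary
lift represents a class of `𝓛_so`. -/
theorem levelH1π_mem_Lso_of_isStrictOrdinaryAt (hq : (q : ℕ) = p)
    (hso : ρA.IsStrictOrdinaryAt p) {b : Basis (Fin 2) k ρbar.V} (hb : IsSOBasis ρbar q b)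
    (hram : ∃ σ ∈ (primeLocalPlace q).inertiaSubgroupIn ℚ, LinearMap.det (ρbar.ρ σ) ≠ 1)
    (𝒰 : LevelStructure (primeLocalGaloisGroup q))
    [IsDiscrete 𝒰 (Mres ρbar p (primeLocalToGlobal q))]
    (z : levelCocycles₁ 𝒰 (Mres ρbar p (primeLocalToGlobal q)))
    (hz : ∀ τ, z.1 τ = m.cocycle p hpk hdet (primeLocalToGlobal q τ)) :
    levelH1π 𝒰 (Mres ρbar p (primeLocalToGlobal q)) z
      ∈ Lso ρbar p b (primeLocalToGlobal q) hb.1 𝒰 := by
  have hP : (primeLocalPlace q).LiesOverPrime p := hq ▸ liesOverPrime_primeLocalPlace q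
  obtain ⟨v₀, x, hv₀, hD, hIn, hC⟩ :=
    normalForm_ad0 m hpk h2 hdet hso (primeLocalPlace q) hP
  -- the two lines coincide
  have hspan : Submodule.span k {v₀} = Submodule.span k {b 0} :=
    line_unique ρbar (primeLocalPlace q) hIn hb.2 hram
  refine levelH1π_mem_Lso_of_sub ρbar p b (primeLocalToGlobal q) hb.1 𝒰 z x fun τ => ?_
  obtain ⟨h0, hv⟩ := hC _ (primeLocalToGlobal_mem_decomposition q τ)
  rw [hz τ, mem_W0_iff_line, ← hspan]
  refine ⟨fun v hv' => ?_, hv⟩
  obtain ⟨a, rfl⟩ := Submodule.mem_span_singleton.mp hv'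
  rw [map_smul, h0, smul_zero]

end Lift

end Fermat.Agent.S56.Loc.StrictOrdAt
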