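/-
S56 / LOC, leaf E-Q core (helper19; dispatch v2 of helper10): **the local term at a Taylor–Wiles prime.**

Linear algebra (Mathlib only): `V` of dimension 2 over a field `k`, `g ∈ End_k V` with
`charpoly g = (X - α)(X - β)`, `α ≠ β` (the frozen Taylor–Wiles clause).  Then the trace-zero
endomorphisms commuting with `g` form a LINE:

* `centTr g : Submodule k (End_k V)` := `{x | tr x = 0 ∧ g x = x g}`;
* `exists_eigenbasis` : a basis of eigenvectors; `finrank_centTr : finrank k (centTr g) = 1`;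
* `commute_pow_of_commute`.

* `toMatrix_eq_diagonal_of_commute`, `commute_of_commute_of_charpoly` : the centraliser of `g` is
  the diagonal torus of an eigenbasis, in particular commutative.

In the vocabulary of `S56/Ad` (`M = ad0 ρbar p`, `M' = ad0' ρbar p`, `invariantsOf`, `invariantsOf'`
of `Ad0More`), for a set `S ⊆ Γ` (think: the decomposition group at a Taylor–Wiles prime `q`)
containing `φ` (a Frobenius), with EITHER `ρ̄(S) ⊆ ρ̄(φ)^ℕ` OR `ρ̄(S)` commuting with `ρ̄φ`:

* `ad0_ρ_eq_iff_commute` : `σ` fixes `x ∈ M` iff `ρ̄σ` commutes with `x`;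
* `mem_invariantsOf_iff_commute`, `mem_invariantsOf_iff_commute'` : `M^S` = commutant of `ρ̄φ`;
* **`finrank_invariantsOf`, `finrank_invariantsOf_of_commute` : `dim_{𝔽_p} M^S = [k : 𝔽_p]`**,
* **`finrank_invariantsOf'`, `finrank_invariantsOf'_of_commute` : `dim_{𝔽_p} M'^S = [k : 𝔽_p]`** when
  moreover `χ̄ = 1` on `S` (`q ≡ 1 mod p`).
-/
import Mathlib
import Fermat.Agent.S56.Ad.Ad0More

set_option autoImplicit false
set_option linter.unusedSectionVars false

namespace Fermat.Agent.S56.Loc.TWPrimeCore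

open Module Polynomial

/-! ### linear algebra -/

section LinAlg

variable {k V : Type*} [Field k] [AddCommGroup V] [Module k V]

/-- the trace-zero endomorphisms commuting with `g` -/
noncomputable def centTr (g : Module.End k V) : Submodule k (Module.End k V) where
  carrier := {x | LinearMap.trace k V x = 0 ∧ g * x = x * g}
  add_mem' := by
    rintro x y ⟨hx, hx'⟩ ⟨hy, hy'⟩
    exact ⟨by rw [map_add, hx, hy, add_zero], by rw [mul_add, add_mul, hx', hy']⟩
  zero_mem' := ⟨map_zero _, by rw [mul_zero, zero_mul]⟩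
  smul_mem' := by
    rintro a x ⟨hx, hx'⟩
    exact ⟨by rw [map_smul, hx, smul_zero], by rw [mul_smul_comm, smul_mul_assoc, hx']⟩

theorem mem_centTr {g x : Module.End k V} :
    x ∈ centTr g ↔ LinearMap.trace k V x = 0 ∧ g * x = x * g := Iff.rfl

theorem commute_pow_of_commute {g x : Module.End k V} (h : g * x = x * g) (n : ℕ) :
    g ^ n * x = x * g ^ n := ((Commute.pow_left (show Commute g x from h)) n).eq

variable [Module.Finite k V]

/-- a basis of eigenvectors of an endomorphism of a plane with two distinct eigenvalues -/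
theorem exists_eigenbasis (hV : finrank k V = 2) (g : Module.End k V) {α β : k} (hαβ : α ≠ β)
    (hg : LinearMap.charpoly g = (X - C α) * (X - C β)) :
    ∃ b : Basis (Fin 2) k V, g (b 0) = α • b 0 ∧ g (b 1) = β • b 1 := by
  have hα : g.HasEigenvalue α := by
    rw [Module.End.hasEigenvalue_iff_isRoot_charpoly, hg]
    simp [Polynomial.IsRoot]
  have hβ : g.HasEigenvalue β := by
    rw [Module.End.hasEigenvalue_iff_isRoot_charpoly, hg]
    simp [Polynomial.IsRoot]
  obtain ⟨v, hv⟩ := hα.exists_hasEigenvector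
  obtain ⟨w, hw⟩ := hβ.exists_hasEigenvector
  have hv0 : v ≠ 0 := hv.2
  have hw0 : w ≠ 0 := hw.2
  have hgv : g v = α • v := hv.apply_eq_smul
  have hgw : g w = β • w := hw.apply_eq_smul
  have hli : LinearIndependent k ![v, w] := by
    rw [LinearIndependent.pair_iff]
    intro s t hst
    have h1 : g (s • v + t • w) = 0 := by rw [hst, map_zero]
    rw [map_add, map_smul, map_smul, hgv, hgw] at h1
    have h2 : (t * (β - α)) • w = 0 := by
      have h3 : s • α • v + t • β • w - α • (s • v + t • w) = 0 := by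
        rw [h1, hst, smul_zero, sub_zero]
      rw [← h3]
      simp only [smul_add, smul_smul, mul_sub, sub_smul]
      rw [mul_comm α s, mul_comm α t]
      abel
    have ht : t = 0 := by
      rcases smul_eq_zero.mp h2 with h | h
      · rcases mul_eq_zero.mp h with h | h
        · exact h
        · exact absurd (sub_eq_zero.mp h) (Ne.symm hαβ)
      · exact absurd h hw0
    subst ht
    rw [zero_smul, add_zero] at hst
    rcases smul_eq_zero.mp hst with h | h
    · exact ⟨h, rfl⟩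
    · exact absurd h hv0
  let b : Basis (Fin 2) k V := basisOfLinearIndependentOfCardEqFinrank hli (by simp [hV])
  refine ⟨b, ?_, ?_⟩
  · have : b 0 = v := by simp [b]
    rw [this]
    exact hgv
  · have : b 1 = w := by simp [b]
    rw [this]
    exact hgw

/-- the matrix of `g` in an eigenbasis -/
theorem toMatrix_eigenbasis (b : Basis (Fin 2) k V) (g : Module.End k V) {α β : k}
    (hb0 : g (b 0) = α • b 0) (hb1 : g (b 1) = β • b 1) :
    LinearMap.toMatrixAlgEquiv b g = Matrix.diagonal ![α, β] := by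
  classical
  ext i j
  rw [LinearMap.toMatrixAlgEquiv_apply]
  fin_cases j
  · simp only [Fin.zero_eta]
    rw [hb0, map_smul, Finsupp.smul_apply, b.repr_self]
    fin_cases i <;> simp [Matrix.diagonal]
  · simp only [Fin.mk_one]
    rw [hb1, map_smul, Finsupp.smul_apply, b.repr_self]
    fin_cases i <;> simp [Matrix.diagonal]

/-- an endomorphism commuting with `g` is diagonal in an eigenbasis of `g` (distinct eigenvalues) -/
theorem toMatrix_eq_diagonal_of_commute (b : Basis (Fin 2) k V) (g : Module.End k V) {α β : k}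
    (hαβ : α ≠ β) (hb0 : g (b 0) = α • b 0) (hb1 : g (b 1) = β • b 1) {x : Module.End k V}
    (hx : g * x = x * g) :
    LinearMap.toMatrixAlgEquiv b x =
      Matrix.diagonal ![LinearMap.toMatrixAlgEquiv b x 0 0, LinearMap.toMatrixAlgEquiv b x 1 1] := by
  classical
  set e := LinearMap.toMatrixAlgEquiv b with he
  have hG : e g = Matrix.diagonal ![α, β] := toMatrix_eigenbasis b g hb0 hb1
  have hc : e g * e x = e x * e g := by rw [← map_mul, ← map_mul, hx]
  rw [hG] at hc
  have h01 := congrFun (congrFun hc 0) 1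
  have h10 := congrFun (congrFun hc 1) 0
  rw [Matrix.diagonal_mul, Matrix.mul_diagonal] at h01 h10
  simp only [Matrix.cons_val_zero, Matrix.cons_val_one] at h01 h10
  have e01 : e x 0 1 = 0 := by
    have : (α - β) * e x 0 1 = 0 := by rw [sub_mul, h01]; ring
    exact (mul_eq_zero.mp this).resolve_left (sub_ne_zero.mpr hαβ)
  have e10 : e x 1 0 = 0 := by
    have : (β - α) * e x 1 0 = 0 := by rw [sub_mul, h10]; ring
    exact (mul_eq_zero.mp this).resolve_left (sub_ne_zero.mpr (Ne.symm hαβ))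
  ext i j
  fin_cases i <;> fin_cases j <;> simp [e01, e10]

/-- the centraliser of an endomorphism of a plane with two distinct eigenvalues is commutative -/
theorem commute_of_commute_of_charpoly (hV : finrank k V = 2) (g : Module.End k V) {α β : k}
    (hαβ : α ≠ β) (hg : LinearMap.charpoly g = (X - C α) * (X - C β)) {x y : Module.End k V}
    (hx : g * x = x * g) (hy : g * y = y * g) : x * y = y * x := by
  classical
  obtain ⟨b, hb0, hb1⟩ := exists_eigenbasis hV g hαβ hg
  apply (LinearMap.toMatrixAlgEquiv b).injective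
  rw [map_mul, map_mul, toMatrix_eq_diagonal_of_commute b g hαβ hb0 hb1 hx,
    toMatrix_eq_diagonal_of_commute b g hαβ hb0 hb1 hy, Matrix.diagonal_mul_diagonal,
    Matrix.diagonal_mul_diagonal]
  congr 1
  funext i
  exact mul_comm _ _

/-- **the trace-zero centraliser of an endomorphism of a plane with two distinct eigenvalues is a
line** -/
theorem finrank_centTr (hV : finrank k V = 2) (g : Module.End k V) {α β : k} (hαβ : α ≠ β)
    (hg : LinearMap.charpoly g = (X - C α) * (X - C β)) : finrank k ↥(centTr g) = 1 := by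
  classical
  obtain ⟨b, hb0, hb1⟩ := exists_eigenbasis hV g hαβ hg
  set e := LinearMap.toMatrixAlgEquiv b with he
  -- the matrix of `g`
  have hG : e g = Matrix.diagonal ![α, β] := by
    ext i j
    rw [he, LinearMap.toMatrixAlgEquiv_apply]
    fin_cases j
    · simp only [Fin.zero_eta]
      rw [hb0, map_smul, Finsupp.smul_apply, b.repr_self]
      fin_cases i <;> simp [Matrix.diagonal]
    · simp only [Fin.mk_one]
      rw [hb1, map_smul, Finsupp.smul_apply, b.repr_self]
      fin_cases i <;> simp [Matrix.diagonal]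
  -- the generator
  set h₀ : Module.End k V := e.symm (Matrix.diagonal ![1, -1]) with hh₀
  have hh₀e : e h₀ = Matrix.diagonal ![1, -1] := by rw [hh₀, AlgEquiv.apply_symm_apply]
  have htr : ∀ x : Module.End k V, LinearMap.trace k V x = Matrix.trace (e x) := fun x => by
    rw [LinearMap.trace_eq_matrix_trace k b x]; rfl
  have hspan : centTr g = Submodule.span k {h₀} := by
    apply le_antisymm
    · rintro x ⟨hx, hx'⟩
      rw [Submodule.mem_span_singleton]
      refine ⟨e x 0 0, ?_⟩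
      apply e.injective
      rw [map_smul, hh₀e]
      have hc : e g * e x = e x * e g := by rw [← map_mul, ← map_mul, hx']
      rw [hG] at hc
      have h01 := congrFun (congrFun hc 0) 1
      have h10 := congrFun (congrFun hc 1) 0
      rw [Matrix.diagonal_mul, Matrix.mul_diagonal] at h01 h10
      simp only [Matrix.cons_val_zero, Matrix.cons_val_one] at h01 h10
      have e01 : e x 0 1 = 0 := by
        have : (α - β) * e x 0 1 = 0 := by rw [sub_mul, h01]; ring
        exact (mul_eq_zero.mp this).resolve_left (sub_ne_zero.mpr hαβ)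
      have e10 : e x 1 0 = 0 := by
        have : (β - α) * e x 1 0 = 0 := by rw [sub_mul, h10]; ring
        exact (mul_eq_zero.mp this).resolve_left (sub_ne_zero.mpr (Ne.symm hαβ))
      have e11 : e x 1 1 = - e x 0 0 := by
        have := htr x
        rw [hx, Matrix.trace_fin_two] at this
        exact eq_neg_of_add_eq_zero_right this.symm
      ext i j
      fin_cases i <;> fin_cases j <;> simp [e01, e10, e11]
    · rw [Submodule.span_singleton_le_iff_mem]
      refine ⟨?_, ?_⟩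
      · rw [htr, hh₀e, Matrix.trace_fin_two]
        simp
      · apply e.injective
        rw [map_mul, map_mul, hG, hh₀e, Matrix.diagonal_mul_diagonal, Matrix.diagonal_mul_diagonal]
        congr 1
        funext i
        fin_cases i <;> simp [mul_comm]
  have hne : h₀ ≠ 0 := by
    intro h
    have := hh₀e
    rw [h, map_zero] at this
    have h00 := congrFun (congrFun this 0) 0
    simp at h00
  rw [hspan]
  exact finrank_span_singleton hne

end LinAlg

/-! ### the invariants of `M = ad⁰ρ̄` and `M' = ad⁰ρ̄(1)` under a group generated by a regular split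
element (`invariantsOf`, `invariantsOf'` of `S56/Ad/Ad0More`) -/

section Ad

open Fermat.Agent.S56.Ad ExtCitation

local notation "Γ" => (AlgebraicClosure ℚ ≃ₐ[ℚ] AlgebraicClosure ℚ)

variable {k : Type} [Field k] (ρbar : ResidualGaloisRep k) (p : ℕ) [Fact p.Prime]
  [Algebra (ZMod p) k]

/-- `σ` fixes `x ∈ ad⁰ρ̄` iff `ρ̄σ` commutes with `x` -/
theorem ad0_ρ_eq_iff_commute (σ : Γ) (x : Ad0 ρbar p) :
    (ad0 ρbar p).ρ σ x = x ↔ ρbar.ρ σ * Ad0.toEnd ρbar p x = Ad0.toEnd ρbar p x * ρbar.ρ σ := by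
  constructor
  · intro hx
    have h := congrArg (Ad0.toEnd ρbar p) hx
    rw [toEnd_ρ] at h
    calc ρbar.ρ σ * Ad0.toEnd ρbar p x
        = ρbar.ρ σ * Ad0.toEnd ρbar p x * (ρbar.ρ σ⁻¹ * ρbar.ρ σ) := by
          rw [rho_inv_mul_rho, mul_one]
      _ = (ρbar.ρ σ * Ad0.toEnd ρbar p x * ρbar.ρ σ⁻¹) * ρbar.ρ σ := by simp only [mul_assoc]
      _ = Ad0.toEnd ρbar p x * ρbar.ρ σ := by rw [h]
  · intro h
    apply Ad0.ext ρbar p
    rw [toEnd_ρ, h, mul_assoc, rho_mul_rho_inv, mul_one]

/-- the `k`-submodule of `ad⁰ρ̄` of the elements commuting with `ρ̄φ` -/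
noncomputable def commAd0 (φ : Γ) : Submodule k (Ad0 ρbar p) :=
  (centTr (ρbar.ρ φ)).comap (Ad0.toEndₗ ρbar p)

theorem mem_commAd0 (φ : Γ) (x : Ad0 ρbar p) :
    x ∈ commAd0 ρbar p φ ↔
      ρbar.ρ φ * Ad0.toEnd ρbar p x = Ad0.toEnd ρbar p x * ρbar.ρ φ := by
  unfold commAd0
  rw [Submodule.mem_comap, mem_centTr]
  constructor
  · exact fun h => h.2
  · exact fun h => ⟨Ad0.trace_toEnd ρbar p x, h⟩

/-- `commAd0` is a line over `k` -/
theorem finrank_commAd0 (φ : Γ) {α β : k} (hαβ : α ≠ β)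
    (hchar : LinearMap.charpoly (ρbar.ρ φ) = (X - C α) * (X - C β)) :
    finrank k ↥(commAd0 ρbar p φ) = 1 := by
  rw [← finrank_centTr ρbar.finrank_eq (ρbar.ρ φ) hαβ hchar]
  -- `toEndₗ` restricts to an isomorphism `commAd0 ≃ centTr`
  have hmem : ∀ x : Ad0 ρbar p, x ∈ commAd0 ρbar p φ →
      Ad0.toEndₗ ρbar p x ∈ centTr (ρbar.ρ φ) := fun x hx => hx
  refine LinearEquiv.finrank_eq (LinearEquiv.ofBijective
    ((Ad0.toEndₗ ρbar p).restrict (p := commAd0 ρbar p φ) (q := centTr (ρbar.ρ φ)) hmem)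
    ⟨?_, ?_⟩)
  · intro x y hxy
    have h := congrArg Subtype.val hxy
    rw [LinearMap.coe_restrict_apply, LinearMap.coe_restrict_apply] at h
    exact Subtype.ext (Ad0.toEnd_injective ρbar p h)
  · rintro ⟨y, hy⟩
    refine ⟨⟨Ad0.mk ρbar p y hy.1, ?_⟩, Subtype.ext rfl⟩
    rw [mem_commAd0]
    exact hy.2

variable [Module.Finite (ZMod p) k]

/-- the invariants of a set `S ∋ φ` with `ρ̄(S) ⊆ ρ̄(φ)^ℕ` are the elements commuting with `ρ̄φ` -/
theorem mem_invariantsOf_iff_commute {S : Set Γ} {φ : Γ} (hφ : φ ∈ S)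
    (hS : ∀ s ∈ S, ∃ n : ℕ, ρbar.ρ s = ρbar.ρ φ ^ n) (x : Ad0 ρbar p) :
    x ∈ invariantsOf ρbar p S ↔
      ρbar.ρ φ * Ad0.toEnd ρbar p x = Ad0.toEnd ρbar p x * ρbar.ρ φ := by
  constructor
  · intro hx
    exact (ad0_ρ_eq_iff_commute ρbar p φ x).mp (hx φ hφ)
  · intro h s hs
    obtain ⟨n, hn⟩ := hS s hs
    rw [ad0_ρ_eq_iff_commute, hn]
    exact commute_pow_of_commute h n

/-- the invariants of a set `S ∋ φ` whose image commutes with `ρ̄φ` (regular split) are the
elements commuting with `ρ̄φ` -/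
theorem mem_invariantsOf_iff_commute' {S : Set Γ} {φ : Γ} (hφ : φ ∈ S)
    (hS : ∀ s ∈ S, ρbar.ρ φ * ρbar.ρ s = ρbar.ρ s * ρbar.ρ φ) {α β : k} (hαβ : α ≠ β)
    (hchar : LinearMap.charpoly (ρbar.ρ φ) = (X - C α) * (X - C β)) (x : Ad0 ρbar p) :
    x ∈ invariantsOf ρbar p S ↔
      ρbar.ρ φ * Ad0.toEnd ρbar p x = Ad0.toEnd ρbar p x * ρbar.ρ φ := by
  constructor
  · intro hx
    exact (ad0_ρ_eq_iff_commute ρbar p φ x).mp (hx φ hφ)
  · intro h s hs
    rw [ad0_ρ_eq_iff_commute]
    exact commute_of_commute_of_charpoly ρbar.finrank_eq (ρbar.ρ φ) hαβ hchar (hS s hs) h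

/-- `dim_{𝔽_p} (ad⁰ρ̄)^S = [k : 𝔽_p]` as soon as `(ad⁰ρ̄)^S` is the commutant of `ρ̄φ`, `ρ̄φ` with two
distinct eigenvalues in `k`. -/
theorem finrank_invariantsOf_of_mem_iff {S : Set Γ} {φ : Γ}
    (hcar : ∀ x : Ad0 ρbar p, x ∈ invariantsOf ρbar p S ↔
      ρbar.ρ φ * Ad0.toEnd ρbar p x = Ad0.toEnd ρbar p x * ρbar.ρ φ)
    {α β : k} (hαβ : α ≠ β)
    (hchar : LinearMap.charpoly (ρbar.ρ φ) = (X - C α) * (X - C β)) :
    finrank (ZMod p) ↥(invariantsOf ρbar p S) = finrank (ZMod p) k := by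
  have h1 : finrank (ZMod p) ↥(commAd0 ρbar p φ) = finrank (ZMod p) k := by
    rw [← Module.finrank_mul_finrank (ZMod p) k ↥(commAd0 ρbar p φ),
      finrank_commAd0 ρbar p φ hαβ hchar, mul_one]
  rw [← h1]
  have hcar' : ∀ x : Ad0 ρbar p, x ∈ invariantsOf ρbar p S ↔ x ∈ commAd0 ρbar p φ := fun x => by
    rw [hcar, mem_commAd0]
  refine LinearEquiv.finrank_eq
    { toFun := fun x => ⟨x.1, (hcar' x.1).mp x.2⟩
      map_add' := fun _ _ => rfl
      map_smul' := fun _ _ => rfl
      invFun := fun x => ⟨x.1, (hcar' x.1).mpr x.2⟩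
      left_inv := fun _ => rfl
      right_inv := fun _ => rfl }

/-- **`dim_{𝔽_p} (ad⁰ρ̄)^S = [k : 𝔽_p]`** for a set `S ∋ φ` acting through the powers of `ρ̄φ`, `ρ̄φ` with two
distinct eigenvalues in `k` (the frozen Taylor–Wiles clause). -/
theorem finrank_invariantsOf {S : Set Γ} {φ : Γ} (hφ : φ ∈ S)
    (hS : ∀ s ∈ S, ∃ n : ℕ, ρbar.ρ s = ρbar.ρ φ ^ n) {α β : k} (hαβ : α ≠ β)
    (hchar : LinearMap.charpoly (ρbar.ρ φ) = (X - C α) * (X - C β)) :
    finrank (ZMod p) ↥(invariantsOf ρbar p S) = finrank (ZMod p) k :=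
  finrank_invariantsOf_of_mem_iff ρbar p (mem_invariantsOf_iff_commute ρbar p hφ hS) hαβ hchar

/-- **`dim_{𝔽_p} (ad⁰ρ̄)^S = [k : 𝔽_p]`** for a set `S ∋ φ` whose image commutes with `ρ̄φ` (e.g. `S` with
abelian image), `ρ̄φ` with two distinct eigenvalues in `k`. -/
theorem finrank_invariantsOf_of_commute {S : Set Γ} {φ : Γ} (hφ : φ ∈ S)
    (hS : ∀ s ∈ S, ρbar.ρ φ * ρbar.ρ s = ρbar.ρ s * ρbar.ρ φ) {α β : k} (hαβ : α ≠ β)
    (hchar : LinearMap.charpoly (ρbar.ρ φ) = (X - C α) * (X - C β)) :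
    finrank (ZMod p) ↥(invariantsOf ρbar p S) = finrank (ZMod p) k :=
  finrank_invariantsOf_of_mem_iff ρbar p
    (mem_invariantsOf_iff_commute' ρbar p hφ hS hαβ hchar) hαβ hchar

/-- **`dim_{𝔽_p} (ad⁰ρ̄(1))^S = [k : 𝔽_p]`** for a set `S ∋ φ` acting through the powers of `ρ̄φ` and
trivially on `μ_p`, `ρ̄φ` with two distinct eigenvalues in `k`: the term `h⁰(G_q, M') = d` of a
Taylor–Wiles prime `q`. -/
theorem finrank_invariantsOf' (h2 : (2 : k) ≠ 0) {S : Set Γ} {φ : Γ} (hφ : φ ∈ S)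
    (hS : ∀ s ∈ S, ∃ n : ℕ, ρbar.ρ s = ρbar.ρ φ ^ n) (hχ : ∀ s ∈ S, cycloChar p s = 1)
    {α β : k} (hαβ : α ≠ β)
    (hchar : LinearMap.charpoly (ρbar.ρ φ) = (X - C α) * (X - C β)) :
    finrank (ZMod p) ↥(invariantsOf' ρbar p S) = finrank (ZMod p) k := by
  rw [finrank_invariants_eq ρbar p h2 S hχ, finrank_invariantsOf ρbar p hφ hS hαβ hchar]

/-- the same with `ρ̄(S)` commuting with `ρ̄φ` -/
theorem finrank_invariantsOf'_of_commute (h2 : (2 : k) ≠ 0) {S : Set Γ} {φ : Γ} (hφ : φ ∈ S)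
    (hS : ∀ s ∈ S, ρbar.ρ φ * ρbar.ρ s = ρbar.ρ s * ρbar.ρ φ) (hχ : ∀ s ∈ S, cycloChar p s = 1)
    {α β : k} (hαβ : α ≠ β)
    (hchar : LinearMap.charpoly (ρbar.ρ φ) = (X - C α) * (X - C β)) :
    finrank (ZMod p) ↥(invariantsOf' ρbar p S) = finrank (ZMod p) k := by
  rw [finrank_invariants_eq ρbar p h2 S hχ,
    finrank_invariantsOf_of_commute ρbar p hφ hS hαβ hchar]

end Ad

end Fermat.Agent.S56.Loc.TWPrimeCore
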