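/-
S56, block E-Q of the blueprint (`moonshots` row 50, D4) (helper27): **the local term at a
Taylor–Wiles prime.**

For a prime `q ≡ 1 (mod p)` at which `ρ̄` is unramified and whose Frobenius elements have two
distinct eigenvalues in `k` (the frozen Taylor–Wiles clause, verbatim):
`dim_{𝔽_p} H⁰(G_q, M') = dim_{𝔽_p} H⁰(G_q, M) = [k : 𝔽_p]` for `M = ad0 ρbar p`,
`M' = ad0' ρbar p`, with `H⁰(G_q, ·) = levelCohomology (localLevel (primeLocalToGlobal q))
(Rep.res (primeLocalToGlobal q) ·) 0` (the local term of `PT/Selmer.delta_formula'`).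

Inputs: helper19's `Loc/TWPrimeCore` (`finrank_invariantsOf`, `finrank_invariantsOf'`), my
`Places/Frob` (`isLocalFrob_gen`: `G_q/I_q` is generated by Frobenius), S55
`CF/LowDegree.levelH0Equiv` (`H⁰` = invariants), `LevelGlobal` (`cycloChar`).

* `exists_pow_eq_of_unramified` : a homomorphism out of `Γ` which is trivial on some `Gal(ℚ̄/F)` and
  on the inertia group at THE place of `q` maps the image of `G_q` into the powers of the image of
  Frobenius;
* `cycloChar_isLocalFrob`, `cycloChar_local_eq_one` : `χ̄` is trivial on `G_q` when `q ≡ 1 (p)`;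
* `rho_local_eq_pow` : `ρ̄(G_q) ⊆ ⟨ρ̄(Frob_q)⟩` when `ρ̄` is unramified at `q`;
* `finrank_invariantsOf_range`, `finrank_invariantsOf'_range`;
* `invariantsResEquiv`, `invariantsResEquiv'`, **`finrank_H0_ad0`, `finrank_H0_ad0'`**.
-/
import Mathlib
import Fermat.Agent.S56.Loc.TWPrimeCore
import Fermat.Agent.S56.Places.Frob
import Fermat.Agent.S55.CF.LowDegree
import Fermat.Agent.S55.LevelGlobal

set_option autoImplicit false
set_option linter.unusedSectionVars false
set_option linter.style.haveILetI false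

open Polynomial

namespace Fermat.Agent.S56.Loc.TWPrime

local notation "Qbar" => AlgebraicClosure ℚ
local notation "Γ" => (AlgebraicClosure ℚ ≃ₐ[ℚ] AlgebraicClosure ℚ)

open ExtCitation Module Fermat.Agent.S55.Level Fermat.Agent.S55 Fermat.Agent.S56.Ad
open Fermat.Agent.S56.Places.Dict Fermat.Agent.S56.Places.Frob Fermat.Agent.S56.Loc.TWPrimeCore

/-! ### `G_q / I_q` is generated by Frobenius: consequences for homomorphisms -/

section Generated

variable {q : Nat.Primes}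

/-- a homomorphism out of `Γ` which factors through a finite level and is trivial on the inertia
group of THE place of `q` sends `G_q` into the (non-negative) powers of the image of Frobenius -/
theorem exists_pow_eq_of_unramified {H : Type*} [Monoid H] (f : Γ →* H)
    (hopen : ∃ F : IntermediateField ℚ Qbar, FiniteDimensional ℚ F ∧ F.fixingSubgroup ≤ f.ker)
    (hur : ∀ σ ∈ (primeLocalPlace q).inertiaSubgroupIn ℚ, f σ = 1)
    {φ : primeLocalGaloisGroup q} (hφ : IsLocalFrob q φ) (g : primeLocalGaloisGroup q) :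
    ∃ j : ℕ, f (primeLocalToGlobal q g) = f (primeLocalToGlobal q φ) ^ j := by
  obtain ⟨F, hF, hFle⟩ := hopen
  have hU : f.ker.comap (primeLocalToGlobal q) ∈ (localLevel (primeLocalToGlobal q)).sets :=
    ⟨inferInstance, F, hF, Subgroup.comap_mono hFle⟩
  obtain ⟨j, hj⟩ := isLocalFrob_gen hφ _ hU g
  have hle : localInertia q ⊔ f.ker.comap (primeLocalToGlobal q) ≤
      f.ker.comap (primeLocalToGlobal q) :=
    sup_le (fun τ hτ => MonoidHom.mem_ker.2 (hur _ hτ)) le_rfl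
  have h1 : f (primeLocalToGlobal q ((φ ^ j)⁻¹ * g)) = 1 := MonoidHom.mem_ker.1 (hle hj)
  refine ⟨j, ?_⟩
  have e : g = φ ^ j * ((φ ^ j)⁻¹ * g) := by group
  conv_lhs => rw [e]
  rw [map_mul, map_mul, h1, mul_one, map_pow, map_pow]

end Generated

/-! ### the cyclotomic character on `G_q`, `q ≡ 1 (mod p)` -/

section Cyclo

variable {q : Nat.Primes} (p : ℕ) [hp : Fact p.Prime]

theorem ne_of_dvd_sub_one (hq1 : p ∣ (q : ℕ) - 1) : (q : ℕ) ≠ p := by
  intro h
  rw [h] at hq1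
  have h1 := Nat.le_of_dvd (by have := hp.out.two_le; omega) hq1
  have := hp.out.two_le
  omega

theorem coprime_of_dvd_sub_one (hq1 : p ∣ (q : ℕ) - 1) : Nat.Coprime p (q : ℕ) :=
  (Nat.coprime_primes hp.out q.2).2 (ne_of_dvd_sub_one p hq1).symm

/-- the mod-`p` cyclotomic character kills the Frobenius at `q ≡ 1 (mod p)` -/
theorem cycloChar_isLocalFrob (hq1 : p ∣ (q : ℕ) - 1) {φ : primeLocalGaloisGroup q}
    (hφ : IsLocalFrob q φ) : cycloChar p (primeLocalToGlobal q φ) = 1 := by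
  refine LevelGlobal.cycloChar_eq_one_of_fix p fun ζ hζ => ?_
  rw [IsFrobeniusAt.apply_root (primeLocalPlace q) (liesOverPrime_primeLocalPlace q)
    (coprime_of_dvd_sub_one p hq1) hφ hζ]
  obtain ⟨c, hc⟩ := hq1
  have hq : (q : ℕ) = p * c + 1 := by
    have := q.2.one_lt
    omega
  rw [hq, pow_succ, pow_mul, hζ, one_pow, one_mul]

/-- the mod-`p` cyclotomic character is trivial on the inertia group at `q ≠ p` -/
theorem cycloChar_inertia_eq_one (hqp : (q : ℕ) ≠ p) {σ : Γ}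
    (hσ : σ ∈ (primeLocalPlace q).inertiaSubgroupIn ℚ) : cycloChar p σ = 1 := by
  have hcop : Nat.Coprime p (q : ℕ) := (Nat.coprime_primes hp.out q.2).2 hqp.symm
  have h := LevelGlobal.inertia_le_ker_cycloChar (A := primeLocalPlace q) p
    (GL.KummerUnram.natCast_not_mem_nonunits_of_coprime _ (liesOverPrime_primeLocalPlace q) hcop)
  exact MonoidHom.mem_ker.1 (h hσ)

/-- **`χ̄` is trivial on `G_q` for `q ≡ 1 (mod p)`** -/
theorem cycloChar_local_eq_one (hq1 : p ∣ (q : ℕ) - 1) (g : primeLocalGaloisGroup q) :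
    cycloChar p (primeLocalToGlobal q g) = 1 := by
  obtain ⟨φ, hφ⟩ := exists_isLocalFrob q
  obtain ⟨j, hj⟩ := exists_pow_eq_of_unramified (cycloChar p)
    ⟨LevelGlobal.cycloField p, LevelGlobal.finiteDimensional_cycloField p,
      LevelGlobal.fixingSubgroup_cycloField_le_ker p⟩
    (fun σ hσ => cycloChar_inertia_eq_one p (ne_of_dvd_sub_one p hq1) hσ) hφ g
  rw [hj, cycloChar_isLocalFrob p hq1 hφ, one_pow]

end Cyclo

/-! ### `ρ̄` on `G_q` -/

section Rho

variable {k : Type} [Field k] (ρbar : ResidualGaloisRep k) {q : Nat.Primes}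

/-- `ρ̄(G_q)` consists of powers of `ρ̄(Frob_q)` when `ρ̄` is unramified at `q` -/
theorem rho_local_eq_pow (hur : ρbar.IsUnramifiedAt (q : ℕ)) {φ : primeLocalGaloisGroup q}
    (hφ : IsLocalFrob q φ) (g : primeLocalGaloisGroup q) :
    ∃ j : ℕ, ρbar.ρ (primeLocalToGlobal q g) = ρbar.ρ (primeLocalToGlobal q φ) ^ j := by
  refine exists_pow_eq_of_unramified ρbar.ρ ?_
    (fun σ hσ => hur _ (liesOverPrime_primeLocalPlace q) σ hσ) hφ g
  obtain ⟨L, hL, h⟩ := ρbar.factorsThroughFiniteLevel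
  exact ⟨L, hL, fun σ hσ => MonoidHom.mem_ker.2
    (h σ fun x hx => (IntermediateField.mem_fixingSubgroup_iff L σ).1 hσ x hx)⟩

variable (p : ℕ) [Fact p.Prime] [Algebra (ZMod p) k] [Module.Finite (ZMod p) k]

/-- **`dim (ad⁰ρ̄)^{G_q} = [k : 𝔽_p]`** at a Taylor–Wiles prime (invariants as a subspace of `M`) -/
theorem finrank_invariantsOf_range (hur : ρbar.IsUnramifiedAt (q : ℕ))
    (hfrob : ∀ P : ValuationSubring Qbar, P.LiesOverPrime (q : ℕ) → ∀ φ : Γ,
      P.IsFrobeniusAt φ (q : ℕ) → ∃ α β : k, α ≠ β ∧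
        LinearMap.charpoly (ρbar.ρ φ) = (X - C α) * (X - C β)) :
    finrank (ZMod p) ↥(invariantsOf ρbar p (Set.range (primeLocalToGlobal q))) =
      finrank (ZMod p) k := by
  obtain ⟨φ, hφ⟩ := exists_isLocalFrob q
  obtain ⟨α, β, hαβ, hchar⟩ := hfrob _ (liesOverPrime_primeLocalPlace q) _ hφ
  refine finrank_invariantsOf ρbar p (φ := primeLocalToGlobal q φ) ⟨φ, rfl⟩ ?_ hαβ hchar
  rintro s ⟨g, rfl⟩
  exact rho_local_eq_pow ρbar hur hφ g

/-- **`dim (ad⁰ρ̄(1))^{G_q} = [k : 𝔽_p]`** at a Taylor–Wiles prime (invariants as a subspace of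
`M'`) -/
theorem finrank_invariantsOf'_range (h2 : (2 : k) ≠ 0) (hq1 : p ∣ (q : ℕ) - 1)
    (hur : ρbar.IsUnramifiedAt (q : ℕ))
    (hfrob : ∀ P : ValuationSubring Qbar, P.LiesOverPrime (q : ℕ) → ∀ φ : Γ,
      P.IsFrobeniusAt φ (q : ℕ) → ∃ α β : k, α ≠ β ∧
        LinearMap.charpoly (ρbar.ρ φ) = (X - C α) * (X - C β)) :
    finrank (ZMod p) ↥(invariantsOf' ρbar p (Set.range (primeLocalToGlobal q))) =
      finrank (ZMod p) k := by
  obtain ⟨φ, hφ⟩ := exists_isLocalFrob q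
  obtain ⟨α, β, hαβ, hchar⟩ := hfrob _ (liesOverPrime_primeLocalPlace q) _ hφ
  refine finrank_invariantsOf' ρbar p h2 (φ := primeLocalToGlobal q φ) ⟨φ, rfl⟩ ?_ ?_ hαβ hchar
  · rintro s ⟨g, rfl⟩
    exact rho_local_eq_pow ρbar hur hφ g
  · rintro s ⟨g, rfl⟩
    exact cycloChar_local_eq_one p hq1 g

/-! ### `H⁰(G_q, ·)` = invariants -/

/-- the invariants of `Res_{G_q} M` are the `range (primeLocalToGlobal q)`-invariants of `M` -/
noncomputable def invariantsResEquiv :
    (Rep.res (primeLocalToGlobal q) (ad0 ρbar p)).ρ.invariants ≃ₗ[ZMod p]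
      invariantsOf ρbar p (Set.range (primeLocalToGlobal q)) where
  toFun x := ⟨x.1, by
    rintro s ⟨g, rfl⟩
    exact x.2 g⟩
  invFun x := ⟨x.1, fun g => x.2 _ ⟨g, rfl⟩⟩
  map_add' _ _ := rfl
  map_smul' _ _ := rfl
  left_inv _ := rfl
  right_inv _ := rfl

noncomputable def invariantsResEquiv' :
    (Rep.res (primeLocalToGlobal q) (ad0' ρbar p)).ρ.invariants ≃ₗ[ZMod p]
      invariantsOf' ρbar p (Set.range (primeLocalToGlobal q)) where
  toFun x := ⟨x.1, by
    rintro s ⟨g, rfl⟩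
    exact x.2 g⟩
  invFun x := ⟨x.1, fun g => x.2 _ ⟨g, rfl⟩⟩
  map_add' _ _ := rfl
  map_smul' _ _ := rfl
  left_inv _ := rfl
  right_inv _ := rfl

/-- **E-Q for `M`: `h⁰(G_q, ad⁰ρ̄) = [k : 𝔽_p]`** at a Taylor–Wiles prime -/
theorem finrank_H0_ad0
    [IsDiscrete (localLevel (primeLocalToGlobal q)) (Rep.res (primeLocalToGlobal q) (ad0 ρbar p))]
    (hur : ρbar.IsUnramifiedAt (q : ℕ))
    (hfrob : ∀ P : ValuationSubring Qbar, P.LiesOverPrime (q : ℕ) → ∀ φ : Γ,
      P.IsFrobeniusAt φ (q : ℕ) → ∃ α β : k, α ≠ β ∧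
        LinearMap.charpoly (ρbar.ρ φ) = (X - C α) * (X - C β)) :
    finrank (ZMod p) (levelCohomology (localLevel (primeLocalToGlobal q))
      (Rep.res (primeLocalToGlobal q) (ad0 ρbar p)) 0) = finrank (ZMod p) k := by
  rw [← (CF.levelH0Equiv (localLevel (primeLocalToGlobal q))
    (Rep.res (primeLocalToGlobal q) (ad0 ρbar p))).finrank_eq,
    (invariantsResEquiv ρbar p).finrank_eq]
  exact finrank_invariantsOf_range ρbar p hur hfrob

/-- **E-Q: `h⁰(G_q, (ad⁰ρ̄)^*(1)) = [k : 𝔽_p]`** at a Taylor–Wiles prime `q ≡ 1 (mod p)` — the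
local term `b_q = d` of the Greenberg–Wiles formula. -/
theorem finrank_H0_ad0'
    [IsDiscrete (localLevel (primeLocalToGlobal q)) (Rep.res (primeLocalToGlobal q) (ad0' ρbar p))]
    (h2 : (2 : k) ≠ 0) (hq1 : p ∣ (q : ℕ) - 1) (hur : ρbar.IsUnramifiedAt (q : ℕ))
    (hfrob : ∀ P : ValuationSubring Qbar, P.LiesOverPrime (q : ℕ) → ∀ φ : Γ,
      P.IsFrobeniusAt φ (q : ℕ) → ∃ α β : k, α ≠ β ∧
        LinearMap.charpoly (ρbar.ρ φ) = (X - C α) * (X - C β)) :
    finrank (ZMod p) (levelCohomology (localLevel (primeLocalToGlobal q))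
      (Rep.res (primeLocalToGlobal q) (ad0' ρbar p)) 0) = finrank (ZMod p) k := by
  rw [← (CF.levelH0Equiv (localLevel (primeLocalToGlobal q))
    (Rep.res (primeLocalToGlobal q) (ad0' ρbar p))).finrank_eq,
    (invariantsResEquiv' ρbar p).finrank_eq]
  exact finrank_invariantsOf'_range ρbar p h2 hq1 hur hfrob

end Rho

end Fermat.Agent.S56.Loc.TWPrime
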