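/-
S56 / LOC / MIN3 (+ the Mathlib-only core of MIN4).

A group of unipotent automorphisms of a plane over a field has a common nilpotent
direction: `ρ g = 1 + t g • N` with `N ≠ 0`, `N * N = 0` and `t` additive.
Trace-zero endomorphisms commuting with `N` are multiples of `N` (`2 ≠ 0`), and a
cocycle `c` whose associated first-order lift is again unipotent satisfies
`tr (c g * N) = 0` for all `g` as soon as `ρ ≠ 1`.
-/
import Mathlib

set_option autoImplicit false

namespace Fermat.Agent.S56.Loc.Unipotent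

open Polynomial Module

section Ring

variable {R : Type*} [CommRing R] {M : Type*} [AddCommGroup M] [Module R M]
  [Module.Free R M] [Module.Finite R M]

/-- Cayley–Hamilton for a unipotent endomorphism: `(f - 1)² = 0`. -/
theorem sub_one_mul_sub_one_eq_zero (f : Module.End R M)
    (hf : LinearMap.charpoly f = (X - 1) ^ 2) : (f - 1) * (f - 1) = 0 := by
  have h := LinearMap.aeval_self_charpoly f
  rw [hf] at h
  simpa [sq] using h

/-- The trace of a unipotent endomorphism of a free module of rank two is `2`. -/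
theorem trace_eq_two (f : Module.End R M)
    (hf : LinearMap.charpoly f = (X - 1) ^ 2) : LinearMap.trace R M f = 2 := by
  nontriviality R
  have h1 : LinearMap.trace R M f = -(LinearMap.charpoly f).nextCoeff := by
    rw [LinearMap.trace_eq_matrix_trace R (Module.Free.chooseBasis R M) f,
      Matrix.trace_eq_neg_charpoly_nextCoeff, LinearMap.charpoly_toMatrix]
  rw [h1, hf]
  have h2 : (X - 1 : R[X]) = X - C 1 := by simp
  rw [h2, Polynomial.Monic.nextCoeff_pow (monic_X_sub_C (1 : R)), nextCoeff_X_sub_C]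
  simp

/-- The determinant of a unipotent endomorphism of a free module of rank two is `1`. -/
theorem det_eq_one (hM : finrank R M = 2) (f : Module.End R M)
    (hf : LinearMap.charpoly f = (X - 1) ^ 2) : LinearMap.det f = 1 := by
  rw [LinearMap.det_eq_sign_charpoly_coeff, hM, hf]
  simp [sq, sub_mul, mul_sub]

end Ring

section Field

variable {k : Type*} [Field k] {V : Type*} [AddCommGroup V] [Module k V]

/-- A non-zero square-zero endomorphism `N` of a plane has an adapted basis
`N (b 0) = 0`, `N (b 1) = b 0`. -/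
theorem exists_basis_of_sq_zero (hV : finrank k V = 2) (N : Module.End k V) (hN : N ≠ 0)
    (hN2 : N * N = 0) : ∃ b : Basis (Fin 2) k V, N (b 0) = 0 ∧ N (b 1) = b 0 := by
  obtain ⟨e, he⟩ : ∃ e, N e ≠ 0 := by
    by_contra h
    exact hN (LinearMap.ext fun x => by simpa using not_not.mp (not_exists.mp h x))
  have hNN : ∀ x, N (N x) = 0 := fun x => by
    have := LinearMap.congr_fun hN2 x
    simpa using this
  have hli : LinearIndependent k ![N e, e] := by
    rw [LinearIndependent.pair_iff]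
    intro s t hst
    have h1 : t • N e = 0 := by
      have := congrArg N hst
      simpa [map_add, map_smul, hNN] using this
    have ht : t = 0 := by
      rcases smul_eq_zero.mp h1 with h | h
      · exact h
      · exact absurd h he
    subst ht
    have hs : s • N e = 0 := by simpa using hst
    rcases smul_eq_zero.mp hs with h | h
    · exact ⟨h, rfl⟩
    · exact absurd h he
  have hcard : Fintype.card (Fin 2) = finrank k V := by simp [hV]
  refine ⟨basisOfLinearIndependentOfCardEqFinrank hli hcard, ?_, ?_⟩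
  · simp [hNN]
  · simp

/-- The matrix of `N` in an adapted basis. -/
theorem toMatrix_of_adapted (b : Basis (Fin 2) k V) (N : Module.End k V) (h0 : N (b 0) = 0)
    (h1 : N (b 1) = b 0) : LinearMap.toMatrix b b N = !![0, 1; 0, 0] := by
  ext i j
  rw [LinearMap.toMatrix_apply]
  fin_cases i <;> fin_cases j <;> simp [h0, h1]

/-- An endomorphism is determined by its matrix in the adapted basis. -/
theorem eq_smul_of_toMatrix (b : Basis (Fin 2) k V) (N x : Module.End k V) (h0 : N (b 0) = 0)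
    (h1 : N (b 1) = b 0) (a : k) (hx : LinearMap.toMatrix b b x = !![0, a; 0, 0]) :
    x = a • N := by
  apply (LinearMap.toMatrix b b).injective
  rw [hx, map_smul, toMatrix_of_adapted b N h0 h1]
  ext i j
  fin_cases i <;> fin_cases j <;> simp

/-- Two square-zero endomorphisms of a plane with `tr (N₁ N₂) = 0` are proportional. -/
theorem exists_eq_smul_of_trace_mul_eq_zero (hV : finrank k V = 2) (N₁ N₂ : Module.End k V)
    (hne : N₁ ≠ 0) (h1 : N₁ * N₁ = 0) (h2 : N₂ * N₂ = 0)
    (htr : LinearMap.trace k V (N₁ * N₂) = 0) : ∃ a : k, N₂ = a • N₁ := by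
  obtain ⟨b, hb0, hb1⟩ := exists_basis_of_sq_zero hV N₁ hne h1
  have hN1 := toMatrix_of_adapted b N₁ hb0 hb1
  set A := LinearMap.toMatrix b b N₂ with hA
  have hA2 : A * A = 0 := by
    rw [hA, ← LinearMap.toMatrix_mul, h2, map_zero]
  have htr' : (!![0, 1; 0, 0] * A).trace = 0 := by
    rw [← hN1, hA, ← LinearMap.toMatrix_mul, ← LinearMap.trace_eq_matrix_trace k b, htr]
  obtain ⟨a, b', c, d, hA'⟩ : ∃ a b' c d, A = !![a, b'; c, d] :=
    ⟨_, _, _, _, Matrix.eta_fin_two A⟩
  rw [hA'] at hA2 htr'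
  rw [Matrix.mul_fin_two, Matrix.trace_fin_two] at htr'
  simp only [Matrix.of_apply, Matrix.cons_val', Matrix.cons_val_zero, Matrix.cons_val_one,
    Matrix.cons_val_fin_one, zero_mul, one_mul, zero_add, add_zero] at htr'
  subst htr'
  rw [Matrix.mul_fin_two] at hA2
  have e00 := congrFun (congrFun hA2 0) 0
  have e11 := congrFun (congrFun hA2 1) 1
  simp only [Matrix.of_apply, Matrix.cons_val', Matrix.cons_val_zero, Matrix.cons_val_one,
    Matrix.cons_val_fin_one, Matrix.zero_apply, mul_zero, zero_mul, add_zero, zero_add]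
    at e00 e11
  have a00 : a = 0 := by simpa using e00
  have a11 : d = 0 := by simpa using e11
  subst a00 a11
  exact ⟨b', eq_smul_of_toMatrix b N₁ N₂ hb0 hb1 _ (hA ▸ hA')⟩

/-- A plane carries a non-zero square-zero endomorphism. -/
theorem exists_sq_zero_ne_zero (hV : finrank k V = 2) :
    ∃ N : Module.End k V, N ≠ 0 ∧ N * N = 0 := by
  have : Module.Finite k V := Module.finite_of_finrank_eq_succ hV
  let b : Basis (Fin 2) k V := Module.finBasisOfFinrankEq k V hV
  refine ⟨Matrix.toLin b b !![0, 1; 0, 0], ?_, ?_⟩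
  · intro h
    have h' : (!![0, 1; 0, 0] : Matrix (Fin 2) (Fin 2) k) = 0 :=
      (Matrix.toLin b b).injective (by rw [h, map_zero])
    have := congrFun (congrFun h' 0) 1
    simp at this
  · rw [Module.End.mul_eq_comp, ← Matrix.toLin_mul b b b]
    have : (!![0, 1; 0, 0] : Matrix (Fin 2) (Fin 2) k) * !![0, 1; 0, 0] = 0 := by
      rw [Matrix.mul_fin_two]
      ext i j
      fin_cases i <;> fin_cases j <;> simp
    rw [this, map_zero]

/-- Trace-zero endomorphisms of a plane commuting with a non-zero square-zero `N` are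
multiples of `N` (characteristic `≠ 2`). -/
theorem exists_eq_smul_of_commute (hV : finrank k V = 2) (h2 : (2 : k) ≠ 0)
    (N : Module.End k V) (hN : N ≠ 0) (hN2 : N * N = 0) (x : Module.End k V)
    (htr : LinearMap.trace k V x = 0) (hx : N * x = x * N) : ∃ a : k, x = a • N := by
  obtain ⟨b, hb0, hb1⟩ := exists_basis_of_sq_zero hV N hN hN2
  have hN1 := toMatrix_of_adapted b N hb0 hb1
  set A := LinearMap.toMatrix b b x with hA
  have hcomm : !![0, 1; 0, 0] * A = A * !![0, 1; 0, 0] := by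
    rw [← hN1, hA, ← LinearMap.toMatrix_mul, ← LinearMap.toMatrix_mul, hx]
  have htr' : A.trace = 0 := by
    rw [hA, ← LinearMap.trace_eq_matrix_trace k b, htr]
  obtain ⟨a, b', c, d, hA'⟩ : ∃ a b' c d, A = !![a, b'; c, d] :=
    ⟨_, _, _, _, Matrix.eta_fin_two A⟩
  rw [hA'] at hcomm htr'
  rw [Matrix.mul_fin_two, Matrix.mul_fin_two] at hcomm
  rw [Matrix.trace_fin_two] at htr'
  have e00 := congrFun (congrFun hcomm 0) 0
  have e01 := congrFun (congrFun hcomm 0) 1
  simp only [Matrix.of_apply, Matrix.cons_val', Matrix.cons_val_zero, Matrix.cons_val_one,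
    Matrix.cons_val_fin_one, mul_zero, zero_mul, mul_one, one_mul, add_zero, zero_add]
    at e00 e01 htr'
  have ha : a = 0 := by
    have : (2 : k) * a = 0 := by rw [two_mul]; rw [e01] at htr'; exact htr'
    exact (mul_eq_zero.mp this).resolve_left h2
  have hd : d = 0 := by rw [e01, ha]
  rw [ha, hd, e00] at hA'
  exact ⟨b', eq_smul_of_toMatrix b N x hb0 hb1 _ (hA ▸ hA')⟩

/-- Conjugation by an automorphism commuting with `N` does not change `x ↦ tr (x N)`. -/
theorem trace_conj_mul (N u u' x : Module.End k V) (huu : u' * u = 1) (hc : u * N = N * u) :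
    LinearMap.trace k V (u * x * u' * N) = LinearMap.trace k V (x * N) := by
  have h1 : u * x * u' * N = u * (x * u' * N) := by simp only [mul_assoc]
  rw [h1, LinearMap.trace_mul_comm]
  have h2 : x * u' * N * u = x * (u' * (N * u)) := by simp only [mul_assoc]
  rw [h2, ← hc, ← mul_assoc u', huu, one_mul]

end Field

section Group

variable {k : Type*} [Field k] {V : Type*} [AddCommGroup V] [Module k V]
  {G : Type*} [Group G]

/-- **MIN3.** A group acting on a plane by unipotent automorphisms has a common nilpotent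
direction: `ρ g = 1 + t g • N`, `N ≠ 0`, `N² = 0`, `t` additive. -/
theorem exists_nilpotent_direction [Module.Finite k V] (hV : finrank k V = 2)
    (ρ : G →* Module.End k V)
    (hu : ∀ g, LinearMap.charpoly (ρ g) = (X - 1) ^ 2) :
    ∃ (N : Module.End k V) (t : G → k), N ≠ 0 ∧ N * N = 0 ∧ (∀ g, ρ g = 1 + t g • N) ∧
      ∀ g h, t (g * h) = t g + t h := by
  have hn2 : ∀ g, (ρ g - 1) * (ρ g - 1) = 0 := fun g => sub_one_mul_sub_one_eq_zero _ (hu g)
  have htrn : ∀ g, LinearMap.trace k V (ρ g - 1) = 0 := fun g => by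
    rw [map_sub, trace_eq_two _ (hu g), LinearMap.trace_one, hV]; norm_num
  by_cases h : ∀ g, ρ g - 1 = 0
  · obtain ⟨N, hN, hN2⟩ := exists_sq_zero_ne_zero (k := k) (V := V) hV
    refine ⟨N, fun _ => 0, hN, hN2, fun g => ?_, fun _ _ => by simp⟩
    rw [zero_smul, add_zero]
    exact sub_eq_zero.mp (h g)
  · obtain ⟨g₀, hg₀⟩ := not_forall.mp h
    have key : ∀ g, ∃ a : k, ρ g - 1 = a • (ρ g₀ - 1) := fun g => by
      refine exists_eq_smul_of_trace_mul_eq_zero hV _ _ hg₀ (hn2 g₀) (hn2 g) ?_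
      have : (ρ g₀ - 1) * (ρ g - 1) = (ρ (g₀ * g) - 1) - (ρ g₀ - 1) - (ρ g - 1) := by
        rw [map_mul]; noncomm_ring
      rw [this, map_sub, map_sub, htrn, htrn, htrn]; simp
    choose t ht using key
    refine ⟨ρ g₀ - 1, t, hg₀, hn2 g₀, fun g => ?_, fun g h => ?_⟩
    · rw [← ht g]; abel
    · apply smul_left_injective k hg₀
      show t (g * h) • (ρ g₀ - 1) = (t g + t h) • (ρ g₀ - 1)
      rw [← ht (g * h), add_smul, ← ht g, ← ht h]
      have : ρ (g * h) - 1 = (ρ g - 1) + (ρ h - 1) + (ρ g - 1) * (ρ h - 1) := by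
        rw [map_mul]; noncomm_ring
      rw [this, ht g, ht h, smul_mul_smul_comm, hn2 g₀, smul_zero, add_zero]

variable (ρ : G →* Module.End k V) (N : Module.End k V) (t : G → k)

/-- `ρ` is non-trivial iff `t` is. -/
theorem exists_ne_one_iff (hN : N ≠ 0) (hρ : ∀ g, ρ g = 1 + t g • N) :
    (∃ g, ρ g ≠ 1) ↔ ∃ g, t g ≠ 0 := by
  refine exists_congr fun g => ?_
  rw [hρ g, ne_eq, add_eq_left, smul_eq_zero, not_or]
  exact ⟨fun h => h.1, fun h => ⟨h, hN⟩⟩

/-- `ρ g` commutes with `N`. -/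
theorem commute_of_eq (hρ : ∀ g, ρ g = 1 + t g • N) (g : G) : ρ g * N = N * ρ g := by
  rw [hρ g, add_mul, mul_add, one_mul, mul_one, smul_mul_assoc, mul_smul_comm]

/-- The inertia group acts trivially on `M / W^⊥`, `W = k·N`: the functional `x ↦ tr (x N)`
is invariant under conjugation by `ρ g`. -/
theorem trace_conj_mul_eq (hρ : ∀ g, ρ g = 1 + t g • N) (g : G) (x : Module.End k V) :
    LinearMap.trace k V (ρ g * x * ρ g⁻¹ * N) = LinearMap.trace k V (x * N) :=
  trace_conj_mul N (ρ g) (ρ g⁻¹) x (by rw [← map_mul, inv_mul_cancel, map_one])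
    (commute_of_eq ρ N t hρ g)

/-- The invariants of the inertia group in the trace-zero endomorphisms: if `ρ ≠ 1` then a
trace-zero `x` commuting with all `ρ g` is a multiple of `N` (`W = M^{I} = k·N`). -/
theorem exists_eq_smul_of_forall_commute (hV : finrank k V = 2) (h2 : (2 : k) ≠ 0)
    (hN : N ≠ 0) (hN2 : N * N = 0) (hρ : ∀ g, ρ g = 1 + t g • N) (hne : ∃ g, t g ≠ 0)
    (x : Module.End k V) (htr : LinearMap.trace k V x = 0)
    (hx : ∀ g, ρ g * x = x * ρ g) : ∃ a : k, x = a • N := by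
  obtain ⟨g, hg⟩ := hne
  refine exists_eq_smul_of_commute hV h2 N hN hN2 x htr ?_
  have h := hx g
  rw [hρ g, add_mul, mul_add, one_mul, mul_one, add_right_inj, smul_mul_assoc,
    mul_smul_comm] at h
  exact smul_right_injective _ hg h

/-- **Core of MIN4.** Let `c` be a cocycle with values in the trace-zero endomorphisms whose
first-order lift `(1 + ε c) ρ` is again unipotent (`tr (c g * ρ g) = 0`). If `ρ ≠ 1` then
`tr (c g * N) = 0` for every `g`. -/
theorem trace_cocycle_mul_eq_zero (hρ : ∀ g, ρ g = 1 + t g • N)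
    (ht : ∀ g h, t (g * h) = t g + t h) (hne : ∃ g, t g ≠ 0)
    (c : G → Module.End k V) (hc : ∀ g h, c (g * h) = c g + ρ g * c h * ρ g⁻¹)
    (htr : ∀ g, LinearMap.trace k V (c g) = 0)
    (hu : ∀ g, LinearMap.trace k V (c g * ρ g) = 0) (g : G) :
    LinearMap.trace k V (c g * N) = 0 := by
  have hadd : ∀ g h, LinearMap.trace k V (c (g * h) * N) =
      LinearMap.trace k V (c g * N) + LinearMap.trace k V (c h * N) := fun g h => by
    rw [hc, add_mul, map_add, trace_conj_mul_eq ρ N t hρ]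
  have hprod : ∀ g, t g * LinearMap.trace k V (c g * N) = 0 := fun g => by
    have := hu g
    rw [hρ g, mul_add, mul_one, map_add, htr, zero_add, mul_smul_comm, map_smul,
      smul_eq_mul] at this
    exact this
  obtain ⟨g₀, hg₀⟩ := hne
  by_contra hg
  have h0 : LinearMap.trace k V (c g₀ * N) = 0 := (mul_eq_zero.mp (hprod g₀)).resolve_left hg₀
  have h1 : t g = 0 := (mul_eq_zero.mp (hprod g)).resolve_right hg
  have := hprod (g₀ * g)
  rw [ht, hadd, h0, h1, add_zero, zero_add] at this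
  exact (mul_eq_zero.mp this).elim hg₀ hg

/-- An automorphism normalising the unipotent group scales the nilpotent direction:
if `u (1 + a N) u⁻¹ = 1 + b N` with `a ≠ 0` then `u N u⁻¹ = (b / a) N`. -/
theorem conj_eq_smul (u u' : Module.End k V) (huu : u * u' = 1) (a b : k) (ha : a ≠ 0)
    (h : u * (1 + a • N) * u' = 1 + b • N) : u * N * u' = (b / a) • N := by
  rw [mul_add, add_mul, mul_one, huu, add_right_inj, mul_smul_comm, smul_mul_assoc] at h
  rw [div_eq_inv_mul, mul_smul, ← h, smul_smul, inv_mul_cancel₀ ha, one_smul]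

end Group

/-! ### Subgroup versions (`H` = an inertia subgroup of the Galois group `G`) -/

section Subgroup

variable {k : Type*} [Field k] {V : Type*} [AddCommGroup V] [Module k V]
  {G : Type*} [Group G]

open Classical in
/-- **MIN3**, subgroup form: if `ρ` is unipotent on `H` then `ρ h = 1 + t h • N` on `H`. -/
theorem exists_nilpotent_direction_subgroup [Module.Finite k V] (hV : finrank k V = 2)
    (ρ : G →* Module.End k V) (H : Subgroup G)
    (hu : ∀ g ∈ H, LinearMap.charpoly (ρ g) = (X - 1) ^ 2) :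
    ∃ (N : Module.End k V) (t : G → k), N ≠ 0 ∧ N * N = 0 ∧ (∀ g ∈ H, ρ g = 1 + t g • N) ∧
      ∀ g ∈ H, ∀ h ∈ H, t (g * h) = t g + t h := by
  obtain ⟨N, t', hN, hN2, hρ, ht⟩ :=
    exists_nilpotent_direction hV (ρ.comp H.subtype) (fun g => hu g.1 g.2)
  refine ⟨N, fun g => if h : g ∈ H then t' ⟨g, h⟩ else 0, hN, hN2, fun g hg => ?_,
    fun g hg h hh => ?_⟩
  · beta_reduce
    rw [dif_pos hg]; exact hρ ⟨g, hg⟩
  · beta_reduce
    rw [dif_pos hg, dif_pos hh, dif_pos (H.mul_mem hg hh)]
    exact ht ⟨g, hg⟩ ⟨h, hh⟩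

variable (ρ : G →* Module.End k V) (N : Module.End k V) (t : G → k) (H : Subgroup G)

/-- `W = M^{H} = k·N` (subgroup form). -/
theorem exists_eq_smul_of_forall_mem_commute (hV : finrank k V = 2) (h2 : (2 : k) ≠ 0)
    (hN : N ≠ 0) (hN2 : N * N = 0) (hρ : ∀ g ∈ H, ρ g = 1 + t g • N)
    (hne : ∃ g ∈ H, t g ≠ 0) (x : Module.End k V) (htr : LinearMap.trace k V x = 0)
    (hx : ∀ g ∈ H, ρ g * x = x * ρ g) : ∃ a : k, x = a • N := by
  obtain ⟨g, hg, hg0⟩ := hne
  exact exists_eq_smul_of_forall_commute (ρ.comp H.subtype) N (fun g => t g.1) hV h2 hN hN2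
    (fun g => hρ g.1 g.2) ⟨⟨g, hg⟩, hg0⟩ x htr (fun g => hx g.1 g.2)

/-- `H` acts trivially on `M / W^⊥` (subgroup form). -/
theorem trace_conj_mul_eq_of_mem (hρ : ∀ g ∈ H, ρ g = 1 + t g • N) (g : G) (hg : g ∈ H)
    (x : Module.End k V) :
    LinearMap.trace k V (ρ g * x * ρ g⁻¹ * N) = LinearMap.trace k V (x * N) :=
  trace_conj_mul_eq (ρ.comp H.subtype) N (fun g => t g.1) (fun g => hρ g.1 g.2) ⟨g, hg⟩ x

/-- **Core of MIN4**, subgroup form: `c` a cocycle on `G` (only its restriction to `H`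
matters), trace-zero valued, with `tr (c g * ρ g) = 0` on `H`; if `ρ|H ≠ 1` then
`tr (c g * N) = 0` for all `g ∈ H`. -/
theorem trace_cocycle_mul_eq_zero_of_mem (hρ : ∀ g ∈ H, ρ g = 1 + t g • N)
    (ht : ∀ g ∈ H, ∀ h ∈ H, t (g * h) = t g + t h) (hne : ∃ g ∈ H, t g ≠ 0)
    (c : G → Module.End k V)
    (hc : ∀ g ∈ H, ∀ h ∈ H, c (g * h) = c g + ρ g * c h * ρ g⁻¹)
    (htr : ∀ g ∈ H, LinearMap.trace k V (c g) = 0)
    (hu : ∀ g ∈ H, LinearMap.trace k V (c g * ρ g) = 0) (g : G) (hg : g ∈ H) :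
    LinearMap.trace k V (c g * N) = 0 := by
  obtain ⟨g₀, hg₀, hg₀0⟩ := hne
  exact trace_cocycle_mul_eq_zero (ρ.comp H.subtype) N (fun g => t g.1) (fun g => hρ g.1 g.2)
    (fun g h => ht g.1 g.2 h.1 h.2) ⟨⟨g₀, hg₀⟩, hg₀0⟩ (fun g => c g.1)
    (fun g h => hc g.1 g.2 h.1 h.2) (fun g => htr g.1 g.2) (fun g => hu g.1 g.2) ⟨g, hg⟩

/-- An element of `G` normalising `H` (e.g. an element of the decomposition group) scales
the nilpotent direction of `ρ|H ≠ 1`. -/
theorem exists_conj_eq_smul (hρ : ∀ g ∈ H, ρ g = 1 + t g • N) (hne : ∃ g ∈ H, t g ≠ 0)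
    (g : G) (hg : ∀ h ∈ H, g * h * g⁻¹ ∈ H) : ∃ a : k, ρ g * N * ρ g⁻¹ = a • N := by
  obtain ⟨h, hh, hh0⟩ := hne
  refine ⟨t (g * h * g⁻¹) / t h, conj_eq_smul N (ρ g) (ρ g⁻¹) ?_ (t h) _ hh0 ?_⟩
  · rw [← map_mul, mul_inv_cancel, map_one]
  · rw [← hρ h hh, ← hρ _ (hg h hh), map_mul, map_mul]

end Subgroup

end Fermat.Agent.S56.Loc.Unipotent
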