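/-
S56 / block (E), leaf E-MIN (helper16; recipe of helper10, board #2519): **the minimally ramified
local condition at a prime `v ≠ p` where `ρ̄` is ramified with unipotent inertia**.

* generic (`(G, 𝒰)` arbitrary), generalising `Unram.pairH_eq_zero_of_mem_H1ur`:
  `pairH_eq_zero_of_perp` — the cup product of the class of a level cocycle `za` with an
  unramified class vanishes as soon as the values of `za` ON `I` are orthogonal to the
  `I`-invariants of the second coefficient module (no hypothesis on the action of `I`);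
* generic in the local data `D` and the module `M`: `minCondAt D χ M v I` (the trace-free left
  cup-annihilator of `H1urAt D M' v I`), `mem_minCondAt`, `H1urAt_le_minCondAt`,
  `levelH1π_mem_minCondAt` (cocycle criterion), `tatePairing_bijective` (perfectness of the local
  Tate pairing at each place, from `LocalHyp`), `minCondAt_eq_annL`, **`perp_eq_H1urAt`** (the
  orthogonal of the minimal condition is the unramified condition of `M'`),
  **`finrank_minCondAt_add`** (`dim L_v + h⁰(G_v, M') = h¹(G_v, M)`), `finrank_minCondAt_eq`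
  (`dim L_v = h⁰(G_v, M)` given the local Euler characteristic formula);
* for `M = ad⁰ρ̄`: `apply_eq_zero_of_fixed` (the inertia invariants of `M'` kill the hyperplane
  `tr (x N̄) = 0`), **`levelH1π_mem_minCondAt_ad0`** (E3 for any local data over `Gal(ℚ̄/ℚ)`);
* arithmetic: `minCond ρbar p S v`, `cycloChar_localInertia`, `exists_ne_one_of_not_isUnramifiedAt`,
  `levelH1π_mem_minCond`, **`res_mem_minCond`** (E3, global cocycle), `H1urLoc_le_minCond`,
  `perp_minCond`, `finrank_minCond_add`, `finrank_minCond_eq`;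
* bridge to lifts over `k[ε]` (helper2's `Tan/Cocycle`): `charpoly_residual_of_charpoly`,
  `trace_cocycle_mul_rho_of_charpoly`, **`hunip_htr_of_isUnipotentOnInertiaAt`**.
-/
import Fermat.Agent.S56.PT.UnramTate
import Fermat.Agent.S56.PT.UnramLocal
import Fermat.Agent.S56.PT.Inflation
import Fermat.Agent.S56.PT.LocalDuality
import Fermat.Agent.S56.PT.PerpFree
import Fermat.Agent.S56.Loc.Unipotent
import Fermat.Agent.S56.Ad.Ad0More
import Fermat.Agent.S56.Tan.Cocycle
import Fermat.Agent.S56.Places.Dict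

set_option autoImplicit false
set_option linter.unusedSectionVars false

namespace Fermat.Agent.S56.Loc.Minimal

open CategoryTheory groupCohomology Rep Module Fermat.Agent.S55.Level Fermat.Agent.S55.Cone
  Fermat.Agent.S55.DualTwist Fermat.Agent.S55.Main Fermat.Agent.S55.LevelDuality
  Fermat.Agent.S55.CochainTools Fermat.Agent.S56.PT.SelmerLinAlg Fermat.Agent.S56.PT.Selmer
  Fermat.Agent.S56.PT.Unram Fermat.Agent.S56.PT.UnramTate Fermat.Agent.S56.PT.LocalDuality
  Fermat.Agent.S56.PT.PerpFree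

universe u

/-! ### A generalisation of (U2): cocycles whose values on `I` kill the `I`-invariants -/

section Perp

variable {k G : Type u} [CommRing k] [Group G] {𝒰 : LevelStructure G} {I : Subgroup G} {φ : G}
  {A B C : Rep.{u} k G} (ψ : A →ₗ[k] B →ₗ[k] C)
  (hψ : ∀ (g : G) (a : A) (b : B), ψ (A.ρ g a) (B.ρ g b) = C.ρ g (ψ a b))
  [IsDiscrete 𝒰 A] [IsDiscrete 𝒰 B] [IsDiscrete 𝒰 C]

include hψ in
theorem exists_isLevel₁_d₁₂_eq_cup₁₁_of_perp (hd : UnramData 𝒰 I φ) {N : ℕ} (hN : 0 < N)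
    (hNk : (N : k) = 0) (za : levelCocycles₁ 𝒰 A)
    (hza : ∀ τ ∈ I, ∀ y : B, (∀ σ ∈ I, B.ρ σ y = y) → ψ (za.1 τ) y = 0)
    (zb : levelCocycles₁ 𝒰 B) (hzb : ∀ τ ∈ I, zb.1 τ = 0) :
    ∃ f : G → C, IsLevel₁ 𝒰 f ∧ (d₁₂ C).hom f = cup₁₁ ψ za.1 zb.1 := by
  obtain ⟨U₁, hU₁, h1⟩ := (mem_levelCochains₁_iff 𝒰 A za.1).1 za.2.2
  obtain ⟨U, hU, hle, h2⟩ := exists_le_zeroSubgroup zb hzb hU₁
  have hn : (I ⊔ U).Normal := hd.sup_normal hU
  have hIn : I.Normal := hd.normal
  have hca := (mem_cocycles₁_iff za.1).1 za.2.1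
  -- the key vanishing
  have key : ∀ v ∈ I ⊔ U, ∀ y : B, (∀ σ ∈ I, B.ρ σ y = y) → ψ (za.1 v) y = 0 := by
    intro v hv y hy
    have hv' : v ∈ ((I ⊔ U : Subgroup G) : Set G) := hv
    rw [Subgroup.normal_mul] at hv'
    obtain ⟨i, hi, u, hu, rfl⟩ := hv'
    rw [h1 i u (hle hu)]
    exact hza i hi y hy
  -- the values of `zb` are fixed by `I`
  have hfixb : ∀ h : G, ∀ σ ∈ I, B.ρ σ (zb.1 h) = zb.1 h := fun h σ hσ =>
    cocycle_fixed zb.2.1 h2 h (le_sup_left (b := U) hσ)
  have hfixb' : ∀ g h : G, ∀ σ ∈ I ⊔ U, B.ρ σ (B.ρ g (zb.1 h)) = B.ρ g (zb.1 h) := by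
    intro g h σ hσ
    rw [← Module.End.mul_apply, ← map_mul]
    have h3 : σ * g = g * (g⁻¹ * σ * g⁻¹⁻¹) := by group
    rw [h3, map_mul, Module.End.mul_apply, cocycle_fixed zb.2.1 h2 h (hn.conj_mem σ hσ g⁻¹)]
  refine exists_isLevel₁_d₁₂_eq hd hN hNk C (cup₁₁_mem_cocycles₂ ψ hψ za.2.1 zb.2.1) hU ?_ ?_
  · intro g h v hv w hw
    rw [cup₁₁_apply, cup₁₁_apply, cocycle_mul_right zb.2.1 h2 h hw, map_mul,
      Module.End.mul_apply, cocycle_fixed zb.2.1 h2 h hv, hca g v, map_add, LinearMap.add_apply,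
      hψ, key v hv _ (hfixb h), map_zero, zero_add]
  · intro g h v hv
    rw [cup₁₁_apply, ← hψ, hfixb' g h v hv]
    have h4 : A.ρ v (za.1 g) = za.1 (v * g) - za.1 v := by rw [hca v g]; abel
    have h3 : v * g = g * (g⁻¹ * v * g⁻¹⁻¹) := by group
    rw [h4, h3, hca g, map_sub, map_add, LinearMap.sub_apply, LinearMap.add_apply, hψ,
      key _ (hn.conj_mem v hv g⁻¹) _ (hfixb h), map_zero, zero_add,
      key v hv _ (fun σ hσ => hfixb' g h σ (le_sup_left (b := U) hσ)), sub_zero]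

/-- **Generalised (U2)**: the cup product of the class of `za` with an unramified class vanishes
as soon as the values of `za` on `I` are orthogonal to the `I`-invariants of `B`. -/
theorem pairH_eq_zero_of_perp (hd : UnramData 𝒰 I φ) {N : ℕ} (hN : 0 < N)
    (hNk : (N : k) = 0) (za : levelCocycles₁ 𝒰 A)
    (hza : ∀ τ ∈ I, ∀ y : B, (∀ σ ∈ I, B.ρ σ y = y) → ψ (za.1 τ) y = 0)
    {b : levelCohomology 𝒰 B 1} (hb : b ∈ H1ur 𝒰 I B) :
    (levelPairing 𝒰 ψ hψ).pairH 1 1 2 rfl (levelH1π 𝒰 A za) b = 0 := by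
  obtain ⟨zb, hzb, rfl⟩ := hb
  obtain ⟨f, hf, hdf⟩ := exists_isLevel₁_d₁₂_eq_cup₁₁_of_perp ψ hψ hd hN hNk za hza zb hzb
  rw [levelH1π_eq_cls, levelH1π_eq_cls, CochainPairing.pairH_cls, cls_eq_zero_iff]
  refine mem_B_of_d_eq (levelComplex 𝒰 C) (rfl : 1 + 1 = 2)
    (show (levelComplex 𝒰 C).X 1 from
      (⟨(cochainsIso₁ C).inv.hom f, (mem_levelCochains₁_iff 𝒰 C f).2 hf⟩ : levelCochains 𝒰 C 1))
    _ ?_
  apply Subtype.ext
  refine (coe_levelComplex_d 𝒰 C 1 _).trans ?_
  show (inhomogeneousCochains.d C 1).hom ((cochainsIso₁ C).inv.hom f) = _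
  rw [d_cochainsIso₁_inv, hdf, ← cup_cochainsIso₁_inv]
  rfl

end Perp

/-! ### The minimal condition for general local data -/

section Cond

variable {k G : Type u} [Field k] [Group G] {𝒰 : LevelStructure G}
  (D : LocalData 𝒰) (χ : G →* kˣ) [IsDiscrete 𝒰 (ofChar χ)]
  (M : Rep.{u} k G) [IsDiscrete 𝒰 M] [IsDiscrete 𝒰 (M.dualTwist χ)]

/-- **The minimally ramified local condition** at `v`, relative to a subgroup `I` ("inertia") of
the local group: the classes in `H¹(G_v, M)` whose cup product with every unramified class of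
`H¹(G_v, M')` vanishes in `H²(G_v, k(χ))` (trace-free form of the orthogonal complement of
`H¹_ur(G_v, M')` for local Tate duality). -/
noncomputable def minCondAt (v : D.ι) (I : Subgroup (D.Gv v)) :
    Submodule k (levelCohomology (D.𝒱 v) (Rep.res (D.r v) M) 1) where
  carrier := {a | ∀ b ∈ H1urAt D (M.dualTwist χ) v I,
    cupLoc D (evalPairing' χ M) (evalPairing'_equivariant χ M) v 1 1 2 rfl a b = 0}
  add_mem' := fun {a a'} ha ha' b hb => by
    rw [map_add, LinearMap.add_apply, ha b hb, ha' b hb, add_zero]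
  zero_mem' := fun b _ => by rw [map_zero, LinearMap.zero_apply]
  smul_mem' := fun c a ha b hb => by rw [map_smul, LinearMap.smul_apply, ha b hb, smul_zero]

theorem mem_minCondAt {v : D.ι} {I : Subgroup (D.Gv v)}
    {a : levelCohomology (D.𝒱 v) (Rep.res (D.r v) M) 1} :
    a ∈ minCondAt D χ M v I ↔ ∀ b ∈ H1urAt D (M.dualTwist χ) v I,
      cupLoc D (evalPairing' χ M) (evalPairing'_equivariant χ M) v 1 1 2 rfl a b = 0 := Iff.rfl

/-- Unramified classes satisfy the minimal condition. -/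
theorem H1urAt_le_minCondAt (v : D.ι) {I : Subgroup (D.Gv v)} {φ : D.Gv v}
    (hd : UnramData (D.𝒱 v) I φ) {N : ℕ} (hN : 0 < N) (hNk : (N : k) = 0) :
    H1urAt D M v I ≤ minCondAt D χ M v I := fun _ ha _ hb =>
  cupLoc_eq_zero_of_mem_H1ur D _ _ v hd hN hNk ha hb

/-- **Cocycle criterion**: the class of a level cocycle `za` of the local group lies in the
minimal condition as soon as the values of `za` on `I` are killed by the `I`-invariant
elements of `M' = Hom(M, k(χ))`. -/
theorem levelH1π_mem_minCondAt (v : D.ι) {I : Subgroup (D.Gv v)} {φ : D.Gv v}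
    (hd : UnramData (D.𝒱 v) I φ) {N : ℕ} (hN : 0 < N) (hNk : (N : k) = 0)
    (za : levelCocycles₁ (D.𝒱 v) (Rep.res (D.r v) M))
    (hza : ∀ τ ∈ I, ∀ y : M.dualTwist χ,
      (∀ σ ∈ I, (M.dualTwist χ).ρ (D.r v σ) y = y) → (y : Module.Dual k M) (za.1 τ) = 0) :
    levelH1π (D.𝒱 v) (Rep.res (D.r v) M) za ∈ minCondAt D χ M v I := fun _ hb =>
  pairH_eq_zero_of_perp (resBilin D (evalPairing' χ M) v)
    (resBilin_equivariant D (evalPairing' χ M) (evalPairing'_equivariant χ M) v) hd hN hNk za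
    hza hb

section Tate

variable [DecidableEq D.ι] [Fintype D.ι] (tr : Hc D (ofChar χ) 3 →ₗ[k] k)
  [FiniteDimensional k M]

variable {D χ tr}

/-- **Perfectness of the local Tate pairing at each place** (from the local hypotheses). -/
theorem tatePairing_bijective (h : LocalHyp D χ tr) (v : D.ι) :
    Function.Bijective (tatePairing D χ tr M v) := by
  have hb := locDual_bijective_one_one M h
  rw [locDual_eq_sumPairing] at hb
  constructor
  · rw [injective_iff_map_eq_zero]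
    intro a ha
    have h1 : sumPairing (tatePairing D χ tr M) (Pi.single v a) = 0 := by
      refine LinearMap.ext fun q => ?_
      rw [sumPairing_single_left, ha]
      rfl
    have h2 := hb.1 (h1.trans (map_zero _).symm)
    have h3 := congrFun h2 v
    rwa [Pi.single_eq_same] at h3
  · intro l
    obtain ⟨w, hw⟩ := hb.2 (l ∘ₗ (LinearMap.proj v))
    refine ⟨w v, LinearMap.ext fun c => ?_⟩
    rw [← sumPairing_single_right (tatePairing D χ tr M) w v c, hw, LinearMap.comp_apply,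
      LinearMap.proj_apply, Pi.single_eq_same]

variable (tr)

/-- Under local duality the minimal condition is the annihilator of the unramified classes of
`M'` for the local Tate pairing (for any trace). -/
theorem minCondAt_eq_annL (h : LocalHyp D χ tr) (v : D.ι) (I : Subgroup (D.Gv v)) :
    minCondAt D χ M v I = annL (tatePairing D χ tr M v) (H1urAt D (M.dualTwist χ) v I) := by
  ext a
  rw [mem_minCondAt, mem_annL]
  constructor
  · intro ha b hb
    rw [tatePairing_apply, ha b hb, map_zero]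
  · intro ha b hb
    have := ha b hb
    rw [tatePairing_apply] at this
    exact invAt_injective h v (this.trans (map_zero _).symm)

/-- **(E2)** The orthogonal complement of the minimal condition is the unramified condition
for `M'`. -/
theorem perp_eq_H1urAt (h : LocalHyp D χ tr) (𝓛 : LocalCond D M) (v : D.ι)
    (I : Subgroup (D.Gv v)) (hv : 𝓛 v = minCondAt D χ M v I) :
    LocalCond.perp D χ tr M 𝓛 v = H1urAt D (M.dualTwist χ) v I := by
  show annR (tatePairing D χ tr M v) (𝓛 v) = _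
  rw [hv, minCondAt_eq_annL M tr h v I, annR_annL _ (tatePairing_bijective M h v).2]

/-- **(E2)** `dim L_v + h⁰(G_v, M') = h¹(G_v, M)` for the minimal condition `L_v`. -/
theorem finrank_minCondAt_add (h : LocalHyp D χ tr) (v : D.ι) {I : Subgroup (D.Gv v)}
    {φ : D.Gv v} (hd : UnramData (D.𝒱 v) I φ) {N : ℕ} (hN : 0 < N) (hNk : (N : k) = 0) :
    finrank k (minCondAt D χ M v I) +
        finrank k (levelCohomology (D.𝒱 v) (Rep.res (D.r v) (M.dualTwist χ)) 0) =
      finrank k (levelCohomology (D.𝒱 v) (Rep.res (D.r v) M) 1) := by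
  have hfdM' : FiniteDimensional k (M.dualTwist χ) :=
    inferInstanceAs (FiniteDimensional k (Module.Dual k M))
  have hfdM'r : FiniteDimensional k (Rep.res (D.r v) (M.dualTwist χ)) := hfdM'
  have hdd : IsDiscrete 𝒰 ((M.dualTwist χ).dualTwist χ) := isDiscrete_dualTwist 𝒰 χ _
  have hfd1 : FiniteDimensional k
      (levelCohomology (D.𝒱 v) (Rep.res (D.r v) (M.dualTwist χ)) 1) :=
    finiteDimensional_loc (M.dualTwist χ) h v 1 (by norm_num)
  have e1 := finrank_annR_add (tatePairing D χ tr M v) (tatePairing_bijective M h v).1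
    (minCondAt D χ M v I)
  rw [minCondAt_eq_annL M tr h v I, annR_annL _ (tatePairing_bijective M h v).2,
    ← minCondAt_eq_annL M tr h v I] at e1
  rw [finrank_loc_one_eq M h v, ← e1]
  congr 1
  exact (finrank_H1ur (Rep.res (D.r v) (M.dualTwist χ)) hd hN hNk).symm

/-- **(E2)** `dim L_v = h⁰(G_v, M)` for the minimal condition, GIVEN the local Euler
characteristic formula `h¹ = h⁰ + h²` at `v` (which holds at the places not above the residue
characteristic). -/
theorem finrank_minCondAt_eq (h : LocalHyp D χ tr) (v : D.ι) {I : Subgroup (D.Gv v)}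
    {φ : D.Gv v} (hd : UnramData (D.𝒱 v) I φ) {N : ℕ} (hN : 0 < N) (hNk : (N : k) = 0)
    (hEuler : finrank k (levelCohomology (D.𝒱 v) (Rep.res (D.r v) M) 1) =
      finrank k (levelCohomology (D.𝒱 v) (Rep.res (D.r v) M) 0) +
        finrank k (levelCohomology (D.𝒱 v) (Rep.res (D.r v) M) 2)) :
    finrank k (minCondAt D χ M v I) =
      finrank k (levelCohomology (D.𝒱 v) (Rep.res (D.r v) M) 0) := by
  have e1 := finrank_minCondAt_add M tr h v hd hN hNk
  have e2 := finrank_loc_two_eq M h v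
  omega

end Tate

end Cond

/-! ### The adjoint module -/

section Ad0

open Fermat.Agent.S56.Ad Fermat.Agent.S56.Loc.Unipotent ExtCitation

local notation "Γ" => (AlgebraicClosure ℚ ≃ₐ[ℚ] AlgebraicClosure ℚ)

variable {k : Type} [Field k] (ρbar : ResidualGaloisRep k) (p : ℕ) [Fact p.Prime]
  [Algebra (ZMod p) k] [Module.Finite (ZMod p) k] (h2 : (2 : k) ≠ 0)

include h2 in
/-- The `I`-invariants of `M' = (ad⁰ρ̄)^*(1)` kill the hyperplane `{x | tr (x N) = 0}` of
`ad⁰ρ̄`, when `ρ̄ = 1 + t N` on `I` is non-trivial and `χ̄` is trivial on `I`. -/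
theorem apply_eq_zero_of_fixed {G : Type*} [Group G] (r : G →* Γ) (I : Subgroup G)
    (hχ : ∀ τ ∈ I, cycloChar p (r τ) = 1)
    (N : Module.End k ρbar.V) (t : G → k) (hN : N ≠ 0) (hN2 : N * N = 0)
    (hρ : ∀ τ ∈ I, ρbar.ρ (r τ) = 1 + t τ • N) (hne : ∃ τ ∈ I, t τ ≠ 0)
    (y : ad0' ρbar p) (hy : ∀ τ ∈ I, (ad0' ρbar p).ρ (r τ) y = y)
    (x : Ad0 ρbar p) (hx : LinearMap.trace k ρbar.V (Ad0.toEnd ρbar p x * N) = 0) :
    (y : Module.Dual (ZMod p) (Ad0 ρbar p)) x = 0 := by
  have hcomm : ∀ τ ∈ I, (ρbar.ρ.comp r) τ * ιDual ρbar p h2 y =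
      ιDual ρbar p h2 y * (ρbar.ρ.comp r) τ := by
    intro τ hτ
    have h := ιDual_ρ ρbar p h2 (r τ) y
    rw [hy τ hτ, hχ τ hτ, Units.val_one, map_one, one_smul] at h
    show ρbar.ρ (r τ) * ιDual ρbar p h2 y = ιDual ρbar p h2 y * ρbar.ρ (r τ)
    calc ρbar.ρ (r τ) * ιDual ρbar p h2 y
        = ρbar.ρ (r τ) * ιDual ρbar p h2 y * (ρbar.ρ (r τ)⁻¹ * ρbar.ρ (r τ)) := by
          rw [rho_inv_mul_rho, mul_one]
      _ = ρbar.ρ (r τ) * ιDual ρbar p h2 y * ρbar.ρ (r τ)⁻¹ * ρbar.ρ (r τ) := by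
          simp only [mul_assoc]
      _ = ιDual ρbar p h2 y * ρbar.ρ (r τ) := by rw [← h]
  obtain ⟨b, hb⟩ := exists_eq_smul_of_forall_mem_commute (ρbar.ρ.comp r) N t I ρbar.finrank_eq
    h2 hN hN2 hρ hne (ιDual ρbar p h2 y) (trace_ιDual ρbar p h2 y) hcomm
  have hy' : y = trForm ρbar p ((trFormEquiv ρbar p h2).symm y) := by
    rw [← trFormEquiv_apply ρbar p h2, LinearEquiv.apply_symm_apply]
  rw [hy', trForm_apply, trPair, ← ιDual_apply, hb, smul_mul_assoc, map_smul,
    LinearMap.trace_mul_comm, hx, smul_zero, map_zero]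

section Main

variable {𝒰 : LevelStructure Γ} (D : LocalData 𝒰)
  [IsDiscrete 𝒰 (ofChar (k := ZMod p) (cycloChar p))]
  [IsDiscrete 𝒰 (ad0 ρbar p)] [IsDiscrete 𝒰 (ad0' ρbar p)]

include h2 in
/-- **(E3), local form.** -/
theorem levelH1π_mem_minCondAt_ad0 (v : D.ι) {I : Subgroup (D.Gv v)} {φ : D.Gv v}
    (hd : UnramData (D.𝒱 v) I φ)
    (hχ : ∀ τ ∈ I, cycloChar p (D.r v τ) = 1)
    (hunip : ∀ τ ∈ I, LinearMap.charpoly (ρbar.ρ (D.r v τ)) = (Polynomial.X - 1) ^ 2)
    (hram : ∃ τ ∈ I, ρbar.ρ (D.r v τ) ≠ 1)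
    (z : levelCocycles₁ (D.𝒱 v) (Rep.res (D.r v) (ad0 ρbar p)))
    (htr : ∀ τ ∈ I,
      LinearMap.trace k ρbar.V (Ad0.toEnd ρbar p (z.1 τ) * ρbar.ρ (D.r v τ)) = 0) :
    levelH1π (D.𝒱 v) (Rep.res (D.r v) (ad0 ρbar p)) z ∈
      minCondAt D (cycloChar p) (ad0 ρbar p) v I := by
  obtain ⟨N, t, hN, hN2, hρ, ht⟩ :=
    exists_nilpotent_direction_subgroup ρbar.finrank_eq (ρbar.ρ.comp (D.r v)) I hunip
  have hne : ∃ τ ∈ I, t τ ≠ 0 := by
    obtain ⟨τ, hτ, hτ1⟩ := hram
    refine ⟨τ, hτ, fun h0 => hτ1 ?_⟩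
    have := hρ τ hτ
    rw [h0, zero_smul, add_zero] at this
    exact this
  have hc : ∀ g ∈ I, ∀ h ∈ I, Ad0.toEnd ρbar p (z.1 (g * h)) =
      Ad0.toEnd ρbar p (z.1 g) +
        (ρbar.ρ.comp (D.r v)) g * Ad0.toEnd ρbar p (z.1 h) * (ρbar.ρ.comp (D.r v)) g⁻¹ := by
    intro g _ h _
    rw [(mem_cocycles₁_iff z.1).1 z.2.1 g h, map_add, add_comm]
    congr 1
    show Ad0.toEnd ρbar p ((ad0 ρbar p).ρ (D.r v g) (z.1 h)) = _
    rw [toEnd_ρ, MonoidHom.comp_apply, MonoidHom.comp_apply, map_inv (D.r v) g]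
  have hmin : ∀ τ ∈ I, LinearMap.trace k ρbar.V (Ad0.toEnd ρbar p (z.1 τ) * N) = 0 :=
    trace_cocycle_mul_eq_zero_of_mem (ρbar.ρ.comp (D.r v)) N t I hρ ht hne
      (fun g => Ad0.toEnd ρbar p (z.1 g)) hc (fun g _ => Ad0.trace_toEnd ρbar p _) htr
  refine levelH1π_mem_minCondAt D (cycloChar p) (ad0 ρbar p) v hd (Fact.out : p.Prime).pos
    (ZMod.natCast_self p) z (fun τ hτ y hy => ?_)
  exact apply_eq_zero_of_fixed ρbar p h2 (D.r v) I hχ N t hN hN2 hρ hne y hy (z.1 τ) (hmin τ hτ)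

end Main

section Arith

open Fermat.Agent.S55.Assembly Fermat.Agent.S56.Places.Dict Fermat.Agent.S56.PT.UnramLocal
  Fermat.Agent.S56.PT.Inflation Fermat.Agent.N4.FrobDensity

/-- `χ̄` is trivial on the inertia subgroup of the local group at `q ≠ p`. -/
theorem cycloChar_localInertia (q : Nat.Primes) (hq : (q : ℕ) ≠ p) :
    ∀ τ ∈ localInertia q, cycloChar p (primeLocalToGlobal q τ) = 1 := fun τ hτ =>
  cycloChar_inertia p q.2 hq (liesOverPrime_primeLocalPlace q) ((mem_localInertia_iff q τ).1 hτ)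

/-- `ρ̄` is ramified at `q` iff it is non-trivial on the inertia subgroup of the local group. -/
theorem exists_ne_one_of_not_isUnramifiedAt (q : Nat.Primes)
    (h : ¬ ρbar.IsUnramifiedAt (q : ℕ)) :
    ∃ τ ∈ localInertia q, ρbar.ρ (primeLocalToGlobal q τ) ≠ 1 := by
  rw [residual_isUnramifiedAt_iff_local] at h
  push Not at h
  exact h

variable (S : Finset Nat.Primes)
  [IsDiscrete (globalLevel S) (ofChar (k := ZMod p) (cycloChar p))]
  [IsDiscrete (globalLevel S) (ad0 ρbar p)] [IsDiscrete (globalLevel S) (ad0' ρbar p)]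

/-- **(E1) The minimally ramified local condition** `L_v ≤ H¹(G_v, ad⁰ρ̄)` at `v ∈ S`. -/
noncomputable def minCond (v : (localData S).ι) :
    Submodule (ZMod p)
      (levelCohomology ((localData S).𝒱 v) (Rep.res ((localData S).r v) (ad0 ρbar p)) 1) :=
  minCondAt (localData S) (cycloChar p) (ad0 ρbar p) v (localInertia v.1)

include h2 in
/-- **(E3), local cocycle form.** -/
theorem levelH1π_mem_minCond (v : (localData S).ι) (hvp : (v.1 : ℕ) ≠ p)
    (hunip : ∀ τ ∈ localInertia v.1,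
      LinearMap.charpoly (ρbar.ρ (primeLocalToGlobal v.1 τ)) = (Polynomial.X - 1) ^ 2)
    (hram : ∃ τ ∈ localInertia v.1, ρbar.ρ (primeLocalToGlobal v.1 τ) ≠ 1)
    (z : levelCocycles₁ ((localData S).𝒱 v) (Rep.res ((localData S).r v) (ad0 ρbar p)))
    (htr : ∀ τ ∈ localInertia v.1, LinearMap.trace k ρbar.V
      (Ad0.toEnd ρbar p (z.1 τ) * ρbar.ρ (primeLocalToGlobal v.1 τ)) = 0) :
    levelH1π ((localData S).𝒱 v) (Rep.res ((localData S).r v) (ad0 ρbar p)) z ∈
      minCond ρbar p S v := by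
  obtain ⟨φ, hd⟩ := exists_unramData_localData S v
  exact levelH1π_mem_minCondAt_ad0 ρbar p h2 (localData S) v hd
    (cycloChar_localInertia p v.1 hvp) hunip hram z htr

include h2 in
/-- **(E3) MAIN LEMMA.** -/
theorem res_mem_minCond (v : (localData S).ι) (hvp : (v.1 : ℕ) ≠ p)
    (hunip : ∀ τ ∈ localInertia v.1,
      LinearMap.charpoly (ρbar.ρ (primeLocalToGlobal v.1 τ)) = (Polynomial.X - 1) ^ 2)
    (hram : ∃ τ ∈ localInertia v.1, ρbar.ρ (primeLocalToGlobal v.1 τ) ≠ 1)
    (z : levelCocycles₁ (globalLevel S) (ad0 ρbar p))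
    (htr : ∀ τ ∈ localInertia v.1, LinearMap.trace k ρbar.V
      (Ad0.toEnd ρbar p (z.1 (primeLocalToGlobal v.1 τ)) *
        ρbar.ρ (primeLocalToGlobal v.1 τ)) = 0) :
    locH (localData S) (ad0 ρbar p) 1 (levelH1π (globalLevel S) (ad0 ρbar p) z) v ∈
      minCond ρbar p S v := by
  have h : locH (localData S) (ad0 ρbar p) 1 (levelH1π (globalLevel S) (ad0 ρbar p) z) v =
      levelH1π ((localData S).𝒱 v) (Rep.res ((localData S).r v) (ad0 ρbar p))
        (resCocycle S (ad0 ρbar p) v.1 z) := resAt_levelH1π S (ad0 ρbar p) v.1 z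
  rw [h]
  exact levelH1π_mem_minCond ρbar p h2 S v hvp hunip hram (resCocycle S (ad0 ρbar p) v.1 z) htr

/-- Unramified classes satisfy the minimal condition. -/
theorem H1urLoc_le_minCond (v : (localData S).ι) :
    H1urLoc S (ad0 ρbar p) v ≤ minCond ρbar p S v := by
  obtain ⟨φ, hd⟩ := exists_unramData_localData S v
  exact H1urAt_le_minCondAt (localData S) (cycloChar p) (ad0 ρbar p) v hd
    (Fact.out : p.Prime).pos (ZMod.natCast_self p)

section Numerics

variable (tr : Hc (localData S) (ofChar (k := ZMod p) (cycloChar p)) 3 →ₗ[ZMod p] ZMod p)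
  (h : LocalHyp (localData S) (cycloChar p) tr)

include h

/-- **(E2)** The orthogonal complement of the minimal condition at `v` is the unramified
condition for `M' = (ad⁰ρ̄)^*(1)`. -/
theorem perp_minCond (𝓛 : LocalCond (localData S) (ad0 ρbar p)) (v : (localData S).ι)
    (hv : 𝓛 v = minCond ρbar p S v) :
    LocalCond.perp (localData S) (cycloChar p) tr (ad0 ρbar p) 𝓛 v =
      H1urLoc S (ad0' ρbar p) v :=
  perp_eq_H1urAt (ad0 ρbar p) tr h 𝓛 v (localInertia v.1) hv

/-- **(E2)** `dim L_v + h⁰(G_v, M') = h¹(G_v, M)`. -/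
theorem finrank_minCond_add (v : (localData S).ι) :
    finrank (ZMod p) (minCond ρbar p S v) +
        finrank (ZMod p) (levelCohomology ((localData S).𝒱 v)
          (Rep.res ((localData S).r v) (ad0' ρbar p)) 0) =
      finrank (ZMod p) (levelCohomology ((localData S).𝒱 v)
        (Rep.res ((localData S).r v) (ad0 ρbar p)) 1) := by
  obtain ⟨φ, hd⟩ := exists_unramData_localData S v
  exact finrank_minCondAt_add (ad0 ρbar p) tr h v hd (Fact.out : p.Prime).pos
    (ZMod.natCast_self p)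

/-- **(E2)** `dim L_v = h⁰(G_v, M)`, given the local Euler characteristic formula at `v`. -/
theorem finrank_minCond_eq (v : (localData S).ι)
    (hEuler : finrank (ZMod p) (levelCohomology ((localData S).𝒱 v)
        (Rep.res ((localData S).r v) (ad0 ρbar p)) 1) =
      finrank (ZMod p) (levelCohomology ((localData S).𝒱 v)
          (Rep.res ((localData S).r v) (ad0 ρbar p)) 0) +
        finrank (ZMod p) (levelCohomology ((localData S).𝒱 v)
          (Rep.res ((localData S).r v) (ad0 ρbar p)) 2)) :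
    finrank (ZMod p) (minCond ρbar p S v) =
      finrank (ZMod p) (levelCohomology ((localData S).𝒱 v)
        (Rep.res ((localData S).r v) (ad0 ρbar p)) 0) := by
  obtain ⟨φ, hd⟩ := exists_unramData_localData S v
  exact finrank_minCondAt_eq (ad0 ρbar p) tr h v hd (Fact.out : p.Prime).pos
    (ZMod.natCast_self p) hEuler

end Numerics

end Arith

section Bridge

open Fermat.Agent.S56.Tan.Cocycle Fermat.Agent.S53 Fermat.Agent.S56.Places.Dict Polynomial

variable {ρbar} {ρA : GaloisRepAdic (DualNumber k)} (m : Model ρbar ρA)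

include m in
/-- The reduction of a unipotent `ρA σ` is unipotent. -/
theorem charpoly_residual_of_charpoly (σ : Γ)
    (h : LinearMap.charpoly (ρA.ρ σ) = (X - 1) ^ 2) :
    LinearMap.charpoly (ρbar.ρ σ) = (X - 1) ^ 2 := by
  have h1 : (m.M σ).charpoly = (X - 1) ^ 2 := by rw [← m.charpoly_eq, h]
  have h3 : (fstM (m.M σ)).charpoly = (X - 1) ^ 2 := by
    show ((m.M σ).map ((TrivSqZeroExt.fstHom k k k : DualNumber k →ₐ[k] k) :
      DualNumber k →+* k)).charpoly = _
    rw [Matrix.charpoly_map, h1, Polynomial.map_pow, Polynomial.map_sub, Polynomial.map_X,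
      Polynomial.map_one]
  rw [m.redM_apply σ] at h3
  rw [← h3]
  exact (LinearMap.charpoly_toMatrix (ρbar.ρ σ)
    (Module.finBasisOfFinrankEq k ρbar.V ρbar.finrank_eq)).symm

/-- **The `ε`-part of `tr ρA(σ) = 2`**: `tr (c σ · ρ̄ σ) = 0` for the cocycle `c` of the lift. -/
theorem trace_cocycle_mul_rho_of_charpoly (hpk : (p : k) = 0) (hdet : ρA.DetIsCyclotomic p)
    (σ : Γ) (h : LinearMap.charpoly (ρA.ρ σ) = (X - 1) ^ 2) :
    LinearMap.trace k ρbar.V (Ad0.toEnd ρbar p (m.cocycle p hpk hdet σ) * ρbar.ρ σ) = 0 := by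
  have h1 : Matrix.trace (m.M σ) = 2 := by rw [← m.trace_eq, trace_eq_two _ h]
  have h2 : Matrix.trace (sndM (m.M σ)) = 0 := by
    have h3 := congrArg TrivSqZeroExt.snd h1
    rw [Matrix.trace_fin_two] at h3
    rw [Matrix.trace_fin_two, sndM_apply, sndM_apply, ← TrivSqZeroExt.snd_add, h3]
    rfl
  rw [Model.toEnd_cocycle, ← toM_symm_resMat ρbar σ, ← map_mul, trace_toM_symm, ← m.lifts,
    ← sndM_eq, h2]

/-- **Bridge lemma**: a lift `ρA` of `ρ̄` to `k[ε]` which is unipotent on inertia at `q` gives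
hypotheses (h-unip) and (h-tr) of `res_mem_minCond` for its cocycle. -/
theorem hunip_htr_of_isUnipotentOnInertiaAt (hpk : (p : k) = 0) (hdet : ρA.DetIsCyclotomic p)
    (q : Nat.Primes) (h : ρA.IsUnipotentOnInertiaAt (q : ℕ)) :
    (∀ τ ∈ localInertia q,
      LinearMap.charpoly (ρbar.ρ (primeLocalToGlobal q τ)) = (X - 1) ^ 2) ∧
    ∀ τ ∈ localInertia q, LinearMap.trace k ρbar.V
      (Ad0.toEnd ρbar p (m.cocycle p hpk hdet (primeLocalToGlobal q τ)) *
        ρbar.ρ (primeLocalToGlobal q τ)) = 0 := by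
  rw [isUnipotentOnInertiaAt_iff_local] at h
  exact ⟨fun τ hτ => charpoly_residual_of_charpoly m _ (h τ hτ),
    fun τ hτ => trace_cocycle_mul_rho_of_charpoly p m hpk hdet _ (h τ hτ)⟩

end Bridge

end Ad0

end Fermat.Agent.S56.Loc.Minimal
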