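/-
S56 / block (E), leaf E-MIN, part 2 (helper16): **the minimally ramified condition, PRIME-INDEXED
and level-free** — the consumer shapes of helper10's H5 skeleton (board #2570).

For `q : Nat.Primes`, `r_q := primeLocalToGlobal q`, `𝒱_q := localLevel r_q` (which does not depend on
any set `S`), `M := ad0 ρbar p`, `M' := ad0' ρbar p`:

* `isDiscrete_res_ad0`, `isDiscrete_res_ad0'`, `isDiscrete_res_mu` : the restrictions of `M`, `M'`,
  `μ_p` along ANY `r : H →* Gal(ℚ̄/ℚ)` are discrete for `localLevel r` (unconditionally);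
* `evalRes`, `evalRes_equivariant` : the evaluation pairing on the restrictions;
* **`minCondQ ρbar p q`** `≤ H¹(G_q, M)` : the classes whose cup product with every unramified
  class of `H¹(G_q, M')` vanishes; `minCondQ_eq_minCond` (`= Minimal.minCond ρbar p S v` for
  `v ∈ S`);
* **`levelH1π_mem_minCondQ`** (cocycle form) and **`levelH1π_mem_minCondQ_of_lift`** (LIFT FORM:
  a lift `ρA` of `ρ̄` to `k[ε]` with model `m`, unipotent on inertia at `q ≠ p`, `ρ̄` ramified
  at `q`);
* **`finrank_minCondQ_add`** (`hdim_min`): `dim L_q + h⁰(G_q, M') = h¹(G_q, M)`, and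
  `finrank_minCondQ_add_le`; `H1ur_le_minCondQ`.
-/
import Fermat.Agent.S56.Loc.Minimal
import Fermat.Agent.S56.PT.Instance
import Fermat.Agent.S55.DualTwistLevel

set_option autoImplicit false
set_option linter.unusedSectionVars false

namespace Fermat.Agent.S56.Loc.MinimalPrime

open CategoryTheory groupCohomology Rep Module ExtCitation
  Fermat.Agent.S55.Level Fermat.Agent.S55.Cone
  Fermat.Agent.S55.DualTwist Fermat.Agent.S55.Main Fermat.Agent.S55.LevelDuality
  Fermat.Agent.S55.Assembly Fermat.Agent.S55.CochainTools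
  Fermat.Agent.S56.PT.SelmerLinAlg Fermat.Agent.S56.PT.Selmer
  Fermat.Agent.S56.PT.Unram Fermat.Agent.S56.PT.UnramTate Fermat.Agent.S56.PT.LocalDuality
  Fermat.Agent.S56.PT.UnramInst Fermat.Agent.S56.PT.UnramLocal
  Fermat.Agent.S56.Ad Fermat.Agent.S56.Loc.Unipotent Fermat.Agent.S56.Loc.Minimal
  Fermat.Agent.S56.Places.Dict Fermat.Agent.S56.Tan.Cocycle

local notation "Qbar" => AlgebraicClosure ℚ
local notation "Γ" => (AlgebraicClosure ℚ ≃ₐ[ℚ] AlgebraicClosure ℚ)

variable {k : Type} [Field k] (ρbar : ResidualGaloisRep k) (p : ℕ) [Fact p.Prime]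
  [Algebra (ZMod p) k] [Module.Finite (ZMod p) k]

/-! ### Discreteness of the restrictions, unconditionally -/

section Discrete

variable {H : Type} [Group H] (r : H →* Γ)

omit [Module.Finite (ZMod p) k] in
/-- `Rep.res r (ad⁰ρ̄)` is discrete for `localLevel r`. -/
theorem isDiscrete_res_ad0 : IsDiscrete (localLevel r) (Rep.res r (ad0 ρbar p)) := by
  obtain ⟨F, hF, h⟩ := exists_level_ad0 ρbar p
  refine Fermat.Agent.S55.DualTwistLevel.isDiscrete_localLevel_res r (ad0 ρbar p) fun m =>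
    ⟨F, hF, fun s hs => ?_⟩
  rw [h s hs]
  rfl

/-- `Rep.res r (ad⁰ρ̄)^*(1)` is discrete for `localLevel r`. -/
theorem isDiscrete_res_ad0' : IsDiscrete (localLevel r) (Rep.res r (ad0' ρbar p)) := by
  obtain ⟨F, hF, h⟩ := exists_level_ad0' ρbar p
  refine Fermat.Agent.S55.DualTwistLevel.isDiscrete_localLevel_res r (ad0' ρbar p) fun m =>
    ⟨F, hF, fun s hs => ?_⟩
  rw [h s hs]
  rfl

/-- `Rep.res r μ_p` is discrete for `localLevel r`. -/
theorem isDiscrete_res_mu :
    IsDiscrete (localLevel r) (Rep.res r (ofChar (k := ZMod p) (cycloChar p))) :=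
  haveI := Fermat.Agent.S55.Assembly.isDiscrete_ofChar_cycloChar (p := p) (S := {pPrime p})
    (Finset.mem_singleton_self _)
  Fermat.Agent.S55.Bridge.isDiscrete_localLevel_res {pPrime p} _ r

end Discrete

/-! ### The evaluation pairing on the restrictions -/

section Pairing

variable {H : Type} [Group H] (r : H →* Γ)

/-- The evaluation pairing `M × M' → μ_p`, on the restrictions along `r`. -/
noncomputable def evalRes :
    Rep.res r (ad0 ρbar p) →ₗ[ZMod p] Rep.res r (ad0' ρbar p) →ₗ[ZMod p]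
      Rep.res r (ofChar (k := ZMod p) (cycloChar p)) :=
  evalPairing' (cycloChar p) (ad0 ρbar p)

theorem evalRes_apply (x : Rep.res r (ad0 ρbar p)) (y : Rep.res r (ad0' ρbar p)) :
    evalRes ρbar p r x y = (y : Module.Dual (ZMod p) (Ad0 ρbar p)) x := rfl

theorem evalRes_equivariant (g : H) (x : Rep.res r (ad0 ρbar p))
    (y : Rep.res r (ad0' ρbar p)) :
    evalRes ρbar p r ((Rep.res r (ad0 ρbar p)).ρ g x) ((Rep.res r (ad0' ρbar p)).ρ g y) =
      (Rep.res r (ofChar (k := ZMod p) (cycloChar p))).ρ g (evalRes ρbar p r x y) :=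
  evalPairing'_equivariant (cycloChar p) (ad0 ρbar p) (r g) x y

end Pairing

/-! ### The core vanishing for a group `H → Gal(ℚ̄/ℚ)` with "inertia" `I` -/

section Core

variable {H : Type} [Group H] (r : H →* Γ) (𝒱 : LevelStructure H)
  [IsDiscrete 𝒱 (Rep.res r (ad0 ρbar p))] [IsDiscrete 𝒱 (Rep.res r (ad0' ρbar p))]
  [IsDiscrete 𝒱 (Rep.res r (ofChar (k := ZMod p) (cycloChar p)))]

/-- The cup product `H¹(H, M) × H¹(H, M') → H²(H, μ_p)` of the evaluation pairing. -/
noncomputable def cupRes :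
    levelCohomology 𝒱 (Rep.res r (ad0 ρbar p)) 1 →ₗ[ZMod p]
      levelCohomology 𝒱 (Rep.res r (ad0' ρbar p)) 1 →ₗ[ZMod p]
        levelCohomology 𝒱 (Rep.res r (ofChar (k := ZMod p) (cycloChar p))) 2 :=
  (levelPairing 𝒱 (evalRes ρbar p r) (evalRes_equivariant ρbar p r)).pairH 1 1 2 rfl

/-- **(E3), for an arbitrary group over `Gal(ℚ̄/ℚ)`**: if `ρ̄ ∘ r` is unipotent and non-trivial on
`I`, `χ̄ ∘ r` is trivial on `I`, and `z` is a level cocycle with `tr (z τ · ρ̄ (r τ)) = 0` on `I`,
then the class of `z` is orthogonal to the unramified classes of `M'`. -/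
theorem pairH_eq_zero_of_unipotent (h2 : (2 : k) ≠ 0) {I : Subgroup H} {φ : H}
    (hd : UnramData 𝒱 I φ) (hχ : ∀ τ ∈ I, cycloChar p (r τ) = 1)
    (hunip : ∀ τ ∈ I, LinearMap.charpoly (ρbar.ρ (r τ)) = (Polynomial.X - 1) ^ 2)
    (hram : ∃ τ ∈ I, ρbar.ρ (r τ) ≠ 1)
    (z : levelCocycles₁ 𝒱 (Rep.res r (ad0 ρbar p)))
    (htr : ∀ τ ∈ I, LinearMap.trace k ρbar.V (Ad0.toEnd ρbar p (z.1 τ) * ρbar.ρ (r τ)) = 0)
    {b : levelCohomology 𝒱 (Rep.res r (ad0' ρbar p)) 1}
    (hb : b ∈ H1ur 𝒱 I (Rep.res r (ad0' ρbar p))) :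
    cupRes ρbar p r 𝒱 (levelH1π 𝒱 (Rep.res r (ad0 ρbar p)) z) b = 0 := by
  obtain ⟨N, t, hN, hN2, hρ, ht⟩ :=
    exists_nilpotent_direction_subgroup ρbar.finrank_eq (ρbar.ρ.comp r) I hunip
  have hne : ∃ τ ∈ I, t τ ≠ 0 := by
    obtain ⟨τ, hτ, hτ1⟩ := hram
    refine ⟨τ, hτ, fun h0 => hτ1 ?_⟩
    have := hρ τ hτ
    rw [h0, zero_smul, add_zero] at this
    exact this
  have hc : ∀ g ∈ I, ∀ h ∈ I, Ad0.toEnd ρbar p (z.1 (g * h)) =
      Ad0.toEnd ρbar p (z.1 g) +
        (ρbar.ρ.comp r) g * Ad0.toEnd ρbar p (z.1 h) * (ρbar.ρ.comp r) g⁻¹ := by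
    intro g _ h _
    rw [(mem_cocycles₁_iff z.1).1 z.2.1 g h, map_add, add_comm]
    congr 1
    show Ad0.toEnd ρbar p ((ad0 ρbar p).ρ (r g) (z.1 h)) = _
    rw [toEnd_ρ, MonoidHom.comp_apply, MonoidHom.comp_apply, map_inv r g]
  have hmin : ∀ τ ∈ I, LinearMap.trace k ρbar.V (Ad0.toEnd ρbar p (z.1 τ) * N) = 0 :=
    trace_cocycle_mul_eq_zero_of_mem (ρbar.ρ.comp r) N t I hρ ht hne
      (fun g => Ad0.toEnd ρbar p (z.1 g)) hc (fun g _ => Ad0.trace_toEnd ρbar p _) htr
  refine pairH_eq_zero_of_perp (evalRes ρbar p r) (evalRes_equivariant ρbar p r) hd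
    (Fact.out : p.Prime).pos (ZMod.natCast_self p) z (fun τ hτ y hy => ?_) hb
  exact apply_eq_zero_of_fixed ρbar p h2 r I hχ N t hN hN2 hρ hne y hy (z.1 τ) (hmin τ hτ)

end Core

/-! ### The prime-indexed minimal condition -/

section Prime

variable (q : Nat.Primes)
  [hM : IsDiscrete (localLevel (primeLocalToGlobal q)) (Rep.res (primeLocalToGlobal q) (ad0 ρbar p))]
  [hM' : IsDiscrete (localLevel (primeLocalToGlobal q))
    (Rep.res (primeLocalToGlobal q) (ad0' ρbar p))]

/-- **The minimally ramified local condition at the prime `q`** (prime-indexed, level-free): the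
classes of `H¹(G_q, ad⁰ρ̄)` whose cup product with every unramified class of `H¹(G_q, (ad⁰ρ̄)^*(1))`
vanishes in `H²(G_q, μ_p)`. -/
noncomputable def minCondQ :
    Submodule (ZMod p) (levelCohomology (localLevel (primeLocalToGlobal q))
      (Rep.res (primeLocalToGlobal q) (ad0 ρbar p)) 1) :=
  haveI := isDiscrete_res_mu p (primeLocalToGlobal q)
  { carrier := {a | ∀ b ∈ H1ur (localLevel (primeLocalToGlobal q)) (localInertia q)
        (Rep.res (primeLocalToGlobal q) (ad0' ρbar p)),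
      cupRes ρbar p (primeLocalToGlobal q) (localLevel (primeLocalToGlobal q)) a b = 0}
    add_mem' := fun {a a'} ha ha' b hb => by
      rw [map_add, LinearMap.add_apply, ha b hb, ha' b hb, add_zero]
    zero_mem' := fun b _ => by rw [map_zero, LinearMap.zero_apply]
    smul_mem' := fun c a ha b hb => by
      rw [map_smul, LinearMap.smul_apply, ha b hb, smul_zero] }

theorem mem_minCondQ {a : levelCohomology (localLevel (primeLocalToGlobal q))
    (Rep.res (primeLocalToGlobal q) (ad0 ρbar p)) 1} :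
    haveI := isDiscrete_res_mu p (primeLocalToGlobal q)
    a ∈ minCondQ ρbar p q ↔ ∀ b ∈ H1ur (localLevel (primeLocalToGlobal q)) (localInertia q)
        (Rep.res (primeLocalToGlobal q) (ad0' ρbar p)),
      cupRes ρbar p (primeLocalToGlobal q) (localLevel (primeLocalToGlobal q)) a b = 0 := Iff.rfl

/-- Unramified classes satisfy the minimal condition. -/
theorem H1ur_le_minCondQ :
    H1ur (localLevel (primeLocalToGlobal q)) (localInertia q)
      (Rep.res (primeLocalToGlobal q) (ad0 ρbar p)) ≤ minCondQ ρbar p q := by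
  have := isDiscrete_res_mu p (primeLocalToGlobal q)
  obtain ⟨φ, -, hd⟩ := exists_unramData q
  intro a ha b hb
  exact pairH_eq_zero_of_mem_H1ur (evalRes ρbar p (primeLocalToGlobal q))
    (evalRes_equivariant ρbar p (primeLocalToGlobal q)) hd (Fact.out : p.Prime).pos
    (ZMod.natCast_self p) ha hb

/-- **(E3), cocycle form, prime-indexed.** -/
theorem levelH1π_mem_minCondQ (h2 : (2 : k) ≠ 0) (hqp : (q : ℕ) ≠ p)
    (hunip : ∀ τ ∈ localInertia q,
      LinearMap.charpoly (ρbar.ρ (primeLocalToGlobal q τ)) = (Polynomial.X - 1) ^ 2)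
    (hram : ∃ τ ∈ localInertia q, ρbar.ρ (primeLocalToGlobal q τ) ≠ 1)
    (z : levelCocycles₁ (localLevel (primeLocalToGlobal q))
      (Rep.res (primeLocalToGlobal q) (ad0 ρbar p)))
    (htr : ∀ τ ∈ localInertia q, LinearMap.trace k ρbar.V
      (Ad0.toEnd ρbar p (z.1 τ) * ρbar.ρ (primeLocalToGlobal q τ)) = 0) :
    levelH1π (localLevel (primeLocalToGlobal q)) (Rep.res (primeLocalToGlobal q) (ad0 ρbar p)) z ∈
      minCondQ ρbar p q := by
  have := isDiscrete_res_mu p (primeLocalToGlobal q)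
  obtain ⟨φ, -, hd⟩ := exists_unramData q
  intro b hb
  exact pairH_eq_zero_of_unipotent ρbar p (primeLocalToGlobal q) _ h2 hd
    (cycloChar_localInertia p q hqp) hunip hram z htr hb

/-- **(E3), LIFT FORM** (the shape of helper14's `Tan/Selmer.TangentAt`): for a lift `ρA` of `ρ̄`
to `k[ε]` with matrix model `m` and cyclotomic determinant, unipotent on inertia at `q ≠ p`, where
`ρ̄` is ramified at `q`, the class of (the restriction to `G_q` of) the cocycle of `ρA` lies in
the minimal condition. -/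
theorem levelH1π_mem_minCondQ_of_lift (h2 : (2 : k) ≠ 0) (hpk : ((p : ℕ) : k) = 0)
    (hqp : (q : ℕ) ≠ p) (hram : ¬ ρbar.IsUnramifiedAt (q : ℕ))
    {ρA : GaloisRepAdic (DualNumber k)} (m : Model ρbar ρA) (hdetA : ρA.DetIsCyclotomic p)
    (hunip : ρA.IsUnipotentOnInertiaAt (q : ℕ))
    (z : levelCocycles₁ (localLevel (primeLocalToGlobal q))
      (Rep.res (primeLocalToGlobal q) (ad0 ρbar p)))
    (hz : ∀ τ, z.1 τ = m.cocycle p hpk hdetA (primeLocalToGlobal q τ)) :
    levelH1π (localLevel (primeLocalToGlobal q)) (Rep.res (primeLocalToGlobal q) (ad0 ρbar p)) z ∈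
      minCondQ ρbar p q := by
  obtain ⟨h1, h3⟩ := hunip_htr_of_isUnipotentOnInertiaAt p m hpk hdetA q hunip
  refine levelH1π_mem_minCondQ ρbar p q h2 hqp h1
    (exists_ne_one_of_not_isUnramifiedAt ρbar q hram) z fun τ hτ => ?_
  rw [hz τ]
  exact h3 τ hτ

end Prime

/-! ### Comparison with `Minimal.minCond`, and the dimension formula -/

section Compare

variable (S : Finset Nat.Primes)
  [IsDiscrete (globalLevel S) (ofChar (k := ZMod p) (cycloChar p))]
  [IsDiscrete (globalLevel S) (ad0 ρbar p)] [IsDiscrete (globalLevel S) (ad0' ρbar p)]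

/-- For `q ∈ S` the prime-indexed condition is the condition `Minimal.minCond` of the local data
`localData S` (whatever the discreteness instances). -/
theorem minCondQ_eq_minCond (q : Nat.Primes) (hq : q ∈ S)
    [hM : IsDiscrete (localLevel (primeLocalToGlobal q))
      (Rep.res (primeLocalToGlobal q) (ad0 ρbar p))]
    [hM' : IsDiscrete (localLevel (primeLocalToGlobal q))
      (Rep.res (primeLocalToGlobal q) (ad0' ρbar p))] :
    minCondQ ρbar p q = minCond ρbar p S (⟨q, hq⟩ : (localData S).ι) := rfl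

/-- **(E2) = `hdim_min`**: `dim L_q + h⁰(G_q, M') = h¹(G_q, M)` (`p` odd, `q ∈ S ∋ p`, and `M`, `M'`
discrete for `G_S`). -/
theorem finrank_minCondQ_add (hp2 : p ≠ 2) (hpS : pPrime p ∈ S) (q : Nat.Primes) (hq : q ∈ S)
    [hM : IsDiscrete (localLevel (primeLocalToGlobal q))
      (Rep.res (primeLocalToGlobal q) (ad0 ρbar p))]
    [hM' : IsDiscrete (localLevel (primeLocalToGlobal q))
      (Rep.res (primeLocalToGlobal q) (ad0' ρbar p))] :
    finrank (ZMod p) (minCondQ ρbar p q) +
        finrank (ZMod p) (levelCohomology (localLevel (primeLocalToGlobal q))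
          (Rep.res (primeLocalToGlobal q) (ad0' ρbar p)) 0) =
      finrank (ZMod p) (levelCohomology (localLevel (primeLocalToGlobal q))
        (Rep.res (primeLocalToGlobal q) (ad0 ρbar p)) 1) := by
  obtain ⟨tr, h⟩ := Fermat.Agent.S56.PT.Instance.exists_tr_ptHyp S hp2 hpS
  exact finrank_minCond_add ρbar p S tr h.loc (⟨q, hq⟩ : (localData S).ι)

/-- `hdim_min` in the inequality form consumed by `Asm/Bound`. -/
theorem finrank_minCondQ_add_le (hp2 : p ≠ 2) (hpS : pPrime p ∈ S) (q : Nat.Primes) (hq : q ∈ S)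
    [hM : IsDiscrete (localLevel (primeLocalToGlobal q))
      (Rep.res (primeLocalToGlobal q) (ad0 ρbar p))]
    [hM' : IsDiscrete (localLevel (primeLocalToGlobal q))
      (Rep.res (primeLocalToGlobal q) (ad0' ρbar p))] :
    finrank (ZMod p) (minCondQ ρbar p q) +
        finrank (ZMod p) (levelCohomology (localLevel (primeLocalToGlobal q))
          (Rep.res (primeLocalToGlobal q) (ad0' ρbar p)) 0) ≤
      finrank (ZMod p) (levelCohomology (localLevel (primeLocalToGlobal q))
        (Rep.res (primeLocalToGlobal q) (ad0 ρbar p)) 1) :=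
  (finrank_minCondQ_add ρbar p S hp2 hpS q hq).le

end Compare

end Fermat.Agent.S56.Loc.MinimalPrime
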