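/-
S56 / LOC, leaf E-SO, the local condition at `p` **without choices** (helper19), on top of
`S56/Loc/StrictOrdAt` (dc5311b), helper2's SO-RAM (`S56/Loc/CycloRamified`, 8d6a762) and
helper25's local duality package (`S56/Loc/EulerP/Additive.exists_monoDuality_local`).

For a prime `q` (to be instantiated at `q = pPrime p`), `r_q := primeLocalToGlobal q`,
`M := ad0 ρbar p`, `M' := ad0' ρbar p`:

* `soCond ρbar p q 𝒰 : Submodule (ZMod p) (levelCohomology 𝒰 (Rep.res r_q M) 1)` :
  `𝓛_so` for a strict-ordinary line of `ρ̄|G_q` if there is one, `⊥` otherwise;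
  `soCond_eq_Lso` : it is `Lso … b …` for EVERY strict-ordinary basis `b` (`det ρ̄` ramified at `q`);
* **`levelH1π_mem_soCond`** (lift form of the membership): for a lift `ρA` of `ρ̄` to `k[ε]` with a
  model `m`, cyclotomic determinant and `ρA.IsStrictOrdinaryAt p`, the class of any level cocycle
  `z` with `z τ = m.cocycle (r_q τ)` lies in `soCond`;
* **`finrank_soCond_add_le`** (`hdim_p`, UNCONDITIONAL in `ρ̄`): `dim soCond + h⁰(G_q, M') + 2d ≤
  h¹(G_q, M)` from the local Euler characteristic formula (`hLEC`, a named hypothesis), local duality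
  in mono form and finiteness of `H¹`; **`finrank_soCond_add_le_local`** : the same at
  `𝒰 = localLevel r_q` with duality and finiteness discharged (only `hLEC` remains).
-/
import Mathlib
import Fermat.Agent.S56.Loc.StrictOrdAt
import Fermat.Agent.S56.Loc.CycloRamified
import Fermat.Agent.S56.Loc.EulerP.Additive
import Fermat.Agent.S56.Ad.Ad0Dual

set_option autoImplicit false
set_option linter.unusedSectionVars false

namespace Fermat.Agent.S56.Loc.StrictOrdCond

open Module groupCohomology ExtCitation Fermat.Agent.S53 Fermat.Agent.S56.Ad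
  Fermat.Agent.S56.Loc.BorelCore Fermat.Agent.S56.Loc.StrictOrd Fermat.Agent.S56.Loc.StrictOrdMore
  Fermat.Agent.S56.Loc.StrictOrdAt Fermat.Agent.S56.Tan.Cocycle
  Fermat.Agent.S56.Places.Dict Fermat.Agent.S55.Level Fermat.Agent.S55.LevelDuality
  Fermat.Agent.S56.PT.LocalDuality

local notation "Qbar" => AlgebraicClosure ℚ
local notation "Γ" => (AlgebraicClosure ℚ ≃ₐ[ℚ] AlgebraicClosure ℚ)

/-! ### transport of `levelCohomology` along an equality of representations -/

section Congr

variable {F G : Type} [Field F] [Group G] (𝒰 : LevelStructure G)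

theorem finrank_levelCohomology_congr {X Y : Rep F G} (h : X = Y) [hX : IsDiscrete 𝒰 X]
    [hY : IsDiscrete 𝒰 Y] (n : ℕ) :
    finrank F (levelCohomology 𝒰 X n) = finrank F (levelCohomology 𝒰 Y n) := by
  subst h
  rfl

end Congr

variable {k : Type} [Field k] (ρbar : ResidualGaloisRep k) (p : ℕ) [Fact p.Prime]
  [Algebra (ZMod p) k] (q : Nat.Primes)
  (𝒰 : LevelStructure (primeLocalGaloisGroup q))
  [IsDiscrete 𝒰 (Mres ρbar p (primeLocalToGlobal q))]

open Classical in
/-- **the strict-ordinary local condition at `q`**: `𝓛_so` of a strict-ordinary line of `ρ̄|G_q`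
if there is one, and `⊥` otherwise. -/
noncomputable def soCond :
    Submodule (ZMod p) (levelCohomology 𝒰 (Mres ρbar p (primeLocalToGlobal q)) 1) :=
  if h : ∃ b : Basis (Fin 2) k ρbar.V, IsSOBasis ρbar q b then
    Lso ρbar p h.choose (primeLocalToGlobal q) h.choose_spec.1 𝒰
  else ⊥

theorem soCond_of_not (h : ¬ ∃ b : Basis (Fin 2) k ρbar.V, IsSOBasis ρbar q b) :
    soCond ρbar p q 𝒰 = ⊥ := by
  unfold soCond
  rw [dif_neg h]

variable {ρbar q}

/-- `soCond` is `𝓛_so` of ANY strict-ordinary basis, when `det ρ̄` is ramified at `q` -/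
theorem soCond_eq_Lso {b : Basis (Fin 2) k ρbar.V} (hb : IsSOBasis ρbar q b)
    (hram : ∃ σ ∈ (primeLocalPlace q).inertiaSubgroupIn ℚ, LinearMap.det (ρbar.ρ σ) ≠ 1) :
    soCond ρbar p q 𝒰 = Lso ρbar p b (primeLocalToGlobal q) hb.1 𝒰 := by
  have h : ∃ b : Basis (Fin 2) k ρbar.V, IsSOBasis ρbar q b := ⟨b, hb⟩
  unfold soCond
  rw [dif_pos h]
  exact IsSOBasis.Lso_eq h.choose_spec hb hram 𝒰

/-- without the ramification hypothesis: `soCond` is `𝓛_so` of SOME strict-ordinary basis -/
theorem exists_soCond_eq_Lso (h : ∃ b : Basis (Fin 2) k ρbar.V, IsSOBasis ρbar q b) :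
    ∃ (b : Basis (Fin 2) k ρbar.V) (hb : IsSOBasis ρbar q b),
      soCond ρbar p q 𝒰 = Lso ρbar p b (primeLocalToGlobal q) hb.1 𝒰 := by
  refine ⟨h.choose, h.choose_spec, ?_⟩
  unfold soCond
  rw [dif_pos h]

/-! ### the lift form of the membership -/

section Lift

variable {p}
variable {ρA : GaloisRepAdic (DualNumber k)} (m : Model ρbar ρA)
  (hpk : (p : k) = 0) (h2 : (2 : k) ≠ 0) (hdet : ρA.DetIsCyclotomic p)

include h2 in
/-- **lift form, with the ramification of `det ρ̄` as a hypothesis** -/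
theorem levelH1π_mem_soCond_of_ram (hq : (q : ℕ) = p) (hso : ρA.IsStrictOrdinaryAt p)
    (hram : ∃ σ ∈ (primeLocalPlace q).inertiaSubgroupIn ℚ, LinearMap.det (ρbar.ρ σ) ≠ 1)
    (z : levelCocycles₁ 𝒰 (Mres ρbar p (primeLocalToGlobal q)))
    (hz : ∀ τ, z.1 τ = m.cocycle p hpk hdet (primeLocalToGlobal q τ)) :
    levelH1π 𝒰 (Mres ρbar p (primeLocalToGlobal q)) z ∈ soCond ρbar p q 𝒰 := by
  obtain ⟨b, hb⟩ := exists_isSOBasis_of_isStrictOrdinaryAt (q := q) m hpk h2 hdet hq hso
  rw [soCond_eq_Lso p 𝒰 hb hram]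
  exact levelH1π_mem_Lso_of_isStrictOrdinaryAt m hpk h2 hdet hq hso hb hram 𝒰 z hz

include h2 in
/-- **lift form of the membership (E-SO, consumer shape (C))**: `ρA` a lift of `ρ̄` to `k[ε]` with
model `m`, cyclotomic determinant, strict-ordinary at `p`; `det ρ̄` the mod-`p` cyclotomic character
and `p` odd (so that `det ρ̄` is ramified at `p`, SO-RAM).  Then the class of any level cocycle `z`
of `G_q` (`q = p`) with `z τ = m.cocycle (r_q τ)` lies in `soCond`. -/
theorem levelH1π_mem_soCond (hp2 : p ≠ 2)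
    (hdetbar : (GaloisRepAdic.ofResidualGaloisRep ρbar).DetIsCyclotomic p)
    (hq : (q : ℕ) = p) (hso : ρA.IsStrictOrdinaryAt p)
    (z : levelCocycles₁ 𝒰 (Mres ρbar p (primeLocalToGlobal q)))
    (hz : ∀ τ, z.1 τ = m.cocycle p hpk hdet (primeLocalToGlobal q τ)) :
    levelH1π 𝒰 (Mres ρbar p (primeLocalToGlobal q)) z ∈ soCond ρbar p q 𝒰 := by
  have hP : (primeLocalPlace q).LiesOverPrime p := hq ▸ liesOverPrime_primeLocalPlace q
  have hram := Fermat.Agent.S56.Loc.CycloRamified.exists_mem_inertia_det_ne_one p hp2 ρbar hdetbar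
    (primeLocalPlace q) hP
  exact levelH1π_mem_soCond_of_ram 𝒰 m hpk h2 hdet hq hso hram z hz

end Lift

/-! ### the dimension bound `hdim_p` -/

section Dim

variable [Module.Finite (ZMod p) k]

/-- **`hdim_p`, unconditional in `ρ̄`**: `dim soCond + h⁰(G_q, (ad⁰ρ̄)') + 2d ≤ h¹(G_q, ad⁰ρ̄)`, from
the local Euler characteristic formula (`hLEC`, named hypothesis), local duality in mono form and
finiteness of `H¹`.  (If there is no strict-ordinary line, `soCond = ⊥` and the bound is
`h⁰(M') + 2d ≤ 3d + h⁰(M) + h²(M)` with `h²(M) = h⁰(M')`.) -/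
theorem finrank_soCond_add_le (h2 : (2 : k) ≠ 0)
    [IsDiscrete 𝒰 (ofChar (k := ZMod p) ((cycloChar p).comp (primeLocalToGlobal q)))]
    (t : levelCohomology 𝒰 (ofChar (k := ZMod p) ((cycloChar p).comp (primeLocalToGlobal q))) 2
      →ₗ[ZMod p] ZMod p)
    (hΨ : MonoDuality 𝒰 ((cycloChar p).comp (primeLocalToGlobal q)) t)
    (hfin : FiniteH1 (k := ZMod p) 𝒰)
    (hLEC : ∀ (Y : Rep (ZMod p) (primeLocalGaloisGroup q)) [IsDiscrete 𝒰 Y]
      [FiniteDimensional (ZMod p) Y],
      finrank (ZMod p) (levelCohomology 𝒰 Y 1)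
        = finrank (ZMod p) Y + finrank (ZMod p) (levelCohomology 𝒰 Y 0)
          + finrank (ZMod p) (levelCohomology 𝒰 Y 2))
    [IsDiscrete 𝒰 (Rep.res (primeLocalToGlobal q) (ad0' ρbar p))] :
    finrank (ZMod p) ↥(soCond ρbar p q 𝒰)
        + finrank (ZMod p) (levelCohomology 𝒰 (Rep.res (primeLocalToGlobal q) (ad0' ρbar p)) 0)
        + 2 * finrank (ZMod p) k
      ≤ finrank (ZMod p) (levelCohomology 𝒰 (Rep.res (primeLocalToGlobal q) (ad0 ρbar p)) 1) := by
  have hd : IsDiscrete 𝒰
      ((Mres ρbar p (primeLocalToGlobal q)).dualTwist ((cycloChar p).comp (primeLocalToGlobal q))) :=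
    isDiscrete_dualTwist 𝒰 _ _
  have hres : finrank (ZMod p)
        (levelCohomology 𝒰 (Rep.res (primeLocalToGlobal q) (ad0' ρbar p)) 0)
      = finrank (ZMod p) (levelCohomology 𝒰
          ((Mres ρbar p (primeLocalToGlobal q)).dualTwist
            ((cycloChar p).comp (primeLocalToGlobal q))) 0) :=
    finrank_levelCohomology_congr 𝒰
      (Fermat.Agent.S55.DualTwist.res_dualTwist (cycloChar p) (ad0 ρbar p) (primeLocalToGlobal q)) 0
  rw [hres]
  by_cases h : ∃ b : Basis (Fin 2) k ρbar.V, IsSOBasis ρbar q b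
  · obtain ⟨b, hb, hbe⟩ := exists_soCond_eq_Lso p 𝒰 h
    rw [hbe]
    exact finrank_Lso_add_le_h1' ρbar p b (primeLocalToGlobal q) hb.1 𝒰 h2 _ t hΨ hfin hLEC
  · rw [soCond_of_not ρbar p q 𝒰 h, finrank_bot, zero_add,
      ← finrank_two_eq_zero hΨ (Mres ρbar p (primeLocalToGlobal q))]
    have hLM := hLEC (Mres ρbar p (primeLocalToGlobal q))
    have hdM : finrank (ZMod p) (Mres ρbar p (primeLocalToGlobal q)) = finrank (ZMod p) k * 3 :=
      finrank_ad0 ρbar p h2
    rw [hdM] at hLM
    show finrank (ZMod p) (levelCohomology 𝒰 (Mres ρbar p (primeLocalToGlobal q)) 2)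
        + 2 * finrank (ZMod p) k
      ≤ finrank (ZMod p) (levelCohomology 𝒰 (Mres ρbar p (primeLocalToGlobal q)) 1)
    omega

/-- **`hdim_p` at the local level structure `localLevel r_q`** (consumer shape (B) of
`Asm/Bound`): local duality and finiteness of `H¹` discharged by helper25's
`exists_monoDuality_local`; only the local Euler characteristic formula `hLEC` remains. -/
theorem finrank_soCond_add_le_local (hp2 : p ≠ 2) (h2 : (2 : k) ≠ 0)
    [IsDiscrete (localLevel (primeLocalToGlobal q)) (Rep.res (primeLocalToGlobal q) (ad0 ρbar p))]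
    [IsDiscrete (localLevel (primeLocalToGlobal q)) (Rep.res (primeLocalToGlobal q) (ad0' ρbar p))]
    (hLEC : ∀ (Y : Rep (ZMod p) (primeLocalGaloisGroup q))
      [IsDiscrete (localLevel (primeLocalToGlobal q)) Y] [FiniteDimensional (ZMod p) Y],
      finrank (ZMod p) (levelCohomology (localLevel (primeLocalToGlobal q)) Y 1)
        = finrank (ZMod p) Y + finrank (ZMod p) (levelCohomology (localLevel (primeLocalToGlobal q)) Y 0)
          + finrank (ZMod p) (levelCohomology (localLevel (primeLocalToGlobal q)) Y 2)) :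
    finrank (ZMod p) ↥(soCond ρbar p q (localLevel (primeLocalToGlobal q)))
        + finrank (ZMod p) (levelCohomology (localLevel (primeLocalToGlobal q))
            (Rep.res (primeLocalToGlobal q) (ad0' ρbar p)) 0)
        + 2 * finrank (ZMod p) k
      ≤ finrank (ZMod p) (levelCohomology (localLevel (primeLocalToGlobal q))
          (Rep.res (primeLocalToGlobal q) (ad0 ρbar p)) 1) := by
  obtain ⟨_, t, hΨ, hfin⟩ :=
    Fermat.Agent.S56.Loc.EulerP.Additive.exists_monoDuality_local (p := p) hp2 q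
  exact finrank_soCond_add_le p (localLevel (primeLocalToGlobal q)) h2 t hΨ hfin hLEC

end Dim

end Fermat.Agent.S56.Loc.StrictOrdCond
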