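/-
S56 / LOC, leaf E-SO / E-ECp core (helper19; dispatch v2.1 of helper10): **the Borel filtration of
`ad⁰ρ̄` for an upper-triangular `ρ̄|G`** (`r : G →* Γ` any group hom whose image stabilises the line
`L̄ = k·b₀ ⊂ ρ̄.V`, `b` a basis of `ρ̄.V`; think `G = G_p`, `ρ̄|G_p = (χ₁ ∗; 0 χ₂)`).

* Part 0 (generic): `subSeq A W h : ShortComplex (Rep k G)` = `0 → W → A → A/W → 0` for a stable
  submodule, `subSeq_shortExact`.
* Part 1 (Mathlib only): `ent b i j : End_k V →ₗ[k] k` matrix coefficients, `IsUT b g` (`g₁₀ = 0`,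
  `isUT_iff_mem_span`, `isUT_iff_forall` : `g` stabilises `k·b₀`), `IsUT.apply_sub_mem`, conjugation
  formulas `ent10_conj`, `ent00_conj`, `ent01_conj`.
* Part 2: `coef ρbar p b i j : Ad0 ρbar p →ₗ[k] k`, `ofCoef a b' c` (= matrix `(a, b'; c, -a)`),
  `W1 = ker coef₁₀` (`mem_W1_iff` : `x` stabilises `L̄`), `W0 = ker coef₁₀ ⊓ ker coef₀₀`
  (`mem_W0_iff` : `x L̄ = 0`, `x V̄ ⊆ L̄`, i.e. `W₀ = Hom(V̄/L̄, L̄)`), `W0_le_W1`.
* Part 3: `hT : ∀ g, IsUT b (ρbar.ρ (r g))`.  `chi1 chi2 : G →* kˣ` with `chi1_spec`, `chi2_spec`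
  (the `x`, `z` of the frozen strict-ordinary clause: `eq_chi1_of`, `eq_chi2_of`), `chi1_mul_chi2`
  (`= det`); **`coef10_ρ` : `(g·x)₁₀ = (χ₂/χ₁)(g) x₁₀`; `coef00_ρ` : `(g·x)₀₀ = x₀₀` on `W₁`;
  `coef01_ρ` : `(g·x)₀₁ = (χ₁/χ₂)(g) x₀₁` on `W₀`**; `ρ_mem_W1`, `ρ_mem_W0`, `ρ_sub_mem_W0`.
* Part 4: `kChar p φ : Rep (ZMod p) G` (`k` with `G` acting through `φ : G →* kˣ`),
  `Mres = Rep.res r (ad0 ρbar p)`, `W1Rep`, `W0Rep`, `Q0Rep = Mres/W₀`, and the short exact sequences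
  **`seqA : 0 → W₁ → ad⁰ρ̄|G → k(χ₂/χ₁) → 0`**, **`seqB : 0 → k(χ₁/χ₂) → W₁ → k → 0`**,
  **`seqC : 0 → k(χ₁/χ₂) → ad⁰ρ̄|G → ad⁰ρ̄/W₀ → 0`** (`incl01M`, E-SO: `W = W₀ ≅ k(χ₁/χ₂)`),
  `seqW0`, `isoW0 : W0Rep ≅ k(χ₁/χ₂)`, **`incl00Q : k ⟶ ad⁰ρ̄/W₀` injective** (`k = W₁/W₀` inside the
  invariants of `ad⁰ρ̄/W₀`), `mem_range_incl01M_iff`, `incl01M_coef01`; finiteness instances and
  discreteness of all terms for a level structure for which `Mres` is discrete.
-/
import Mathlib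
import Fermat.Agent.S55.CF.Kummer
import Fermat.Agent.S55.DevissageRep
import Fermat.Agent.S56.Ad.Ad0

set_option autoImplicit false
set_option linter.unusedSectionVars false

namespace Fermat.Agent.S56.Loc.BorelCore

open Module CategoryTheory

universe u

/-! ### Part 0: the short exact sequence of a stable submodule -/

section Generic

variable {k G : Type u} [CommRing k] [Group G] (A : Rep.{u} k G) (W : Submodule k A)
  (h : ∀ g, W ≤ W.comap (A.ρ g))

/-- the short complex `0 → W → A → A/W → 0` of a stable submodule -/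
noncomputable def subSeq : ShortComplex (Rep.{u} k G) where
  X₁ := A.subrepresentation W h
  X₂ := A
  X₃ := A.quotient W h
  f := Rep.subtype A W h
  g := Rep.mkQ A W h
  zero := by
    ext x
    exact (Submodule.Quotient.mk_eq_zero _).2 (show W from x).2

theorem subSeq_shortExact : (subSeq A W h).ShortExact := by
  refine Fermat.Agent.S55.CF.rep_shortExact_of _ ?_ ?_ ?_
  · intro x y hxy
    exact Subtype.ext hxy
  · exact Submodule.mkQ_surjective _
  · intro b hb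
    exact ⟨⟨b, (Submodule.Quotient.mk_eq_zero _).1 hb⟩, rfl⟩

end Generic

/-! ### Part 1: `2 × 2` matrix coefficients in a basis -/

section LinAlg

variable {k V : Type*} [Field k] [AddCommGroup V] [Module k V] (b : Basis (Fin 2) k V)

/-- the `(i, j)` matrix coefficient in the basis `b`, as a linear form on `End_k V` -/
noncomputable def ent (i j : Fin 2) : Module.End k V →ₗ[k] k where
  toFun x := LinearMap.toMatrixAlgEquiv b x i j
  map_add' x y := by rw [map_add]; rfl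
  map_smul' a x := by rw [map_smul]; rfl

theorem ent_def (i j : Fin 2) (x : Module.End k V) :
    ent b i j x = LinearMap.toMatrixAlgEquiv b x i j := rfl

theorem ent_apply (i j : Fin 2) (x : Module.End k V) : ent b i j x = b.repr (x (b j)) i := by
  rw [ent_def, LinearMap.toMatrixAlgEquiv_apply]

theorem ent_mul (x y : Module.End k V) (i j : Fin 2) :
    ent b i j (x * y) = ent b i 0 x * ent b 0 j y + ent b i 1 x * ent b 1 j y := by
  simp only [ent_def, map_mul, Matrix.mul_apply, Fin.sum_univ_two]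

theorem ent_one (i j : Fin 2) : ent b i j (1 : Module.End k V) = if i = j then 1 else 0 := by
  rw [ent_def, map_one, Matrix.one_apply]

theorem end_ext {x y : Module.End k V} (h : ∀ i j, ent b i j x = ent b i j y) : x = y := by
  apply (LinearMap.toMatrixAlgEquiv b).injective
  ext i j
  exact h i j

theorem trace_eq_ent (x : Module.End k V) :
    LinearMap.trace k V x = ent b 0 0 x + ent b 1 1 x := by
  rw [LinearMap.trace_eq_matrix_trace k b x, Matrix.trace_fin_two]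
  rfl

theorem apply_basis (x : Module.End k V) (j : Fin 2) :
    x (b j) = ent b 0 j x • b 0 + ent b 1 j x • b 1 := by
  conv_lhs => rw [← b.sum_repr (x (b j))]
  rw [Fin.sum_univ_two, ent_apply, ent_apply]

/-- `ent (f.symm M) = M` -/
theorem ent_symm (M : Matrix (Fin 2) (Fin 2) k) (i j : Fin 2) :
    ent b i j ((LinearMap.toMatrixAlgEquiv b).symm M) = M i j := by
  rw [ent_def, AlgEquiv.apply_symm_apply]

/-- `g` is upper triangular in the basis `b`, i.e. stabilises the line `k·b₀` -/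
def IsUT (g : Module.End k V) : Prop := ent b 1 0 g = 0

theorem isUT_iff_apply_eq {g : Module.End k V} : IsUT b g ↔ g (b 0) = ent b 0 0 g • b 0 := by
  unfold IsUT
  constructor
  · intro h
    rw [apply_basis b g 0, h, zero_smul, add_zero]
  · intro h
    rw [ent_apply, h, map_smul, b.repr_self]
    simp

theorem isUT_iff_mem_span {g : Module.End k V} :
    IsUT b g ↔ g (b 0) ∈ Submodule.span k {b 0} := by
  constructor
  · intro h
    rw [(isUT_iff_apply_eq b).mp h]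
    exact Submodule.smul_mem _ _ (Submodule.mem_span_singleton_self _)
  · intro h
    obtain ⟨a, ha⟩ := Submodule.mem_span_singleton.mp h
    unfold IsUT
    rw [ent_apply, ← ha, map_smul, b.repr_self]
    simp

theorem isUT_iff_forall {g : Module.End k V} :
    IsUT b g ↔ ∀ v ∈ Submodule.span k {b 0}, g v ∈ Submodule.span k {b 0} := by
  rw [isUT_iff_mem_span]
  constructor
  · intro h v hv
    obtain ⟨a, rfl⟩ := Submodule.mem_span_singleton.mp hv
    rw [map_smul]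
    exact Submodule.smul_mem _ _ h
  · intro h
    exact h _ (Submodule.mem_span_singleton_self _)

/-- for `g` upper triangular: `g v ≡ g₁₁ v` modulo the line -/
theorem IsUT.apply_sub_mem {g : Module.End k V} (hg : IsUT b g) (v : V) :
    g v - ent b 1 1 g • v ∈ Submodule.span k {b 0} := by
  have hv : v = b.repr v 0 • b 0 + b.repr v 1 • b 1 := by
    conv_lhs => rw [← b.sum_repr v]
    rw [Fin.sum_univ_two]
  have h0 := (isUT_iff_apply_eq b).mp hg
  have h1 := apply_basis b g 1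
  have : g v - ent b 1 1 g • v
      = (b.repr v 0 * ent b 0 0 g + b.repr v 1 * ent b 0 1 g - ent b 1 1 g * b.repr v 0) • b 0 := by
    conv_lhs => rw [hv]
    rw [map_add, map_smul, map_smul, h0, h1]
    simp only [smul_add, smul_smul, sub_smul, add_smul]
    rw [mul_comm (ent b 1 1 g) (b.repr v 1)]
    abel
  rw [this]
  exact Submodule.smul_mem _ _ (Submodule.mem_span_singleton_self _)

variable {b}

/-- `(g g')₀₀ = g₀₀ g'₀₀` for `g'` upper triangular -/
theorem ent00_mul {g g' : Module.End k V} (hg' : IsUT b g') :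
    ent b 0 0 (g * g') = ent b 0 0 g * ent b 0 0 g' := by
  rw [ent_mul, show ent b 1 0 g' = 0 from hg', mul_zero, add_zero]

/-- `(g g')₁₁ = g₁₁ g'₁₁` for `g` upper triangular -/
theorem ent11_mul {g g' : Module.End k V} (hg : IsUT b g) :
    ent b 1 1 (g * g') = ent b 1 1 g * ent b 1 1 g' := by
  rw [ent_mul, show ent b 1 0 g = 0 from hg, zero_mul, zero_add]

/-- the lower left coefficient of a conjugate by an upper triangular element -/
theorem ent10_conj {g g' : Module.End k V} (hg : IsUT b g) (hg' : IsUT b g')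
    (x : Module.End k V) :
    ent b 1 0 (g * x * g') = ent b 1 1 g * ent b 1 0 x * ent b 0 0 g' := by
  rw [ent_mul, ent_mul b g x, ent_mul b g x, show ent b 1 0 g = 0 from hg,
    show ent b 1 0 g' = 0 from hg']
  ring

/-- the upper left coefficient of a conjugate of an upper triangular element -/
theorem ent00_conj {g g' : Module.End k V} (hg' : IsUT b g') (h00 : ent b 0 0 g * ent b 0 0 g' = 1)
    {x : Module.End k V} (hx : ent b 1 0 x = 0) :
    ent b 0 0 (g * x * g') = ent b 0 0 x := by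
  rw [ent_mul, ent_mul b g x, show ent b 1 0 g' = 0 from hg', hx]
  linear_combination (ent b 0 0 x) * h00

/-- the upper right coefficient of a conjugate of a strictly upper triangular element -/
theorem ent01_conj {g g' : Module.End k V}
    {x : Module.End k V} (hx10 : ent b 1 0 x = 0) (hx00 : ent b 0 0 x = 0)
    (hx11 : ent b 1 1 x = 0) :
    ent b 0 1 (g * x * g') = ent b 0 0 g * ent b 0 1 x * ent b 1 1 g' := by
  rw [ent_mul, ent_mul b g x, ent_mul b g x, hx10, hx00, hx11]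
  ring

end LinAlg

/-! ### Part 2: the filtration `0 ⊂ W₀ ⊂ W₁ ⊂ ad⁰ρ̄` attached to a basis `b` (line `L̄ = k·b₀`) -/

section Filtration

open Fermat.Agent.S56.Ad

local notation "Γ" => (AlgebraicClosure ℚ ≃ₐ[ℚ] AlgebraicClosure ℚ)

variable {k : Type} [Field k] (ρbar : ResidualGaloisRep k) (p : ℕ) [Fact p.Prime]
  [Algebra (ZMod p) k] (b : Basis (Fin 2) k ρbar.V)

/-- the `(i, j)` coefficient of an element of `ad⁰ρ̄`, a `k`-linear form -/
noncomputable def coef (i j : Fin 2) : Ad0 ρbar p →ₗ[k] k := (ent b i j).comp (Ad0.toEndₗ ρbar p)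

theorem coef_apply (i j : Fin 2) (x : Ad0 ρbar p) :
    coef ρbar p b i j x = ent b i j (Ad0.toEnd ρbar p x) := rfl

/-- trace zero: `x₁₁ = - x₀₀` -/
theorem coef11 (x : Ad0 ρbar p) : coef ρbar p b 1 1 x = - coef ρbar p b 0 0 x := by
  have h := Ad0.trace_toEnd ρbar p x
  rw [trace_eq_ent b] at h
  rw [coef_apply, coef_apply]
  exact eq_neg_of_add_eq_zero_right h

theorem ad0_ext {x y : Ad0 ρbar p} (h00 : coef ρbar p b 0 0 x = coef ρbar p b 0 0 y)
    (h01 : coef ρbar p b 0 1 x = coef ρbar p b 0 1 y)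
    (h10 : coef ρbar p b 1 0 x = coef ρbar p b 1 0 y) : x = y := by
  apply Ad0.ext ρbar p
  apply end_ext b
  intro i j
  fin_cases i <;> fin_cases j
  · exact h00
  · exact h01
  · exact h10
  · show coef ρbar p b 1 1 x = coef ρbar p b 1 1 y
    rw [coef11, coef11, h00]

/-- the element of `ad⁰ρ̄` with matrix `(a, b'; c, -a)` -/
noncomputable def ofCoef (a b' c : k) : Ad0 ρbar p :=
  Ad0.mk ρbar p ((LinearMap.toMatrixAlgEquiv b).symm !![a, b'; c, -a]) (by
    rw [trace_eq_ent b, ent_symm, ent_symm]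
    simp)

theorem coef_ofCoef (a b' c : k) (i j : Fin 2) :
    coef ρbar p b i j (ofCoef ρbar p b a b' c) = (!![a, b'; c, -a] : Matrix _ _ k) i j := by
  rw [coef_apply]
  unfold ofCoef
  rw [Ad0.toEnd_mk, ent_symm]

@[simp] theorem coef00_ofCoef (a b' c : k) : coef ρbar p b 0 0 (ofCoef ρbar p b a b' c) = a := by
  rw [coef_ofCoef]; rfl

@[simp] theorem coef01_ofCoef (a b' c : k) : coef ρbar p b 0 1 (ofCoef ρbar p b a b' c) = b' := by
  rw [coef_ofCoef]; rfl

@[simp] theorem coef10_ofCoef (a b' c : k) : coef ρbar p b 1 0 (ofCoef ρbar p b a b' c) = c := by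
  rw [coef_ofCoef]; rfl

/-- `W₁ = ad⁰ρ̄ ∩ Borel`: the trace-zero endomorphisms stabilising the line `k·b₀` -/
noncomputable def W1 : Submodule k (Ad0 ρbar p) := LinearMap.ker (coef ρbar p b 1 0)

/-- `W₀ = Hom(V̄/L̄, L̄)`: the endomorphisms killing the line `L̄ = k·b₀` with image in `L̄` -/
noncomputable def W0 : Submodule k (Ad0 ρbar p) :=
  LinearMap.ker (coef ρbar p b 1 0) ⊓ LinearMap.ker (coef ρbar p b 0 0)

theorem mem_W1 {x : Ad0 ρbar p} : x ∈ W1 ρbar p b ↔ coef ρbar p b 1 0 x = 0 := LinearMap.mem_ker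

theorem mem_W0 {x : Ad0 ρbar p} :
    x ∈ W0 ρbar p b ↔ coef ρbar p b 1 0 x = 0 ∧ coef ρbar p b 0 0 x = 0 := by
  unfold W0
  rw [Submodule.mem_inf, LinearMap.mem_ker, LinearMap.mem_ker]

theorem W0_le_W1 : W0 ρbar p b ≤ W1 ρbar p b := inf_le_left

/-- coordinate-free description of `W₁` -/
theorem mem_W1_iff {x : Ad0 ρbar p} :
    x ∈ W1 ρbar p b ↔
      ∀ v ∈ Submodule.span k {b 0}, Ad0.toEnd ρbar p x v ∈ Submodule.span k {b 0} := by
  rw [mem_W1, coef_apply]
  exact isUT_iff_forall b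

/-- coordinate-free description of `W₀`: `x` kills `L̄` and maps `V̄` into `L̄` -/
theorem mem_W0_iff {x : Ad0 ρbar p} :
    x ∈ W0 ρbar p b ↔ Ad0.toEnd ρbar p x (b 0) = 0 ∧
      ∀ v, Ad0.toEnd ρbar p x v ∈ Submodule.span k {b 0} := by
  rw [mem_W0]
  constructor
  · rintro ⟨h10, h00⟩
    have hUT : IsUT b (Ad0.toEnd ρbar p x) := h10
    have h11 : ent b 1 1 (Ad0.toEnd ρbar p x) = 0 := by
      have := coef11 ρbar p b x
      rw [h00, neg_zero] at this
      exact this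
    refine ⟨?_, fun v => ?_⟩
    · rw [(isUT_iff_apply_eq b).mp hUT]
      rw [coef_apply] at h00
      rw [h00, zero_smul]
    · have := hUT.apply_sub_mem b v
      rwa [h11, zero_smul, sub_zero] at this
  · rintro ⟨h0, hv⟩
    have h10 : coef ρbar p b 1 0 x = 0 := by
      rw [coef_apply, ent_apply, h0, LinearEquiv.map_zero]
      rfl
    have h00 : coef ρbar p b 0 0 x = 0 := by
      rw [coef_apply, ent_apply, h0, LinearEquiv.map_zero]
      rfl
    exact ⟨h10, h00⟩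

/-- an element of `W₀` is determined by its upper right coefficient -/
theorem eq_zero_of_mem_W0 {x : Ad0 ρbar p} (hx : x ∈ W0 ρbar p b)
    (h01 : coef ρbar p b 0 1 x = 0) : x = 0 := by
  obtain ⟨h10, h00⟩ := (mem_W0 ρbar p b).mp hx
  apply ad0_ext ρbar p b
  · rw [h00, map_zero]
  · rw [h01, map_zero]
  · rw [h10, map_zero]

theorem ofCoef_mem_W1 (a b' : k) : ofCoef ρbar p b a b' 0 ∈ W1 ρbar p b := by
  rw [mem_W1, coef10_ofCoef]

theorem ofCoef_mem_W0 (b' : k) : ofCoef ρbar p b 0 b' 0 ∈ W0 ρbar p b := by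
  rw [mem_W0, coef10_ofCoef, coef00_ofCoef]
  exact ⟨rfl, rfl⟩

end Filtration

/-! ### Part 3: the action of a group stabilising the line -/

section Action

open Fermat.Agent.S56.Ad

local notation "Γ" => (AlgebraicClosure ℚ ≃ₐ[ℚ] AlgebraicClosure ℚ)

variable {k : Type} [Field k] (ρbar : ResidualGaloisRep k) (p : ℕ) [Fact p.Prime]
  [Algebra (ZMod p) k] (b : Basis (Fin 2) k ρbar.V)
  {G : Type} [Group G] (r : G →* Γ) (hT : ∀ g : G, IsUT b (ρbar.ρ (r g)))

/-- the character by which `G` acts on the line `L̄ = k·b₀`, as a monoid hom to `k` -/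
noncomputable def chi1Hom : G →* k where
  toFun g := ent b 0 0 (ρbar.ρ (r g))
  map_one' := by rw [map_one, map_one, ent_one]; rfl
  map_mul' g h := by rw [map_mul, map_mul, ent00_mul (hT h)]

/-- the character by which `G` acts on `V̄/L̄`, as a monoid hom to `k` -/
noncomputable def chi2Hom : G →* k where
  toFun g := ent b 1 1 (ρbar.ρ (r g))
  map_one' := by rw [map_one, map_one, ent_one]; rfl
  map_mul' g h := by rw [map_mul, map_mul, ent11_mul (hT g)]

/-- **`χ₁ : G → kˣ`**, the character of `G` on the stable line `L̄ = k·b₀` -/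
noncomputable def chi1 : G →* kˣ := (chi1Hom ρbar b r hT).toHomUnits

/-- **`χ₂ : G → kˣ`**, the character of `G` on the quotient `V̄/L̄` -/
noncomputable def chi2 : G →* kˣ := (chi2Hom ρbar b r hT).toHomUnits

theorem coe_chi1 (g : G) : ((chi1 ρbar b r hT g : kˣ) : k) = ent b 0 0 (ρbar.ρ (r g)) := rfl

theorem coe_chi2 (g : G) : ((chi2 ρbar b r hT g : kˣ) : k) = ent b 1 1 (ρbar.ρ (r g)) := rfl

/-- `ρ̄(g) b₀ = χ₁(g) b₀` -/
theorem chi1_spec (g : G) : ρbar.ρ (r g) (b 0) = ((chi1 ρbar b r hT g : kˣ) : k) • b 0 :=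
  (isUT_iff_apply_eq b).mp (hT g)

/-- `ρ̄(g) w = χ₁(g) w` on the line -/
theorem chi1_spec' (g : G) {w : ρbar.V} (hw : w ∈ Submodule.span k {b 0}) :
    ρbar.ρ (r g) w = ((chi1 ρbar b r hT g : kˣ) : k) • w := by
  obtain ⟨a, rfl⟩ := Submodule.mem_span_singleton.mp hw
  rw [map_smul, chi1_spec ρbar b r hT g, smul_comm]

/-- `ρ̄(g) v ≡ χ₂(g) v` modulo the line -/
theorem chi2_spec (g : G) (v : ρbar.V) :
    ρbar.ρ (r g) v - ((chi2 ρbar b r hT g : kˣ) : k) • v ∈ Submodule.span k {b 0} :=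
  (hT g).apply_sub_mem b v

/-- uniqueness of `χ₁` (the `x` of the frozen strict-ordinary clause) -/
theorem eq_chi1_of (g : G) {x : k} (hx : ∀ w ∈ Submodule.span k {b 0}, ρbar.ρ (r g) w = x • w) :
    x = ((chi1 ρbar b r hT g : kˣ) : k) := by
  have h := hx (b 0) (Submodule.mem_span_singleton_self _)
  rw [chi1_spec ρbar b r hT g] at h
  have h2 := congrArg (fun v => b.repr v 0) h
  simp only [map_smul, b.repr_self, Finsupp.smul_apply, Finsupp.single_eq_same, smul_eq_mul,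
    mul_one] at h2
  exact h2.symm

/-- uniqueness of `χ₂` (the `z` of the frozen strict-ordinary clause) -/
theorem eq_chi2_of (g : G) {z : k}
    (hz : ∀ v : ρbar.V, ρbar.ρ (r g) v - z • v ∈ Submodule.span k {b 0}) :
    z = ((chi2 ρbar b r hT g : kˣ) : k) := by
  have h1 := hz (b 1)
  have h2 := chi2_spec ρbar b r hT g (b 1)
  have h3 := Submodule.sub_mem _ h2 h1
  have h4 : ρbar.ρ (r g) (b 1) - ((chi2 ρbar b r hT g : kˣ) : k) • b 1 - (ρbar.ρ (r g) (b 1) - z • b 1)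
      = (z - ((chi2 ρbar b r hT g : kˣ) : k)) • b 1 := by
    rw [sub_smul]; abel
  rw [h4] at h3
  obtain ⟨a, ha⟩ := Submodule.mem_span_singleton.mp h3
  have h5 := congrArg (fun v => b.repr v 1) ha
  simp only [map_smul, b.repr_self, Finsupp.smul_apply, smul_eq_mul] at h5
  rw [Finsupp.single_eq_of_ne (by decide), Finsupp.single_eq_same, mul_zero, mul_one] at h5
  exact sub_eq_zero.mp h5.symm

/-- `χ₁ χ₂ = det ρ̄` -/
theorem chi1_mul_chi2 (g : G) :
    ((chi1 ρbar b r hT g : kˣ) : k) * ((chi2 ρbar b r hT g : kˣ) : k)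
      = LinearMap.det (ρbar.ρ (r g)) := by
  rw [← LinearMap.det_toMatrix b, Matrix.det_fin_two, coe_chi1, coe_chi2]
  have h10 : LinearMap.toMatrix b b (ρbar.ρ (r g)) 1 0 = 0 := hT g
  rw [h10, mul_zero, sub_zero]
  rfl

include hT in
theorem ent00_inv (g : G) :
    ent b 0 0 (ρbar.ρ (r g)) * ent b 0 0 (ρbar.ρ (r g)⁻¹) = 1 := by
  rw [← map_inv, ← ent00_mul (hT g⁻¹), ← map_mul, ← map_mul, mul_inv_cancel, map_one, map_one,
    ent_one]
  rfl

theorem coe_chi1_inv (g : G) :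
    (((chi1 ρbar b r hT g)⁻¹ : kˣ) : k) = ent b 0 0 (ρbar.ρ (r g)⁻¹) := by
  rw [← map_inv, coe_chi1, map_inv]

theorem coe_chi2_inv (g : G) :
    (((chi2 ρbar b r hT g)⁻¹ : kˣ) : k) = ent b 1 1 (ρbar.ρ (r g)⁻¹) := by
  rw [← map_inv, coe_chi2, map_inv]

/-- **the action on `ad⁰/W₁`**: `(g·x)₁₀ = (χ₂/χ₁)(g) x₁₀` -/
theorem coef10_ρ (g : G) (x : Ad0 ρbar p) :
    coef ρbar p b 1 0 ((ad0 ρbar p).ρ (r g) x)
      = ((chi2 ρbar b r hT g * (chi1 ρbar b r hT g)⁻¹ : kˣ) : k) * coef ρbar p b 1 0 x := by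
  have hg' : IsUT b (ρbar.ρ (r g)⁻¹) := by rw [← map_inv]; exact hT g⁻¹
  rw [coef_apply, toEnd_ρ, ent10_conj (hT g) hg', Units.val_mul, coe_chi2, coe_chi1_inv,
    coef_apply]
  ring

include hT in
/-- **the action on `W₁/W₀`** is trivial: `(g·x)₀₀ = x₀₀` for `x ∈ W₁` -/
theorem coef00_ρ (g : G) {x : Ad0 ρbar p} (hx : x ∈ W1 ρbar p b) :
    coef ρbar p b 0 0 ((ad0 ρbar p).ρ (r g) x) = coef ρbar p b 0 0 x := by
  have hg' : IsUT b (ρbar.ρ (r g)⁻¹) := by rw [← map_inv]; exact hT g⁻¹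
  have h10' : ent b 1 0 (Ad0.toEnd ρbar p x) = 0 := (mem_W1 ρbar p b).mp hx
  rw [coef_apply, toEnd_ρ, ent00_conj hg' (ent00_inv ρbar b r hT g) h10', coef_apply]

/-- **the action on `W₀`**: `(g·x)₀₁ = (χ₁/χ₂)(g) x₀₁` for `x ∈ W₀` -/
theorem coef01_ρ (g : G) {x : Ad0 ρbar p} (hx : x ∈ W0 ρbar p b) :
    coef ρbar p b 0 1 ((ad0 ρbar p).ρ (r g) x)
      = ((chi1 ρbar b r hT g * (chi2 ρbar b r hT g)⁻¹ : kˣ) : k) * coef ρbar p b 0 1 x := by
  obtain ⟨h10, h00⟩ := (mem_W0 ρbar p b).mp hx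
  have h11 : coef ρbar p b 1 1 x = 0 := by rw [coef11, h00, neg_zero]
  have h10' : ent b 1 0 (Ad0.toEnd ρbar p x) = 0 := h10
  have h00' : ent b 0 0 (Ad0.toEnd ρbar p x) = 0 := h00
  have h11' : ent b 1 1 (Ad0.toEnd ρbar p x) = 0 := h11
  rw [coef_apply, toEnd_ρ, ent01_conj h10' h00' h11', Units.val_mul, coe_chi1, coe_chi2_inv,
    coef_apply]
  ring

include hT in
/-- `W₁` is stable -/
theorem ρ_mem_W1 (g : G) {x : Ad0 ρbar p} (hx : x ∈ W1 ρbar p b) :
    (ad0 ρbar p).ρ (r g) x ∈ W1 ρbar p b := by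
  rw [mem_W1, coef10_ρ ρbar p b r hT, (mem_W1 ρbar p b).mp hx, mul_zero]

include hT in
/-- `W₀` is stable -/
theorem ρ_mem_W0 (g : G) {x : Ad0 ρbar p} (hx : x ∈ W0 ρbar p b) :
    (ad0 ρbar p).ρ (r g) x ∈ W0 ρbar p b := by
  obtain ⟨h10, h00⟩ := (mem_W0 ρbar p b).mp hx
  rw [mem_W0, coef10_ρ ρbar p b r hT, h10, mul_zero,
    coef00_ρ ρbar p b r hT g (W0_le_W1 ρbar p b hx), h00]
  exact ⟨rfl, rfl⟩

include hT in
/-- `G` acts trivially on `W₁/W₀` -/
theorem ρ_sub_mem_W0 (g : G) {x : Ad0 ρbar p} (hx : x ∈ W1 ρbar p b) :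
    (ad0 ρbar p).ρ (r g) x - x ∈ W0 ρbar p b := by
  rw [mem_W0, map_sub, map_sub, coef00_ρ ρbar p b r hT g hx, sub_self,
    (mem_W1 ρbar p b).mp (ρ_mem_W1 ρbar p b r hT g hx), (mem_W1 ρbar p b).mp hx, sub_self]
  exact ⟨rfl, rfl⟩

end Action

/-! ### Part 4: the sub-representations, the graded pieces and the short exact sequences -/

section Reps

open Fermat.Agent.S56.Ad

local notation "Γ" => (AlgebraicClosure ℚ ≃ₐ[ℚ] AlgebraicClosure ℚ)

/-- `k(φ)`: the field `k` with `G` acting through the character `φ : G → kˣ`, as a representation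
over `𝔽_p` -/
noncomputable def kCharRepn {k : Type} [Field k] (p : ℕ) [Fact p.Prime] [Algebra (ZMod p) k]
    {G : Type} [Group G] (φ : G →* kˣ) : Representation (ZMod p) G k where
  toFun g := (LinearMap.lsmul k k ((φ g : kˣ) : k)).restrictScalars (ZMod p)
  map_one' := by
    ext x
    simp
  map_mul' g h := by
    ext x
    simp [mul_assoc]

/-- `k(φ)` as an object of `Rep 𝔽_p G` -/
noncomputable abbrev kChar {k : Type} [Field k] (p : ℕ) [Fact p.Prime] [Algebra (ZMod p) k]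
    {G : Type} [Group G] (φ : G →* kˣ) : Rep (ZMod p) G := Rep.of (kCharRepn p φ)

theorem kChar_ρ_apply {k : Type} [Field k] (p : ℕ) [Fact p.Prime] [Algebra (ZMod p) k]
    {G : Type} [Group G] (φ : G →* kˣ) (g : G) (x : k) :
    (kChar p φ).ρ g x = ((φ g : kˣ) : k) * x := rfl

variable {k : Type} [Field k] (ρbar : ResidualGaloisRep k) (p : ℕ) [Fact p.Prime]
  [Algebra (ZMod p) k] (b : Basis (Fin 2) k ρbar.V)
  {G : Type} [Group G] (r : G →* Γ) (hT : ∀ g : G, IsUT b (ρbar.ρ (r g)))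

/-- `a ↦ (0, a; 0, 0)` -/
noncomputable def inc01 : k →ₗ[k] Ad0 ρbar p where
  toFun a := ofCoef ρbar p b 0 a 0
  map_add' a a' := by
    apply ad0_ext ρbar p b <;> simp [map_add]
  map_smul' t a := by
    apply ad0_ext ρbar p b <;> simp [map_smul]

/-- `a ↦ (a, 0; 0, -a)` -/
noncomputable def inc00 : k →ₗ[k] Ad0 ρbar p where
  toFun a := ofCoef ρbar p b a 0 0
  map_add' a a' := by
    apply ad0_ext ρbar p b <;> simp [map_add]
  map_smul' t a := by
    apply ad0_ext ρbar p b <;> simp [map_smul]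

/-- `a ↦ (0, 0; a, 0)` -/
noncomputable def inc10 : k →ₗ[k] Ad0 ρbar p where
  toFun a := ofCoef ρbar p b 0 0 a
  map_add' a a' := by
    apply ad0_ext ρbar p b <;> simp [map_add]
  map_smul' t a := by
    apply ad0_ext ρbar p b <;> simp [map_smul]

theorem inc01_apply (a : k) : inc01 ρbar p b a = ofCoef ρbar p b 0 a 0 := rfl
theorem inc00_apply (a : k) : inc00 ρbar p b a = ofCoef ρbar p b a 0 0 := rfl
theorem inc10_apply (a : k) : inc10 ρbar p b a = ofCoef ρbar p b 0 0 a := rfl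

/-- `ad⁰ρ̄` restricted to `G` -/
noncomputable abbrev Mres : Rep (ZMod p) G := Rep.res r (ad0 ρbar p)

/-- `W₁` as an `𝔽_p`-submodule of `ad⁰ρ̄|G` -/
noncomputable def W1p : Submodule (ZMod p) (Mres ρbar p r) :=
  (W1 ρbar p b).restrictScalars (ZMod p)

/-- `W₀` as an `𝔽_p`-submodule of `ad⁰ρ̄|G` -/
noncomputable def W0p : Submodule (ZMod p) (Mres ρbar p r) :=
  (W0 ρbar p b).restrictScalars (ZMod p)

theorem mem_W1p {x : Ad0 ρbar p} : x ∈ W1p ρbar p b r ↔ x ∈ W1 ρbar p b := Iff.rfl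

theorem mem_W0p {x : Ad0 ρbar p} : x ∈ W0p ρbar p b r ↔ x ∈ W0 ρbar p b := Iff.rfl

include hT in
theorem W1p_le_comap (g : G) :
    W1p ρbar p b r ≤ (W1p ρbar p b r).comap ((Mres ρbar p r).ρ g) :=
  fun _ hx => ρ_mem_W1 ρbar p b r hT g hx

include hT in
theorem W0p_le_comap (g : G) :
    W0p ρbar p b r ≤ (W0p ρbar p b r).comap ((Mres ρbar p r).ρ g) :=
  fun _ hx => ρ_mem_W0 ρbar p b r hT g hx

/-- **`W₁ = ad⁰ρ̄ ∩ Borel`** as a representation of `G` over `𝔽_p` -/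
noncomputable abbrev W1Rep : Rep (ZMod p) G :=
  (Mres ρbar p r).subrepresentation (W1p ρbar p b r) (W1p_le_comap ρbar p b r hT)

/-- **`W₀ = Hom(V̄/L̄, L̄)`** as a representation of `G` over `𝔽_p` -/
noncomputable abbrev W0Rep : Rep (ZMod p) G :=
  (Mres ρbar p r).subrepresentation (W0p ρbar p b r) (W0p_le_comap ρbar p b r hT)

/-- **`ad⁰ρ̄ / W₀`** as a representation of `G` over `𝔽_p` -/
noncomputable abbrev Q0Rep : Rep (ZMod p) G :=
  (Mres ρbar p r).quotient (W0p ρbar p b r) (W0p_le_comap ρbar p b r hT)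

/-- `x ↦ x₁₀`, a morphism `ad⁰ρ̄|G ⟶ k(χ₂/χ₁)` -/
noncomputable def proj10 :
    Mres ρbar p r ⟶ kChar p (chi2 ρbar b r hT * (chi1 ρbar b r hT)⁻¹) :=
  Rep.ofHom ⟨(coef ρbar p b 1 0).restrictScalars (ZMod p), fun g => LinearMap.ext fun x =>
    coef10_ρ ρbar p b r hT g x⟩

theorem proj10_apply (x : Ad0 ρbar p) :
    (proj10 ρbar p b r hT).hom x = coef ρbar p b 1 0 x := rfl

/-- `x ↦ x₀₀`, a morphism `W₁ ⟶ k` (trivial action) -/
noncomputable def proj00 : W1Rep ρbar p b r hT ⟶ kChar p (1 : G →* kˣ) :=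
  Rep.ofHom ⟨((coef ρbar p b 0 0).restrictScalars (ZMod p)).comp (W1p ρbar p b r).subtype,
    fun g => LinearMap.ext fun x => by
      show coef ρbar p b 0 0 ((ad0 ρbar p).ρ (r g) x.1) = ((1 : kˣ) : k) * coef ρbar p b 0 0 x.1
      rw [coef00_ρ ρbar p b r hT g x.2, Units.val_one, one_mul]⟩

theorem proj00_apply (x : W1Rep ρbar p b r hT) :
    (proj00 ρbar p b r hT).hom x = coef ρbar p b 0 0 x.1 := rfl

/-- `a ↦ (0, a; 0, 0)`, a morphism `k(χ₁/χ₂) ⟶ W₁` -/
noncomputable def incl01 :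
    kChar p (chi1 ρbar b r hT * (chi2 ρbar b r hT)⁻¹) ⟶ W1Rep ρbar p b r hT :=
  Rep.ofHom ⟨((inc01 ρbar p b).restrictScalars (ZMod p)).codRestrict (W1p ρbar p b r)
      (fun a => W0_le_W1 ρbar p b (ofCoef_mem_W0 ρbar p b a)),
    fun g => LinearMap.ext fun a => Subtype.ext (by
      show ofCoef ρbar p b 0 (((chi1 ρbar b r hT * (chi2 ρbar b r hT)⁻¹) g : kˣ) * a) 0
        = (ad0 ρbar p).ρ (r g) (ofCoef ρbar p b 0 a 0)
      have hmem := ofCoef_mem_W0 ρbar p b a
      have hmem' := ρ_mem_W0 ρbar p b r hT g hmem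
      obtain ⟨h10, h00⟩ := (mem_W0 ρbar p b).mp hmem'
      apply ad0_ext ρbar p b
      · rw [coef00_ofCoef, h00]
      · rw [coef01_ofCoef, coef01_ρ ρbar p b r hT g hmem, coef01_ofCoef]
        rfl
      · rw [coef10_ofCoef, h10])⟩

theorem incl01_apply (a : k) :
    ((incl01 ρbar p b r hT).hom a).1 = ofCoef ρbar p b 0 a 0 := rfl

/-- `a ↦ (0, a; 0, 0)`, a morphism `k(χ₁/χ₂) ⟶ ad⁰ρ̄|G` -/
noncomputable def incl01M :
    kChar p (chi1 ρbar b r hT * (chi2 ρbar b r hT)⁻¹) ⟶ Mres ρbar p r :=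
  incl01 ρbar p b r hT ≫ Rep.subtype _ _ _

theorem incl01M_apply (a : k) :
    (incl01M ρbar p b r hT).hom a = ofCoef ρbar p b 0 a 0 := rfl

/-- `a ↦ class of (a, 0; 0, -a)`, a morphism `k ⟶ ad⁰ρ̄/W₀` (trivial action on the source) -/
noncomputable def incl00Q : kChar p (1 : G →* kˣ) ⟶ Q0Rep ρbar p b r hT :=
  Rep.ofHom ⟨(W0p ρbar p b r).mkQ.comp ((inc00 ρbar p b).restrictScalars (ZMod p)),
    fun g => LinearMap.ext fun a => by
      show (W0p ρbar p b r).mkQ (ofCoef ρbar p b (((1 : kˣ) : k) * a) 0 0)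
        = (W0p ρbar p b r).mkQ ((ad0 ρbar p).ρ (r g) (ofCoef ρbar p b a 0 0))
      rw [Units.val_one, one_mul]
      symm
      rw [Submodule.mkQ_apply, Submodule.mkQ_apply, Submodule.Quotient.eq]
      exact ρ_sub_mem_W0 ρbar p b r hT g (ofCoef_mem_W1 ρbar p b a 0)⟩

theorem incl00Q_apply (a : k) :
    (incl00Q ρbar p b r hT).hom a = (W0p ρbar p b r).mkQ (ofCoef ρbar p b a 0 0) := rfl

/-- `k ⟶ ad⁰ρ̄/W₀` is injective: `k = W₁/W₀ ⊂ (ad⁰ρ̄/W₀)^G` -/
theorem incl00Q_injective : Function.Injective (incl00Q ρbar p b r hT).hom := by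
  intro a a' h
  rw [incl00Q_apply, incl00Q_apply, Submodule.mkQ_apply, Submodule.mkQ_apply,
    Submodule.Quotient.eq] at h
  have h00 := ((mem_W0 ρbar p b).mp h).2
  rw [map_sub, coef00_ofCoef, coef00_ofCoef] at h00
  exact sub_eq_zero.mp h00

/-- **`0 → W₁ → ad⁰ρ̄|G → k(χ₂/χ₁) → 0`** -/
noncomputable def seqA : ShortComplex (Rep (ZMod p) G) where
  X₁ := W1Rep ρbar p b r hT
  X₂ := Mres ρbar p r
  X₃ := kChar p (chi2 ρbar b r hT * (chi1 ρbar b r hT)⁻¹)
  f := Rep.subtype _ _ _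
  g := proj10 ρbar p b r hT
  zero := by
    ext x
    exact (mem_W1 ρbar p b).mp x.2

theorem seqA_shortExact : (seqA ρbar p b r hT).ShortExact := by
  refine Fermat.Agent.S55.CF.rep_shortExact_of _ ?_ ?_ ?_
  · intro x y hxy
    exact Subtype.ext hxy
  · intro c
    exact ⟨ofCoef ρbar p b 0 0 c, coef10_ofCoef ρbar p b 0 0 c⟩
  · intro x hx
    exact ⟨⟨x, (mem_W1 ρbar p b).mpr hx⟩, rfl⟩

/-- **`0 → k(χ₁/χ₂) → W₁ → k → 0`** -/
noncomputable def seqB : ShortComplex (Rep (ZMod p) G) where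
  X₁ := kChar p (chi1 ρbar b r hT * (chi2 ρbar b r hT)⁻¹)
  X₂ := W1Rep ρbar p b r hT
  X₃ := kChar p (1 : G →* kˣ)
  f := incl01 ρbar p b r hT
  g := proj00 ρbar p b r hT
  zero := by
    ext a
    exact coef00_ofCoef ρbar p b 0 a 0

theorem seqB_shortExact : (seqB ρbar p b r hT).ShortExact := by
  refine Fermat.Agent.S55.CF.rep_shortExact_of _ ?_ ?_ ?_
  · intro (a : k) (a' : k) h
    have h1 : coef ρbar p b 0 1 ((incl01 ρbar p b r hT).hom a).1
        = coef ρbar p b 0 1 ((incl01 ρbar p b r hT).hom a').1 :=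
      congrArg (fun x : W1Rep ρbar p b r hT => coef ρbar p b 0 1 x.1) h
    rw [incl01_apply, incl01_apply, coef01_ofCoef, coef01_ofCoef] at h1
    exact h1
  · intro a
    exact ⟨⟨ofCoef ρbar p b a 0 0, ofCoef_mem_W1 ρbar p b a 0⟩, coef00_ofCoef ρbar p b a 0 0⟩
  · intro x hx
    refine ⟨coef ρbar p b 0 1 x.1, Subtype.ext ?_⟩
    have h10 : coef ρbar p b 1 0 x.1 = 0 := (mem_W1 ρbar p b).mp x.2
    have h00 : coef ρbar p b 0 0 x.1 = 0 := hx
    show ofCoef ρbar p b 0 (coef ρbar p b 0 1 x.1) 0 = x.1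
    apply ad0_ext ρbar p b
    · rw [coef00_ofCoef, h00]
    · rw [coef01_ofCoef]
    · rw [coef10_ofCoef, h10]

/-- **`0 → W₀ → ad⁰ρ̄|G → ad⁰ρ̄/W₀ → 0`** -/
noncomputable def seqW0 : ShortComplex (Rep (ZMod p) G) :=
  subSeq (Mres ρbar p r) (W0p ρbar p b r) (W0p_le_comap ρbar p b r hT)

theorem seqW0_shortExact : (seqW0 ρbar p b r hT).ShortExact := subSeq_shortExact _ _ _

/-- **`0 → k(χ₁/χ₂) → ad⁰ρ̄|G → ad⁰ρ̄/W₀ → 0`** (the sequence of E-SO: `W = W₀ ≅ k(χ₁/χ₂)`) -/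
noncomputable def seqC : ShortComplex (Rep (ZMod p) G) where
  X₁ := kChar p (chi1 ρbar b r hT * (chi2 ρbar b r hT)⁻¹)
  X₂ := Mres ρbar p r
  X₃ := Q0Rep ρbar p b r hT
  f := incl01M ρbar p b r hT
  g := Rep.mkQ _ _ _
  zero := by
    ext a
    exact (Submodule.Quotient.mk_eq_zero _).2 (ofCoef_mem_W0 ρbar p b a)

theorem seqC_shortExact : (seqC ρbar p b r hT).ShortExact := by
  refine Fermat.Agent.S55.CF.rep_shortExact_of _ ?_ ?_ ?_
  · intro (a : k) (a' : k) h
    have h1 : coef ρbar p b 0 1 ((incl01M ρbar p b r hT).hom a)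
        = coef ρbar p b 0 1 ((incl01M ρbar p b r hT).hom a') :=
      congrArg (fun x : Ad0 ρbar p => coef ρbar p b 0 1 x) h
    rw [incl01M_apply, incl01M_apply, coef01_ofCoef, coef01_ofCoef] at h1
    exact h1
  · exact Submodule.mkQ_surjective _
  · intro (x : Ad0 ρbar p) hx
    have hx0 : x ∈ W0 ρbar p b := (Submodule.Quotient.mk_eq_zero (W0p ρbar p b r)).1 hx
    obtain ⟨h10, h00⟩ := (mem_W0 ρbar p b).mp hx0
    refine ⟨coef ρbar p b 0 1 x, ?_⟩
    show ofCoef ρbar p b 0 (coef ρbar p b 0 1 x) 0 = x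
    apply ad0_ext ρbar p b
    · rw [coef00_ofCoef, h00]
    · rw [coef01_ofCoef]
    · rw [coef10_ofCoef, h10]

/-- a class of `H⁰`-type: an element of `ad⁰ρ̄` is in the image of `k(χ₁/χ₂)` iff it is in `W₀` -/
theorem mem_range_incl01M_iff (x : Ad0 ρbar p) :
    (∃ a : k, (incl01M ρbar p b r hT).hom a = x) ↔ x ∈ W0 ρbar p b := by
  constructor
  · rintro ⟨a, rfl⟩
    exact ofCoef_mem_W0 ρbar p b a
  · intro hx0
    obtain ⟨h10, h00⟩ := (mem_W0 ρbar p b).mp hx0
    refine ⟨coef ρbar p b 0 1 x, ?_⟩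
    show ofCoef ρbar p b 0 (coef ρbar p b 0 1 x) 0 = x
    apply ad0_ext ρbar p b
    · rw [coef00_ofCoef, h00]
    · rw [coef01_ofCoef]
    · rw [coef10_ofCoef, h10]

/-- an element of `W₀` is the image of its upper right coefficient -/
theorem incl01M_coef01 {x : Ad0 ρbar p} (hx : x ∈ W0 ρbar p b) :
    (incl01M ρbar p b r hT).hom (coef ρbar p b 0 1 x) = x := by
  obtain ⟨h10, h00⟩ := (mem_W0 ρbar p b).mp hx
  show ofCoef ρbar p b 0 (coef ρbar p b 0 1 x) 0 = x
  apply ad0_ext ρbar p b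
  · rw [coef00_ofCoef, h00]
  · rw [coef01_ofCoef]
  · rw [coef10_ofCoef, h10]

/-- **`W₀ ≅ k(χ₁/χ₂)`** -/
noncomputable def isoW0 :
    W0Rep ρbar p b r hT ≅ kChar p (chi1 ρbar b r hT * (chi2 ρbar b r hT)⁻¹) :=
  Rep.mkIso (Representation.Equiv.mk
    { toFun := fun x => coef ρbar p b 0 1 x.1
      map_add' := fun x y => map_add _ _ _
      map_smul' := fun m x => by
        show coef ρbar p b 0 1 (m • x.1) = m • coef ρbar p b 0 1 x.1
        rw [← algebraMap_smul k m x.1, map_smul, algebraMap_smul]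
      invFun := fun a => ⟨ofCoef ρbar p b 0 a 0, ofCoef_mem_W0 ρbar p b a⟩
      left_inv := fun x => Subtype.ext (incl01M_coef01 ρbar p b r hT x.2)
      right_inv := fun a => coef01_ofCoef ρbar p b 0 a 0 }
    fun g => LinearMap.ext fun x => coef01_ρ ρbar p b r hT g x.2)

theorem isoW0_hom_apply (x : W0Rep ρbar p b r hT) :
    (isoW0 ρbar p b r hT).hom.hom x = coef ρbar p b 0 1 x.1 := rfl

/-! #### finiteness and discreteness of all the terms -/

instance instFiniteKChar [Module.Finite (ZMod p) k] (φ : G →* kˣ) :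
    Module.Finite (ZMod p) (kChar p φ) := inferInstanceAs (Module.Finite (ZMod p) k)

theorem finrank_kChar (φ : G →* kˣ) :
    finrank (ZMod p) (kChar p φ) = finrank (ZMod p) k := rfl

instance instFiniteMres [Module.Finite (ZMod p) k] : Module.Finite (ZMod p) (Mres ρbar p r) :=
  inferInstanceAs (Module.Finite (ZMod p) (Ad0 ρbar p))

instance instFiniteW1Rep [Module.Finite (ZMod p) k] :
    Module.Finite (ZMod p) (W1Rep ρbar p b r hT) :=
  inferInstanceAs (Module.Finite (ZMod p) ↥(W1p ρbar p b r))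

instance instFiniteW0Rep [Module.Finite (ZMod p) k] :
    Module.Finite (ZMod p) (W0Rep ρbar p b r hT) :=
  inferInstanceAs (Module.Finite (ZMod p) ↥(W0p ρbar p b r))

instance instFiniteQ0Rep [Module.Finite (ZMod p) k] :
    Module.Finite (ZMod p) (Q0Rep ρbar p b r hT) :=
  inferInstanceAs (Module.Finite (ZMod p) ((Mres ρbar p r) ⧸ (W0p ρbar p b r)))

section Discrete

open Fermat.Agent.S55.Level Fermat.Agent.S55.Devissage

variable (𝒰 : LevelStructure G) [IsDiscrete 𝒰 (Mres ρbar p r)]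

theorem isDiscrete_W1Rep : IsDiscrete 𝒰 (W1Rep ρbar p b r hT) :=
  isDiscrete_of_injective (Rep.subtype _ _ _) fun _ _ h => Subtype.ext h

theorem isDiscrete_W0Rep : IsDiscrete 𝒰 (W0Rep ρbar p b r hT) :=
  isDiscrete_of_injective (Rep.subtype _ _ _) fun _ _ h => Subtype.ext h

theorem isDiscrete_Q0Rep : IsDiscrete 𝒰 (Q0Rep ρbar p b r hT) :=
  isDiscrete_of_surjective (Rep.mkQ _ _ _) (Submodule.mkQ_surjective _)

/-- `k(χ₂/χ₁)` is discrete -/
theorem isDiscrete_kChar_chi2_div_chi1 :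
    IsDiscrete 𝒰 (kChar p (chi2 ρbar b r hT * (chi1 ρbar b r hT)⁻¹)) :=
  isDiscrete_of_surjective (proj10 ρbar p b r hT)
    fun c => ⟨ofCoef ρbar p b 0 0 c, coef10_ofCoef ρbar p b 0 0 c⟩

/-- `k(χ₁/χ₂)` is discrete -/
theorem isDiscrete_kChar_chi1_div_chi2 :
    IsDiscrete 𝒰 (kChar p (chi1 ρbar b r hT * (chi2 ρbar b r hT)⁻¹)) :=
  isDiscrete_of_injective (incl01M ρbar p b r hT) fun (a : k) (a' : k) h => by
    have h1 : coef ρbar p b 0 1 ((incl01M ρbar p b r hT).hom a)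
        = coef ρbar p b 0 1 ((incl01M ρbar p b r hT).hom a') :=
      congrArg (fun x : Ad0 ρbar p => coef ρbar p b 0 1 x) h
    rw [incl01M_apply, incl01M_apply, coef01_ofCoef, coef01_ofCoef] at h1
    exact h1

/-- the trivial representation `k` is discrete (for any level structure) -/
theorem isDiscrete_kChar_one (𝒰 : LevelStructure G) : IsDiscrete 𝒰 (kChar p (1 : G →* kˣ)) :=
  ⟨fun a => by
    obtain ⟨U, hU⟩ := 𝒰.nonempty
    exact ⟨U, hU, fun u _ => by
      show (((1 : G →* kˣ) u : kˣ) : k) * a = a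
      rw [MonoidHom.one_apply, Units.val_one, one_mul]⟩⟩

end Discrete

end Reps

end Fermat.Agent.S56.Loc.BorelCore
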