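/-
S56 / LOC, E-ECp reducible case, formal part (helper19): for `ρ̄|G` upper triangular,
`e(ad⁰ρ̄|G) ≥ e(k(χ₁/χ₂)) + e(k) + e(k(χ₂/χ₁))`, `e = h¹ − h⁰ − h²` (helper25's `SuperAdd.eulerE`),
from the Borel filtration of `S56/Loc/BorelCore` and super-additivity (twice).
-/
import Mathlib
import Fermat.Agent.S56.Loc.BorelCore
import Fermat.Agent.S56.Loc.SuperAdd

set_option autoImplicit false
set_option linter.unusedSectionVars false

namespace Fermat.Agent.S56.Loc.BorelEuler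

open Module CategoryTheory Fermat.Agent.S56.Ad Fermat.Agent.S56.Loc.BorelCore
  Fermat.Agent.S56.Loc.SuperAdd Fermat.Agent.S55.Level

local notation "Γ" => (AlgebraicClosure ℚ ≃ₐ[ℚ] AlgebraicClosure ℚ)

variable {k : Type} [Field k] (ρbar : ResidualGaloisRep k) (p : ℕ) [Fact p.Prime]
  [Algebra (ZMod p) k] [Module.Finite (ZMod p) k] (b : Basis (Fin 2) k ρbar.V)
  {G : Type} [Group G] (r : G →* Γ) (hT : ∀ g : G, IsUT b (ρbar.ρ (r g)))
  (𝒰 : LevelStructure G) [IsDiscrete 𝒰 (Mres ρbar p r)]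

/-- **`e(k(χ₁/χ₂)) + e(k) + e(k(χ₂/χ₁)) ≤ e(ad⁰ρ̄|G)`** for an upper triangular `ρ̄|G`, given the
finiteness of `H¹` and `H²` of finite discrete `𝔽_p[G]`-modules. -/
theorem eulerE_ad0_ge
    (h1 : ∀ (X : Rep (ZMod p) G) [IsDiscrete 𝒰 X] [FiniteDimensional (ZMod p) X],
      FiniteDimensional (ZMod p) (levelCohomology 𝒰 X 1))
    (h2 : ∀ (X : Rep (ZMod p) G) [IsDiscrete 𝒰 X] [FiniteDimensional (ZMod p) X],
      FiniteDimensional (ZMod p) (levelCohomology 𝒰 X 2)) :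
    @eulerE _ _ _ _ 𝒰 (kChar p (chi1 ρbar b r hT * (chi2 ρbar b r hT)⁻¹))
        (isDiscrete_kChar_chi1_div_chi2 ρbar p b r hT 𝒰)
      + @eulerE _ _ _ _ 𝒰 (kChar p (1 : G →* kˣ)) (isDiscrete_kChar_one p 𝒰)
      + @eulerE _ _ _ _ 𝒰 (kChar p (chi2 ρbar b r hT * (chi1 ρbar b r hT)⁻¹))
        (isDiscrete_kChar_chi2_div_chi1 ρbar p b r hT 𝒰)
      ≤ eulerE 𝒰 (Mres ρbar p r) := by
  have d1 := isDiscrete_kChar_chi1_div_chi2 ρbar p b r hT 𝒰
  have d2 := isDiscrete_kChar_one (k := k) (G := G) p 𝒰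
  have d3 := isDiscrete_kChar_chi2_div_chi1 ρbar p b r hT 𝒰
  have d4 := isDiscrete_W1Rep ρbar p b r hT 𝒰
  -- the two short exact sequences
  have hA := seqA_shortExact ρbar p b r hT
  have hB := seqB_shortExact ρbar p b r hT
  have iA1 : IsDiscrete 𝒰 (seqA ρbar p b r hT).X₁ := d4
  have iA2 : IsDiscrete 𝒰 (seqA ρbar p b r hT).X₂ := inferInstanceAs (IsDiscrete 𝒰 (Mres ρbar p r))
  have iA3 : IsDiscrete 𝒰 (seqA ρbar p b r hT).X₃ := d3
  have iB1 : IsDiscrete 𝒰 (seqB ρbar p b r hT).X₁ := d1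
  have iB2 : IsDiscrete 𝒰 (seqB ρbar p b r hT).X₂ := d4
  have iB3 : IsDiscrete 𝒰 (seqB ρbar p b r hT).X₃ := d2
  have fA1 : FiniteDimensional (ZMod p) (seqA ρbar p b r hT).X₁ :=
    inferInstanceAs (Module.Finite (ZMod p) (W1Rep ρbar p b r hT))
  have fA2 : FiniteDimensional (ZMod p) (seqA ρbar p b r hT).X₂ :=
    inferInstanceAs (Module.Finite (ZMod p) (Mres ρbar p r))
  have fA3 : FiniteDimensional (ZMod p) (seqA ρbar p b r hT).X₃ :=
    inferInstanceAs (Module.Finite (ZMod p) k)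
  have fB1 : FiniteDimensional (ZMod p) (seqB ρbar p b r hT).X₁ :=
    inferInstanceAs (Module.Finite (ZMod p) k)
  have fB2 : FiniteDimensional (ZMod p) (seqB ρbar p b r hT).X₂ :=
    inferInstanceAs (Module.Finite (ZMod p) (W1Rep ρbar p b r hT))
  have fB3 : FiniteDimensional (ZMod p) (seqB ρbar p b r hT).X₃ :=
    inferInstanceAs (Module.Finite (ZMod p) k)
  have a11 := h1 (seqA ρbar p b r hT).X₁
  have a12 := h1 (seqA ρbar p b r hT).X₂
  have a13 := h1 (seqA ρbar p b r hT).X₃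
  have a21 := h2 (seqA ρbar p b r hT).X₁
  have a22 := h2 (seqA ρbar p b r hT).X₂
  have a23 := h2 (seqA ρbar p b r hT).X₃
  have b11 := h1 (seqB ρbar p b r hT).X₁
  have b12 := h1 (seqB ρbar p b r hT).X₂
  have b13 := h1 (seqB ρbar p b r hT).X₃
  have b21 := h2 (seqB ρbar p b r hT).X₁
  have b22 := h2 (seqB ρbar p b r hT).X₂
  have b23 := h2 (seqB ρbar p b r hT).X₃
  have eA := eulerE_superAdditive 𝒰 hA
  have eB := eulerE_superAdditive 𝒰 hB
  have eA' : eulerE 𝒰 (W1Rep ρbar p b r hT)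
      + eulerE 𝒰 (kChar p (chi2 ρbar b r hT * (chi1 ρbar b r hT)⁻¹))
      ≤ eulerE 𝒰 (Mres ρbar p r) := eA
  have eB' : eulerE 𝒰 (kChar p (chi1 ρbar b r hT * (chi2 ρbar b r hT)⁻¹))
      + eulerE 𝒰 (kChar p (1 : G →* kˣ)) ≤ eulerE 𝒰 (W1Rep ρbar p b r hT) := eB
  linarith

end Fermat.Agent.S56.Loc.BorelEuler
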