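/-
S56 / FL-C input (helper2): the mod-`p` cyclotomic character restricted to the inertia group at `p`
is ONTO `(ZMod p)ˣ` — i.e. `ℚ_p(ζ_p)/ℚ_p` is totally ramified of degree `p - 1`, in the vocabulary of
`UnramInstNorm.normInertia` and of finite Galois subextensions `L` of `PadicAlgCl p / ℚ_p`.

Proof: let `H ≤ (ZMod p)ˣ` be the image of inertia.  The element `y = ∏_{h ∈ H} (ζ ^ h - 1)` is fixed
by inertia, hence lies in an unramified extension, hence `‖y‖ ∈ p ^ ℤ`.  But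
`‖ζ ^ h - 1‖ = ‖ζ - 1‖` and `‖ζ - 1‖ ^ (p - 1) = p⁻¹`, so `‖y‖ = p ^ (-|H|/(p-1))` and
`(p - 1) ∣ |H|`.

* `norm_pow_sub_one_eq`, `norm_sub_one_pow_eq` : the two norm identities;
* `norm_eq_zpow_of_forall_fixed` : an element fixed by inertia has norm in `p ^ ℤ`;
* `map_autToPow_normInertia` : the image of inertia under `hζ.autToPow ℚ_[p]` is `⊤`;
* **`exists_mem_normInertia_apply_eq_pow`**, `exists_mem_normInertia_autToPow_eq`,
  `exists_mem_normInertia_forall_apply_eq_pow` : surjectivity on the inertia group of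
  `Gal(PadicAlgCl p / ℚ_p)`;
* **`exists_mem_normInertia_restrictNormalHom`**, `exists_inertial_apply_eq_pow` : the same for a
  finite normal `L ∋ ζ_p`, inertia in norm form;
* `exists_mem_normInertia_cycloChar_eq`, `exists_mem_inertia_cycloChar_eq`,
  `exists_mem_localInertia_cycloChar_eq` : in terms of `ExtCitation.cycloChar p`, locally, at every
  `P` over `p`, and on `Places.Dict.localInertia`.
-/
import Mathlib
import Fermat.Agent.S56.Loc.CycloRamified

set_option autoImplicit false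
set_option linter.unusedSectionVars false

namespace Fermat.Agent.S56.Loc.CycloRamifiedOnto

open IntermediateField IsLocalRing Fermat.Agent.S55.LocalInt Fermat.Agent.S55.LocalDict
  Fermat.Agent.S55.Local.Unram Fermat.Agent.S56.PT.UnramInstNorm
  Fermat.Agent.S56.Loc.CycloRamified

local notation "Qbar" => AlgebraicClosure ℚ

variable (p : ℕ) [Fact p.Prime]

/-! ### Norm identities -/

/-- `‖ζ ^ a - 1‖ = ‖ζ - 1‖` for `a` prime to `p`. -/
theorem norm_pow_sub_one_eq {ζ : PadicAlgCl p} (hζ : IsPrimitiveRoot ζ p) {a : ℕ}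
    (ha : ¬p ∣ a) : ‖ζ ^ a - 1‖ = ‖ζ - 1‖ := by
  have hp : p.Prime := Fact.out
  have hint : IsIntegral ℤ_[p] ζ := isIntegral_of_pow_eq_one p hζ.pow_eq_one
  apply le_antisymm
  · rw [← norm_neg, neg_sub]
    exact norm_one_sub_pow_le p hint a
  · have hcop : Nat.Coprime a p := (Nat.Coprime.symm ((Nat.Prime.coprime_iff_not_dvd hp).2 ha))
    have hζa : IsPrimitiveRoot (ζ ^ a) p := hζ.pow_of_coprime a hcop
    obtain ⟨i, -, hi⟩ := hζa.eq_pow_of_pow_eq_one hζ.pow_eq_one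
    have hinta : IsIntegral ℤ_[p] (ζ ^ a) := hint.pow a
    have h1 := norm_one_sub_pow_le p hinta i
    rw [hi, ← norm_neg, neg_sub] at h1
    exact h1

/-- `‖ζ - 1‖ ^ (p - 1) = p⁻¹` for a primitive `p`-th root of unity `ζ` of `PadicAlgCl p`. -/
theorem norm_sub_one_pow_eq {ζ : PadicAlgCl p} (hζ : IsPrimitiveRoot ζ p) :
    ‖ζ - 1‖ ^ (p - 1) = (p : ℝ)⁻¹ := by
  have hp : p.Prime := Fact.out
  have hp1 : p - 1 + 1 = p := Nat.sub_add_cancel hp.pos
  have hζ' : IsPrimitiveRoot ζ (p - 1 + 1) := by rw [hp1]; exact hζ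
  have hprod := hζ'.prod_one_sub_pow_eq_order
  have hcast : ((p : ℕ) : PadicAlgCl p) = ((p - 1 : ℕ) : PadicAlgCl p) + 1 := by
    rw [← Nat.cast_succ, Nat.succ_eq_add_one, hp1]
  have hmain : ‖((p : ℕ) : PadicAlgCl p)‖ = ‖ζ - 1‖ ^ (p - 1) := by
    rw [hcast, ← hprod, norm_prod]
    calc ∏ k ∈ Finset.range (p - 1), ‖1 - ζ ^ (k + 1)‖
        = ∏ _k ∈ Finset.range (p - 1), ‖ζ - 1‖ := by
          refine Finset.prod_congr rfl fun k hk => ?_
          rw [← norm_neg, neg_sub]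
          refine norm_pow_sub_one_eq p hζ ?_
          intro hdvd
          have := Nat.le_of_dvd (Nat.succ_pos k) hdvd
          have hk' := Finset.mem_range.1 hk
          omega
      _ = ‖ζ - 1‖ ^ (p - 1) := by rw [Finset.prod_const, Finset.card_range]
  rw [← hmain]
  exact norm_natCast_self p

/-! ### Elements fixed by inertia have norm in `p ^ ℤ` -/

/-- A non-zero element of an unramified extension has norm a power of `p`. -/
theorem norm_eq_zpow_of_mem_unramified {E : IntermediateField ℚ_[p] (PadicAlgCl p)}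
    (hE : IsUnramifiedIn ℤ_[p] E) {y : PadicAlgCl p} (hy : y ≠ 0) (hmem : y ∈ E) :
    ∃ n : ℤ, ‖y‖ = (p : ℝ) ^ n := by
  have hfd := hE.1
  have hy0 : (⟨y, hmem⟩ : E) ≠ 0 := by
    intro h
    apply hy
    have := congrArg (Subtype.val : E → PadicAlgCl p) h
    simpa using this
  obtain ⟨n, hn⟩ := (isUnramifiedIn_iff_forall_norm_eq_zpow E).1 hE _ hy0
  exact ⟨n, hn⟩

/-- A non-zero element fixed by the inertia group has norm a power of `p`. -/
theorem norm_eq_zpow_of_forall_fixed {y : PadicAlgCl p} (hy : y ≠ 0)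
    (hfix : ∀ τ ∈ normInertia p, τ y = y) : ∃ n : ℤ, ‖y‖ = (p : ℝ) ^ n := by
  have hint : IsIntegral ℚ_[p] y := Algebra.IsIntegral.isIntegral y
  have hfd : FiniteDimensional ℚ_[p] ℚ_[p]⟮y⟯ := adjoin.finiteDimensional hint
  have hle : ℚ_[p]⟮y⟯ ≤ IntermediateField.fixedField (normInertia p) := by
    rw [adjoin_simple_le_iff, IntermediateField.mem_fixedField_iff]
    intro τ hτ
    exact hfix τ hτ
  obtain ⟨k, hk⟩ := exists_le_En_of_le_fixedField p hle
  exact norm_eq_zpow_of_mem_unramified p (isUnramifiedIn_En_succ p k) hy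
    (hk (mem_adjoin_simple_self ℚ_[p] y))

/-! ### Surjectivity on the inertia group of `Gal(PadicAlgCl p / ℚ_p)` -/

section Onto

variable {p}

local instance neZero_p_CRO : NeZero p := ⟨(Fact.out : p.Prime).ne_zero⟩

theorem not_dvd_val (h : (ZMod p)ˣ) : ¬p ∣ (h : ZMod p).val := by
  intro h2
  have h3 : ((h : ZMod p).val : ZMod p) = 0 := (ZMod.natCast_eq_zero_iff _ _).2 h2
  rw [ZMod.natCast_zmod_val] at h3
  exact h.ne_zero h3

variable {ζ : PadicAlgCl p} (hζ : IsPrimitiveRoot ζ p)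

include hζ in
theorem pow_val_sub_one_ne_zero (h : (ZMod p)ˣ) : ζ ^ (h : ZMod p).val - 1 ≠ 0 := by
  intro h0
  have h1 : ζ ^ (h : ZMod p).val = 1 := sub_eq_zero.1 h0
  exact not_dvd_val h ((hζ.pow_eq_one_iff_dvd _).1 h1)

include hζ in
/-- exponents of `ζ` only matter mod `p` -/
theorem pow_val_natCast (m : ℕ) : ζ ^ ((m : ZMod p).val) = ζ ^ m := by
  rw [ZMod.val_natCast]
  conv_rhs => rw [← Nat.mod_add_div m p, pow_add, pow_mul, hζ.pow_eq_one, one_pow, mul_one]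

/-- `τ (ζ ^ h) = ζ ^ (χ(τ) h)`. -/
theorem apply_pow_val (τ : PadicAlgCl p ≃ₐ[ℚ_[p]] PadicAlgCl p) (h : (ZMod p)ˣ) :
    τ (ζ ^ (h : ZMod p).val) = ζ ^ ((hζ.autToPow ℚ_[p] τ * h : (ZMod p)ˣ) : ZMod p).val := by
  rw [map_pow, ← hζ.autToPow_spec ℚ_[p] τ, ← pow_mul, ← pow_val_natCast hζ, Units.val_mul,
    Nat.cast_mul, ZMod.natCast_zmod_val, ZMod.natCast_zmod_val]

/-- **The image of inertia under the mod-`p` cyclotomic character is everything.** -/
theorem map_autToPow_normInertia : (normInertia p).map (hζ.autToPow ℚ_[p]) = ⊤ := by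
  classical
  have hp : p.Prime := Fact.out
  have hq1 : (1 : ℝ) < p := by exact_mod_cast hp.one_lt
  have hq0 : (0 : ℝ) < p := by linarith
  set H : Subgroup (ZMod p)ˣ := (normInertia p).map (hζ.autToPow ℚ_[p]) with hH
  let g : H → PadicAlgCl p := fun h => ζ ^ ((h : (ZMod p)ˣ) : ZMod p).val - 1
  let y : PadicAlgCl p := ∏ h : H, g h
  have hy0 : y ≠ 0 := Finset.prod_ne_zero_iff.2 fun h _ => pow_val_sub_one_ne_zero hζ _
  have hfix : ∀ τ ∈ normInertia p, τ y = y := by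
    intro τ hτ
    have hmem : hζ.autToPow ℚ_[p] τ ∈ H := Subgroup.mem_map_of_mem _ hτ
    let e : H ≃ H := Equiv.mulLeft ⟨hζ.autToPow ℚ_[p] τ, hmem⟩
    have h1 : τ y = ∏ h : H, g (e h) := by
      show τ (∏ h : H, g h) = _
      rw [map_prod]
      refine Finset.prod_congr rfl fun h _ => ?_
      show τ (ζ ^ ((h : (ZMod p)ˣ) : ZMod p).val - 1) = _
      rw [map_sub, map_one, apply_pow_val hζ]
      rfl
    rw [h1]
    exact Equiv.prod_comp e g
  obtain ⟨n, hn⟩ := norm_eq_zpow_of_forall_fixed p hy0 hfix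
  have hnorm : ‖y‖ = ‖ζ - 1‖ ^ Nat.card H := by
    show ‖∏ h : H, g h‖ = _
    rw [norm_prod]
    have : ∀ h ∈ (Finset.univ : Finset H), ‖g h‖ = ‖ζ - 1‖ := fun h _ =>
      norm_pow_sub_one_eq p hζ (not_dvd_val _)
    rw [Finset.prod_congr rfl this, Finset.prod_const, Finset.card_univ,
      Nat.card_eq_fintype_card]
  have hr := norm_sub_one_pow_eq p hζ
  -- compare `‖ζ - 1‖ ^ (card H * (p - 1))` computed in two ways
  have hA : ((p : ℝ) ^ n) ^ (p - 1) = ((p : ℝ)⁻¹) ^ Nat.card H := by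
    rw [← hn, hnorm, ← hr, ← pow_mul, ← pow_mul, mul_comm]
  have hB : (p : ℝ) ^ (n * ((p - 1 : ℕ) : ℤ)) = (p : ℝ) ^ (-(Nat.card H : ℤ)) := by
    rw [zpow_mul, zpow_natCast, hA, zpow_neg, zpow_natCast, inv_pow]
  have hC : n * ((p - 1 : ℕ) : ℤ) = -(Nat.card H : ℤ) :=
    zpow_right_injective₀ hq0 hq1.ne' hB
  have hdvd : (p - 1) ∣ Nat.card H := by
    have : ((p - 1 : ℕ) : ℤ) ∣ (Nat.card H : ℤ) := by
      rw [← dvd_neg, ← hC]
      exact dvd_mul_left _ _
    exact Int.natCast_dvd_natCast.1 this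
  have hcardG : Nat.card (ZMod p)ˣ = p - 1 := by
    rw [Nat.card_eq_fintype_card, ZMod.card_units]
  have hdvd' : Nat.card H ∣ p - 1 := by
    rw [← hcardG]
    exact Subgroup.card_subgroup_dvd_card H
  have hcard : Nat.card H = Nat.card (ZMod p)ˣ := by
    rw [hcardG]
    exact Nat.dvd_antisymm hdvd' hdvd
  exact (Subgroup.card_eq_iff_eq_top H).1 hcard

/-- every class mod `p` is the cyclotomic character of an inertia element -/
theorem exists_mem_normInertia_autToPow_eq (a : (ZMod p)ˣ) :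
    ∃ τ ∈ normInertia p, hζ.autToPow ℚ_[p] τ = a := by
  have h : a ∈ (normInertia p).map (hζ.autToPow ℚ_[p]) := by
    rw [map_autToPow_normInertia hζ]
    exact Subgroup.mem_top a
  obtain ⟨τ, hτ, h⟩ := Subgroup.mem_map.1 h
  exact ⟨τ, hτ, h⟩

include hζ in
/-- **The mod-`p` cyclotomic character is onto on inertia**: for every `a ∈ (ZMod p)ˣ` some element
of the inertia group of `Gal(PadicAlgCl p / ℚ_p)` acts on `ζ_p` by `ζ ↦ ζ ^ a`. -/
theorem exists_mem_normInertia_apply_eq_pow (a : (ZMod p)ˣ) :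
    ∃ τ ∈ normInertia p, τ ζ = ζ ^ (a : ZMod p).val := by
  obtain ⟨τ, hτ, h⟩ := exists_mem_normInertia_autToPow_eq hζ a
  refine ⟨τ, hτ, ?_⟩
  rw [← h, hζ.autToPow_spec ℚ_[p] τ]

/-- The same, on ALL `p`-th roots of unity of `PadicAlgCl p` at once (no choice of `ζ`). -/
theorem exists_mem_normInertia_forall_apply_eq_pow (a : (ZMod p)ˣ) :
    ∃ τ ∈ normInertia p, ∀ μ : PadicAlgCl p, μ ^ p = 1 → τ μ = μ ^ (a : ZMod p).val := by
  have hp : NeZero ((p : ℕ) : PadicAlgCl p) := ⟨Nat.cast_ne_zero.mpr (Fact.out : p.Prime).ne_zero⟩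
  obtain ⟨ζ₀, hζ₀⟩ := HasEnoughRootsOfUnity.exists_primitiveRoot (PadicAlgCl p) p
  obtain ⟨τ, hτ, h⟩ := exists_mem_normInertia_apply_eq_pow hζ₀ a
  refine ⟨τ, hτ, fun μ hμ => ?_⟩
  obtain ⟨i, -, rfl⟩ := hζ₀.eq_pow_of_pow_eq_one hμ
  rw [map_pow, h, ← pow_mul, ← pow_mul, mul_comm]

end Onto

/-! ### Finite level -/

section Finite

variable {p}
variable (L : IntermediateField ℚ_[p] (PadicAlgCl p)) [Normal ℚ_[p] L]

/-- For a normal `L / ℚ_p` inside `PadicAlgCl p` and `a ∈ (ZMod p)ˣ` there is an element `τ` of the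
inertia group of `Gal(PadicAlgCl p / ℚ_p)` whose restriction to `L` acts on all `p`-th roots of
unity of `L` by `μ ↦ μ ^ a`. -/
theorem exists_mem_normInertia_restrictNormalHom (a : (ZMod p)ˣ) :
    ∃ τ ∈ normInertia p, ∀ μ : L, μ ^ p = 1 →
      AlgEquiv.restrictNormalHom L τ μ = μ ^ (a : ZMod p).val := by
  obtain ⟨τ, hτ, h⟩ := exists_mem_normInertia_forall_apply_eq_pow (p := p) a
  refine ⟨τ, hτ, fun μ hμ => Subtype.ext ?_⟩
  have h1 : ((AlgEquiv.restrictNormalHom L τ μ : L) : PadicAlgCl p) = τ μ :=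
    AlgEquiv.restrictNormal_commutes τ L μ
  have hμ' : (μ : PadicAlgCl p) ^ p = 1 := by
    have := congrArg (Subtype.val) hμ
    simpa using this
  rw [h1, h _ hμ']
  simp

/-- the restriction to `L` of an inertia element is inertial, in norm form -/
theorem norm_restrictNormalHom_sub_lt {τ : PadicAlgCl p ≃ₐ[ℚ_[p]] PadicAlgCl p}
    (hτ : τ ∈ normInertia p) (x : L) (hx : ‖(x : PadicAlgCl p)‖ ≤ 1) :
    ‖((AlgEquiv.restrictNormalHom L τ x - x : L) : PadicAlgCl p)‖ < 1 := by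
  have h1 : ((AlgEquiv.restrictNormalHom L τ x : L) : PadicAlgCl p) = τ x :=
    AlgEquiv.restrictNormal_commutes τ L x
  have h2 : ((AlgEquiv.restrictNormalHom L τ x - x : L) : PadicAlgCl p) = τ x - x := by
    rw [← h1]
    rfl
  rw [h2]
  exact (mem_normInertia_iff p τ).1 hτ _ hx

/-- **Finite-level surjectivity**: for a normal `L / ℚ_p` inside `PadicAlgCl p` and
`a ∈ (ZMod p)ˣ` there is `σ ∈ Gal(L/ℚ_p)`, inertial (`‖σ x - x‖ < 1` for all integral `x`), acting on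
all `p`-th roots of unity of `L` by `μ ↦ μ ^ a`. -/
theorem exists_inertial_apply_eq_pow (a : (ZMod p)ˣ) :
    ∃ σ : L ≃ₐ[ℚ_[p]] L,
      (∀ x : L, ‖(x : PadicAlgCl p)‖ ≤ 1 → ‖((σ x - x : L) : PadicAlgCl p)‖ < 1) ∧
        ∀ μ : L, μ ^ p = 1 → σ μ = μ ^ (a : ZMod p).val := by
  obtain ⟨τ, hτ, h⟩ := exists_mem_normInertia_restrictNormalHom L a
  exact ⟨AlgEquiv.restrictNormalHom L τ, fun x hx => norm_restrictNormalHom_sub_lt L hτ x hx, h⟩

end Finite

/-! ### In terms of `ExtCitation.cycloChar` -/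

section Cyclo

local instance neZero_p_CRO' : NeZero p := ⟨(Fact.out : p.Prime).ne_zero⟩

/-- `cycloChar p` is onto `(ZMod p)ˣ` on the inertia group of `Gal(PadicAlgCl p / ℚ_p)`. -/
theorem exists_mem_normInertia_cycloChar_eq (a : (ZMod p)ˣ) :
    ∃ τ ∈ normInertia p, ExtCitation.cycloChar p (localGaloisToGlobal p τ) = a := by
  have : NeZero (p : ℚ) := ⟨by exact_mod_cast (Fact.out : p.Prime).ne_zero⟩
  have : Fact (1 < p) := ⟨(Fact.out : p.Prime).one_lt⟩
  obtain ⟨ζ₀, hζ₀⟩ := HasEnoughRootsOfUnity.exists_primitiveRoot Qbar p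
  have hζ : IsPrimitiveRoot (padicEmbedding p ζ₀) p :=
    hζ₀.map_of_injective (padicEmbedding p).toRingHom.injective
  obtain ⟨τ, hτ, h⟩ := exists_mem_normInertia_apply_eq_pow hζ a
  refine ⟨τ, hτ, ?_⟩
  rw [← padicEmbedding_localGaloisToGlobal, ← map_pow] at h
  have h1 : localGaloisToGlobal p τ ζ₀ = ζ₀ ^ (a : ZMod p).val :=
    (padicEmbedding p).toRingHom.injective h
  rw [Fermat.Agent.S55.DualTwist.cycloChar_spec p _ hζ₀.pow_eq_one] at h1
  have h2 := hζ₀.pow_inj (ZMod.val_lt _) (ZMod.val_lt _) h1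
  exact Units.ext (ZMod.val_injective p h2)

/-- `cycloChar p` is onto `(ZMod p)ˣ` on the inertia group of every `P` over `p`. -/
theorem exists_mem_inertia_cycloChar_eq (P : ValuationSubring Qbar) (hP : P.LiesOverPrime p)
    (a : (ZMod p)ˣ) : ∃ σ ∈ P.inertiaSubgroupIn ℚ, ExtCitation.cycloChar p σ = a := by
  obtain ⟨τ, hτ, h⟩ := exists_mem_normInertia_cycloChar_eq p a
  rw [← comap_inertiaSubgroupIn_eq, Subgroup.mem_comap] at hτ
  obtain ⟨g, hg⟩ := Fermat.Agent.S56.Places.Dict.exists_smul_padicPlace_eq p hP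
  refine ⟨g * localGaloisToGlobal p τ * g⁻¹, ?_, ?_⟩
  · have h := Fermat.Agent.S55.InertiaConj.conj_mem_inertiaSubgroupIn (padicPlace p) g _ hτ
    rwa [← hg] at h
  · rw [map_mul, map_mul, map_inv, mul_comm, inv_mul_cancel_left, h]

/-- The local form on `Places.Dict.localInertia (pPrime)`. -/
theorem exists_mem_localInertia_cycloChar_eq (q : Nat.Primes) (a : (ZMod (q : ℕ))ˣ) :
    haveI : Fact (q : ℕ).Prime := ⟨q.2⟩
    ∃ τ ∈ Fermat.Agent.S56.Places.Dict.localInertia q,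
      ExtCitation.cycloChar (q : ℕ) (ExtCitation.primeLocalToGlobal q τ) = a := by
  have : Fact (q : ℕ).Prime := ⟨q.2⟩
  obtain ⟨σ, hσ, h⟩ := exists_mem_inertia_cycloChar_eq (q : ℕ)
    (ExtCitation.primeLocalPlace q) (Fermat.Agent.S56.Places.Dict.liesOverPrime_primeLocalPlace q) a
  rw [← Fermat.Agent.S56.Places.Dict.map_localInertia, Subgroup.mem_map] at hσ
  obtain ⟨τ, hτ, rfl⟩ := hσ
  exact ⟨τ, hτ, h⟩

end Cyclo

end Fermat.Agent.S56.Loc.CycloRamifiedOnto
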