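/-
S56 / block E (local terms), formal part of E-SO (SO3): the RANK of `H¹(X₁) → H¹(X₂)` for a short
exact sequence `0 → X₁ → X₂ → X₃ → 0` of finite dimensional discrete representations, read off the
long exact sequence truncated at `H¹(X₂)`:

  `0 → H⁰(X₁) → H⁰(X₂) → H⁰(X₃) → H¹(X₁) → H¹(X₂)`,

  `dim im(H¹(X₁) → H¹(X₂)) + h⁰(X₃) + h⁰(X₁) = h¹(X₁) + h⁰(X₂)`.

Generic setting: `(G, 𝒰)` a group with a level structure, coefficients in a field `k`; only
`H¹(X₁)` has to be finite dimensional.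

* `finrank_five_eq` : the rank identity for an exact sequence `0 → V₁ → V₂ → V₃ → V₄ → V₅`;
* **`finrank_range_lmap_one_add`** : the identity above;
* `finrank_range_lmap_one_add_le`, `finrank_range_lmap_one_le` : the inequalities
  `dim im + d ≤ h¹(X₁) + h⁰(X₂)` for `d ≤ h⁰(X₃)`, resp. `dim im + h⁰(X₃) ≤ h¹(X₁) + h⁰(X₂)`;
* `finrank_levelCohomology_zero_le_of_injective` : `h⁰` is monotone along injections;
* `finrank_levelCohomology_zero_of_trivial` : `h⁰(T) = dim T` if `G` acts trivially on `T`;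
* **`finrank_range_lmap_one_add_le_of_trivial`** : `dim im + dim T ≤ h¹(X₁) + h⁰(X₂)` for a
  sub-representation `T ↪ X₃` with trivial action (SO3: `T = k = B⁰/W ⊂ (ad⁰/W)^{G_p}`);
* `liftCocycle`, **`levelH1π_mem_range_lmap`** (SO2): the class of a level `1`-cocycle of `B` with
  values in the image of an injection `A ↪ B` lies in `im(H¹(A) → H¹(B))`.
-/
import Mathlib
import Fermat.Agent.S55.LevelDualityPairing
import Fermat.Agent.S55.CF.LowDegree

set_option autoImplicit false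
set_option linter.unusedSectionVars false

namespace Fermat.Agent.S56.Loc.RankLES

open CategoryTheory groupCohomology Rep Module Fermat.Agent.S55.Level
  Fermat.Agent.S55.LevelDuality

universe u

/-! ### Rank identity in a five term exact sequence -/

section Five

variable {k : Type*} [Field k] {V₁ V₂ V₃ V₄ V₅ : Type*}
  [AddCommGroup V₁] [Module k V₁] [AddCommGroup V₂] [Module k V₂] [AddCommGroup V₃] [Module k V₃]
  [AddCommGroup V₄] [Module k V₄] [AddCommGroup V₅] [Module k V₅]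
  [FiniteDimensional k V₁] [FiniteDimensional k V₂] [FiniteDimensional k V₃]
  [FiniteDimensional k V₄]

/-- The rank identity for an exact sequence `0 → V₁ → V₂ → V₃ → V₄ → V₅` (`V₅` arbitrary). -/
theorem finrank_five_eq (a₁ : V₁ →ₗ[k] V₂) (a₂ : V₂ →ₗ[k] V₃) (a₃ : V₃ →ₗ[k] V₄)
    (a₄ : V₄ →ₗ[k] V₅) (h₁ : Function.Injective a₁)
    (e₁ : LinearMap.range a₁ = LinearMap.ker a₂) (e₂ : LinearMap.range a₂ = LinearMap.ker a₃)
    (e₃ : LinearMap.range a₃ = LinearMap.ker a₄) :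
    finrank k (LinearMap.range a₄) + finrank k V₃ + finrank k V₁ =
      finrank k V₄ + finrank k V₂ := by
  have r₁ := LinearMap.finrank_range_add_finrank_ker a₁
  have r₂ := LinearMap.finrank_range_add_finrank_ker a₂
  have r₃ := LinearMap.finrank_range_add_finrank_ker a₃
  have r₄ := LinearMap.finrank_range_add_finrank_ker a₄
  have k₁ : finrank k (LinearMap.ker a₁) = 0 := by
    rw [LinearMap.ker_eq_bot.2 h₁]
    exact finrank_bot k V₁
  rw [e₁] at r₁
  rw [e₂] at r₂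
  rw [e₃] at r₃
  omega

end Five

variable {k G : Type u} [Field k] [Group G] (𝒰 : LevelStructure G)

/-! ### The rank of `H¹(X₁) → H¹(X₂)` -/

section Rank

open ShortComplex

variable {X : ShortComplex (Rep.{u} k G)} [IsDiscrete 𝒰 X.X₁] [IsDiscrete 𝒰 X.X₂]
  [IsDiscrete 𝒰 X.X₃] [FiniteDimensional k X.X₁] [FiniteDimensional k X.X₂]
  [FiniteDimensional k X.X₃]

/-- **SO3, formal part**: for a short exact sequence of finite dimensional discrete
representations with `H¹(X₁)` finite dimensional,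
`dim im(H¹(X₁) → H¹(X₂)) + h⁰(X₃) + h⁰(X₁) = h¹(X₁) + h⁰(X₂)`. -/
theorem finrank_range_lmap_one_add (hX : X.ShortExact)
    [FiniteDimensional k (levelCohomology 𝒰 X.X₁ 1)] :
    finrank k (LinearMap.range (lmap 𝒰 X.f 1)) + finrank k (levelCohomology 𝒰 X.X₃ 0) +
        finrank k (levelCohomology 𝒰 X.X₁ 0) =
      finrank k (levelCohomology 𝒰 X.X₁ 1) + finrank k (levelCohomology 𝒰 X.X₂ 0) := by
  have h01 := finiteDimensional_levelCohomology_zero 𝒰 X.X₁
  have h02 := finiteDimensional_levelCohomology_zero 𝒰 X.X₂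
  have h03 := finiteDimensional_levelCohomology_zero 𝒰 X.X₃
  have hf : Function.Injective X.f.hom := (Rep.mono_iff_injective X.f).1 hX.mono_f
  exact finrank_five_eq (lmap 𝒰 X.f 0) (lmap 𝒰 X.g 0) (levelδ 𝒰 hX 0 1 rfl).hom
    (lmap 𝒰 X.f 1) (homologyMap_levelMap_zero_injective 𝒰 X.f hf)
    ((ShortComplex.moduleCat_exact_iff_range_eq_ker _).1 (level_exact₂ 𝒰 hX 0))
    ((ShortComplex.moduleCat_exact_iff_range_eq_ker _).1 (level_exact₃ 𝒰 hX 0 1 rfl))
    ((ShortComplex.moduleCat_exact_iff_range_eq_ker _).1 (level_exact₁ 𝒰 hX 0 1 rfl))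

/-- `dim im(H¹(X₁) → H¹(X₂)) + d ≤ h¹(X₁) + h⁰(X₂)` as soon as `d ≤ h⁰(X₃)`. -/
theorem finrank_range_lmap_one_add_le (hX : X.ShortExact)
    [FiniteDimensional k (levelCohomology 𝒰 X.X₁ 1)] {d : ℕ}
    (hd : d ≤ finrank k (levelCohomology 𝒰 X.X₃ 0)) :
    finrank k (LinearMap.range (lmap 𝒰 X.f 1)) + d ≤
      finrank k (levelCohomology 𝒰 X.X₁ 1) + finrank k (levelCohomology 𝒰 X.X₂ 0) := by
  have h := finrank_range_lmap_one_add 𝒰 hX
  omega

/-- `dim im(H¹(X₁) → H¹(X₂)) + h⁰(X₃) ≤ h¹(X₁) + h⁰(X₂)`. -/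
theorem finrank_range_lmap_one_le (hX : X.ShortExact)
    [FiniteDimensional k (levelCohomology 𝒰 X.X₁ 1)] :
    finrank k (LinearMap.range (lmap 𝒰 X.f 1)) + finrank k (levelCohomology 𝒰 X.X₃ 0) ≤
      finrank k (levelCohomology 𝒰 X.X₁ 1) + finrank k (levelCohomology 𝒰 X.X₂ 0) :=
  finrank_range_lmap_one_add_le 𝒰 hX le_rfl

/-- The image of `H¹(X₁) → H¹(X₂)` is finite dimensional if `H¹(X₁)` is. -/
theorem finiteDimensional_range_lmap_one
    [FiniteDimensional k (levelCohomology 𝒰 X.X₁ 1)] :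
    FiniteDimensional k (LinearMap.range (lmap 𝒰 X.f 1)) :=
  inferInstance

end Rank

/-! ### `H⁰`: monotonicity and the trivial action -/

section Zero

variable {A B : Rep.{u} k G} [IsDiscrete 𝒰 A] [IsDiscrete 𝒰 B]

/-- `h⁰` is monotone along injective morphisms. -/
theorem finrank_levelCohomology_zero_le_of_injective [FiniteDimensional k B] (f : A ⟶ B)
    (hf : Function.Injective f.hom) :
    finrank k (levelCohomology 𝒰 A 0) ≤ finrank k (levelCohomology 𝒰 B 0) := by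
  have h0 := finiteDimensional_levelCohomology_zero 𝒰 B
  exact LinearMap.finrank_le_finrank_of_injective (f := lmap 𝒰 f 0)
    (homologyMap_levelMap_zero_injective 𝒰 f hf)

/-- `h⁰(T) = dim T` if `G` acts trivially on `T`. -/
theorem finrank_levelCohomology_zero_of_trivial (T : Rep.{u} k G) [IsDiscrete 𝒰 T]
    (hT : ∀ g : G, ∀ x : T, T.ρ g x = x) :
    finrank k (levelCohomology 𝒰 T 0) = finrank k T := by
  rw [← (Fermat.Agent.S55.CF.levelH0Equiv 𝒰 T).finrank_eq]
  have htop : T.ρ.invariants = ⊤ := by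
    rw [eq_top_iff]
    intro x _
    exact (Representation.mem_invariants _ _).2 fun g => hT g x
  rw [htop, finrank_top]

end Zero

/-! ### SO3 with a trivial sub-representation of the quotient -/

section Trivial

open ShortComplex

variable {X : ShortComplex (Rep.{u} k G)} [IsDiscrete 𝒰 X.X₁] [IsDiscrete 𝒰 X.X₂]
  [IsDiscrete 𝒰 X.X₃] [FiniteDimensional k X.X₁] [FiniteDimensional k X.X₂]
  [FiniteDimensional k X.X₃]

/-- **SO3**: if a representation `T` with trivial action injects into `X₃` then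
`dim im(H¹(X₁) → H¹(X₂)) + dim T ≤ h¹(X₁) + h⁰(X₂)`. -/
theorem finrank_range_lmap_one_add_le_of_trivial (hX : X.ShortExact)
    [FiniteDimensional k (levelCohomology 𝒰 X.X₁ 1)] (T : Rep.{u} k G) [IsDiscrete 𝒰 T]
    (hT : ∀ g : G, ∀ x : T, T.ρ g x = x) (j : T ⟶ X.X₃) (hj : Function.Injective j.hom) :
    finrank k (LinearMap.range (lmap 𝒰 X.f 1)) + finrank k T ≤
      finrank k (levelCohomology 𝒰 X.X₁ 1) + finrank k (levelCohomology 𝒰 X.X₂ 0) := by
  refine finrank_range_lmap_one_add_le 𝒰 hX ?_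
  rw [← finrank_levelCohomology_zero_of_trivial 𝒰 T hT]
  exact finrank_levelCohomology_zero_le_of_injective 𝒰 j hj

end Trivial

/-! ### SO2: cocycles with values in a sub-representation -/

section Lift

variable {A B : Rep.{u} k G} [IsDiscrete 𝒰 A] [IsDiscrete 𝒰 B]

/-- A level `1`-cocycle of `B` with values in the image of an injection `f : A ↪ B` is the image
of a level `1`-cocycle of `A`. -/
theorem exists_liftCocycle (f : A ⟶ B) (hf : Function.Injective f.hom) (z : levelCocycles₁ 𝒰 B)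
    (hz : ∀ g : G, ∃ a : A, f.hom a = z.1 g) :
    ∃ z' : levelCocycles₁ 𝒰 A, ∀ g : G, f.hom (z'.1 g) = z.1 g := by
  choose w hw using hz
  refine ⟨⟨w, ?_⟩, hw⟩
  rw [Fermat.Agent.S55.Level.mem_levelCocycles₁_iff]
  obtain ⟨hz1, hz2⟩ := (Fermat.Agent.S55.Level.mem_levelCocycles₁_iff 𝒰 B z.1).1 z.2
  refine ⟨?_, ?_⟩
  · rw [mem_cocycles₁_iff]
    intro g h
    apply hf
    rw [hw, map_add, Rep.hom_comm_apply, hw, hw]
    exact (mem_cocycles₁_iff z.1).1 hz1 g h
  · obtain ⟨U, hU, h⟩ := hz2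
    refine ⟨U, hU, fun g s hs => hf ?_⟩
    rw [hw, hw]
    exact h g s hs

/-- **SO2**: the class of a level `1`-cocycle of `B` with values in the image of an injection
`f : A ↪ B` lies in the image of `H¹(A) → H¹(B)`. -/
theorem levelH1π_mem_range_lmap (f : A ⟶ B) (hf : Function.Injective f.hom)
    (z : levelCocycles₁ 𝒰 B) (hz : ∀ g : G, ∃ a : A, f.hom a = z.1 g) :
    levelH1π 𝒰 B z ∈ LinearMap.range (lmap 𝒰 f 1) := by
  obtain ⟨z', hz'⟩ := exists_liftCocycle 𝒰 f hf z hz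
  exact ⟨levelH1π 𝒰 A z', Fermat.Agent.S55.CF.Hmap_levelH1π 𝒰 f z' z hz'⟩

/-- Conversely every class in the image of `H¹(A) → H¹(B)` is represented by a level `1`-cocycle
with values in the image of `f`. -/
theorem exists_cocycle_of_mem_range_lmap (f : A ⟶ B) {x : levelCohomology 𝒰 B 1}
    (hx : x ∈ LinearMap.range (lmap 𝒰 f 1)) :
    ∃ z : levelCocycles₁ 𝒰 B, (∀ g : G, ∃ a : A, f.hom a = z.1 g) ∧ levelH1π 𝒰 B z = x := by
  obtain ⟨y, rfl⟩ := hx
  obtain ⟨z', rfl⟩ := levelH1π_surjective 𝒰 A y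
  have hmem : (fun g => f.hom (z'.1 g)) ∈ levelCocycles₁ 𝒰 B := by
    rw [Fermat.Agent.S55.Level.mem_levelCocycles₁_iff]
    obtain ⟨hz1, hz2⟩ := (Fermat.Agent.S55.Level.mem_levelCocycles₁_iff 𝒰 A z'.1).1 z'.2
    refine ⟨?_, ?_⟩
    · rw [mem_cocycles₁_iff]
      intro g h
      show f.hom (z'.1 (g * h)) = B.ρ g (f.hom (z'.1 h)) + f.hom (z'.1 g)
      rw [(mem_cocycles₁_iff z'.1).1 hz1 g h, map_add, Rep.hom_comm_apply]
    · obtain ⟨U, hU, h⟩ := hz2
      exact ⟨U, hU, fun g s hs => congrArg f.hom (h g s hs)⟩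
  refine ⟨⟨_, hmem⟩, fun g => ⟨z'.1 g, rfl⟩, ?_⟩
  exact (Fermat.Agent.S55.CF.Hmap_levelH1π 𝒰 f z' ⟨_, hmem⟩ fun _ => rfl).symm

end Lift

end Fermat.Agent.S56.Loc.RankLES
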